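/-
JT3 / Route R (S18), instance layer, Legendre cover (`ℓ` odd): the objects.

Everything is generic in the coefficient field `L` (so that `L = Q̄`, `L` a number field and the
residue fields share the definitions):

* `lg_phi L`     : `q ↦ q²` as an `L`-algebra endomorphism of `L((q))`;
* `lg_F L N`     : the level-`N` function field `L(j(q^d) : d ∣ N) ⊆ L((q))`
                   (`= modularFunctionFieldFullC L N`; for `L = Q̄` it is `modularFunctionFieldBar N`);
* `lg_F2 L N`    : its twist `φ(F_N) = L(j(q^{2d}))`;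
* `lg_lam L`     : the Legendre modulus `λ = 16 q - 128 q² + ⋯` (`hm_lam`, helper5);
* `lg_j2 L`      : `j' = j(q²) = 256 (λ² - λ + 1)³ / (λ² (λ - 1)²)`;
* `lg_K L`       : the rational field `L(λ)`;
* `lg_E L N`     : the rigidified field `E = φ(F_N)(λ)`;
* `lg_chart`     : the normalisation of a chart `O[t]`-algebra in `E`, as a subalgebra over `O`.
-/
import Mathlib
import Fermat.Prelude.Def_ModularCurve_ArithmeticGalois
import Fermat.Prelude.Def_ModularCurve_X0ModL
import Fermat.Agent.JT3.Hauptmodul.Level4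

set_option autoImplicit false

noncomputable section

open ModularCurve IntermediateField

namespace Fermat.Agent.JT3

section Defs

variable (L : Type*) [Field L] (N : ℕ) [NeZero N]

/-- `φ = (q ↦ q²)` as an `L`-algebra endomorphism of `L((q))`. -/
abbrev lg_phi : LaurentSeries L →ₐ[L] LaurentSeries L := qExpandAlgHomC L 2

theorem lg_phi_apply (x : LaurentSeries L) : lg_phi L x = qExpand L 2 x := rfl

/-- The level-`N` function field over `L`, inside `L((q))`. -/
abbrev lg_F : IntermediateField L (LaurentSeries L) := modularFunctionFieldFullC L N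

/-- The twisted level-`N` field `φ(F_N) = L(j(q^{2d}) : d ∣ N)`. -/
def lg_F2 : IntermediateField L (LaurentSeries L) := (lg_F L N).map (lg_phi L)

/-- The Legendre modulus `λ(q) = 16 q - 128 q² + ⋯`. -/
abbrev lg_lam : LaurentSeries L := hm_lam L

/-- `j' = j(q²)`. -/
def lg_j2 : LaurentSeries L := qExpand L 2 (jqModC L)

/-- The rational function field `L(λ)`. -/
def lg_K : IntermediateField L (LaurentSeries L) := IntermediateField.adjoin L {lg_lam L}

/-- The rigidified field `E = φ(F_N)(λ)`. -/
def lg_E : IntermediateField L (LaurentSeries L) := lg_F2 L N ⊔ lg_K L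

end Defs

section Basic

variable (L : Type*) [Field L] (N : ℕ) [NeZero N]

theorem lg_lam_mem_K : lg_lam L ∈ lg_K L :=
  IntermediateField.mem_adjoin_simple_self L _

theorem lg_K_le_E : lg_K L ≤ lg_E L N := le_sup_right

theorem lg_F2_le_E : lg_F2 L N ≤ lg_E L N := le_sup_left

theorem lg_lam_mem_E : lg_lam L ∈ lg_E L N := lg_K_le_E L N (lg_lam_mem_K L)

theorem lg_phi_mem_F2 {x : LaurentSeries L} (hx : x ∈ lg_F L N) : lg_phi L x ∈ lg_F2 L N :=
  ⟨x, hx, rfl⟩

theorem lg_phi_mem_E {x : LaurentSeries L} (hx : x ∈ lg_F L N) : lg_phi L x ∈ lg_E L N :=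
  lg_F2_le_E L N (lg_phi_mem_F2 L N hx)

theorem lg_j2_mem_F2 : lg_j2 L ∈ lg_F2 L N :=
  ⟨jqModC L, jqModC_mem_full L N, rfl⟩

theorem lg_j2_mem_E : lg_j2 L ∈ lg_E L N := lg_F2_le_E L N (lg_j2_mem_F2 L N)

/-- The Legendre equation: `256 (λ² - λ + 1)³ = j' λ² (λ - 1)²`. -/
theorem lg_legendre :
    256 * (lg_lam L ^ 2 - lg_lam L + 1) ^ 3 = lg_j2 L * lg_lam L ^ 2 * (lg_lam L - 1) ^ 2 :=
  hm_legendre L

/-- naturality of the objects in the coefficient ring -/
theorem lg_coeffMap_lam {L' : Type*} [Field L'] (f : L →+* L') :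
    coeffMap f (lg_lam L) = lg_lam L' := hm_coeffMap_lam f

theorem lg_coeffMap_j2 {L' : Type*} [Field L'] (f : L →+* L') :
    coeffMap f (lg_j2 L) = lg_j2 L' := by
  rw [lg_j2, coeffMap_qExpand, coeffMap_jqModC, lg_j2]

theorem lg_coeffMap_phi {L' : Type*} [Field L'] (f : L →+* L') (x : LaurentSeries L) :
    coeffMap f (lg_phi L x) = lg_phi L' (coeffMap f x) := by
  rw [lg_phi_apply, lg_phi_apply, coeffMap_qExpand]

end Basic

section BaseChange

variable (L : Type*) [Field L] [Algebra ℚ L] (N : ℕ) [NeZero N]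

/-- In characteristic zero the two descriptions of the level-`N` field agree. -/
theorem lg_F_eq_laurentBaseChange :
    lg_F L N = laurentBaseChange L (modularFunctionFieldFull N) := by
  apply le_antisymm
  · rw [lg_F, modularFunctionFieldFullC, IntermediateField.adjoin_le_iff]
    rintro _ ⟨d, hd, hdN, rfl⟩
    haveI := hd
    have h : qExpand L d (jqModC L) = coeffEmb L (qExpand ℚ d jq) := by
      rw [coeffEmb, coeffMap_qExpand, ← jqModC_rat, coeffMap_jqModC]
    rw [h]
    exact coeffEmb_mem_laurentBaseChange L (jqd_mem_full N hdN)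
  · rw [laurentBaseChange, IntermediateField.adjoin_le_iff]
    rintro _ ⟨x, hx, rfl⟩
    rw [SetLike.mem_coe, modularFunctionFieldFull] at hx
    show coeffEmb L x ∈ lg_F L N
    induction hx using IntermediateField.adjoin_induction with
    | mem y hy =>
      obtain ⟨d, hd, hdN, rfl⟩ := hy
      haveI := hd
      have h : coeffEmb L (qExpand ℚ d jq) = qExpand L d (jqModC L) := by
        rw [coeffEmb, coeffMap_qExpand, ← jqModC_rat, coeffMap_jqModC]
      rw [h]
      exact jqModCd_mem_full L N hdN
    | algebraMap r =>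
      have : coeffEmb L (algebraMap ℚ (LaurentSeries ℚ) r)
          = algebraMap L (LaurentSeries L) (algebraMap ℚ L r) := by
        rw [coeffEmb, algebraMap_laurentSeries_eq_single, coeffMap_single,
          algebraMap_laurentSeries_eq_single]
      rw [this]
      exact (lg_F L N).algebraMap_mem _
    | add x y _ _ hx hy => rw [map_add]; exact add_mem hx hy
    | inv x _ hx => rw [map_inv₀]; exact inv_mem hx
    | mul x y _ _ hx hy => rw [map_mul]; exact mul_mem hx hy

theorem lg_F_eq_bar :
    lg_F (AlgebraicClosure ℚ) N = modularFunctionFieldBar N :=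
  lg_F_eq_laurentBaseChange (AlgebraicClosure ℚ) N

end BaseChange

end Fermat.Agent.JT3
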