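/-
JT3 / Route R (S18), instance layer, Legendre cover: the intermediate statements of the chain
`S18 ⟸ jt_Key ⟸ lg_KeyE ⟸ lg_Key0 ⟸ fc_main + model`, and the charts of the model.
-/
import Mathlib
import Fermat.Agent.JT3.Inst.Defs
import Fermat.Agent.JT3.S18Key
import Fermat.Agent.JT3.Seams

set_option autoImplicit false

noncomputable section

open ModularCurve IntermediateField AlgebraicCurve

namespace Fermat.Agent.JT3

section KeyStatements

/-- **KEY over a coefficient field `L` with a valuation ring `O`** (in the application `L` is a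
number field inside `Q̄` and `O = A ∩ L` a discrete valuation ring): the statement of `jt_Key`
over `(L, O)`, with conclusion in the rigidified field `E = φ(F_N)(λ)`. -/
def lg_Key0 (L : Type*) [Field L] (O : ValuationSubring L) (N : ℕ) [NeZero N] (p : ℕ) : Prop :=
  ∀ (y1 y2 : LaurentSeries O)
    (h1 : coeffMap O.subtype y1 ∈ lg_F L N) (h2 : coeffMap O.subtype y2 ∈ lg_F L N),
    coeffMap (IsLocalRing.residue O) y1 = coeffMap (IsLocalRing.residue O) y2 →
    coeffMap (IsLocalRing.residue O) y2 ≠ 0 →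
    ∀ f : lg_F L N,
      f * (⟨coeffMap O.subtype y2, h2⟩ : lg_F L N) = (⟨coeffMap O.subtype y1, h1⟩ : lg_F L N) →
      (∀ P : Place L (lg_F L N), (p : ℤ) ∣ P.ord f) →
      ∃ (c : L) (g : LaurentSeries L), g ∈ lg_E L N ∧
        lg_phi L (f : LaurentSeries L) = algebraMap L (LaurentSeries L) c * g ^ p

/-- **KEY_E**: the statement of `jt_Key A N p` with conclusion in `E = φ(F_N)(λ)` over `Q̄`. -/
def lg_KeyE (A : ValuationSubring (AlgebraicClosure ℚ)) (N : ℕ) [NeZero N] (p : ℕ) : Prop :=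
  ∀ (y1 y2 : LaurentSeries A)
    (h1 : coeffMap A.subtype y1 ∈ modularFunctionFieldBar N)
    (h2 : coeffMap A.subtype y2 ∈ modularFunctionFieldBar N),
    coeffMap (IsLocalRing.residue A) y1 = coeffMap (IsLocalRing.residue A) y2 →
    coeffMap (IsLocalRing.residue A) y2 ≠ 0 →
    ∀ f : modularFunctionFieldBar N,
      f * (⟨coeffMap A.subtype y2, h2⟩ : modularFunctionFieldBar N)
        = (⟨coeffMap A.subtype y1, h1⟩ : modularFunctionFieldBar N) →
      (∀ P : Place (AlgebraicClosure ℚ) (modularFunctionFieldBar N), (p : ℤ) ∣ P.ord f) →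
      ∃ (c : AlgebraicClosure ℚ) (g : LaurentSeries (AlgebraicClosure ℚ)),
        g ∈ lg_E (AlgebraicClosure ℚ) N ∧
        lg_phi (AlgebraicClosure ℚ) (f : LaurentSeries (AlgebraicClosure ℚ))
          = algebraMap (AlgebraicClosure ℚ) (LaurentSeries (AlgebraicClosure ℚ)) c * g ^ p

end KeyStatements

section Charts

variable {L : Type*} [Field L] (O : ValuationSubring L) (N : ℕ) [NeZero N]

/-- `λ` as an element of `E`. -/
def lg_lamE : lg_E L N := ⟨lg_lam L, lg_lam_mem_E L N⟩

/-- The normalisation in `E` of the `O`-subalgebra generated by a set `s ⊆ E`, as a subalgebra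
over `O`. -/
def lg_chart (s : Set (lg_E L N)) : Subalgebra O (lg_E L N) :=
  (integralClosure (Algebra.adjoin O s) (lg_E L N)).restrictScalars O

theorem lg_mem_chart {s : Set (lg_E L N)} {z : lg_E L N} :
    z ∈ lg_chart O N s ↔ IsIntegral (Algebra.adjoin O s) z := Iff.rfl

/-- The chart `B₁` (`λ ≠ ∞`): normalisation of `O[λ]`. -/
def lg_B1 : Subalgebra O (lg_E L N) := lg_chart O N {lg_lamE N}

/-- The chart `B₂` (`λ ≠ 0`): normalisation of `O[1/λ]`. -/
def lg_B2 : Subalgebra O (lg_E L N) := lg_chart O N {(lg_lamE N)⁻¹}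

/-- The chart `B₁₂` (`λ ≠ 0, ∞`): normalisation of `O[λ, 1/λ]`. -/
def lg_B12 : Subalgebra O (lg_E L N) := lg_chart O N {lg_lamE N, (lg_lamE N)⁻¹}

theorem lg_chart_mono {s t : Set (lg_E L N)} (h : s ⊆ t) : lg_chart O N s ≤ lg_chart O N t := by
  intro z hz
  rw [lg_mem_chart] at hz ⊢
  have hle : Algebra.adjoin O s ≤ Algebra.adjoin O t := Algebra.adjoin_mono h
  obtain ⟨p, hp, hpz⟩ := hz
  refine ⟨p.map (Subalgebra.inclusion hle).toRingHom, hp.map _, ?_⟩
  rw [Polynomial.eval₂_map]
  exact hpz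

theorem lg_B1_le_B12 : lg_B1 O N ≤ lg_B12 O N :=
  lg_chart_mono O N (by intro x hx; rw [Set.mem_singleton_iff] at hx; subst hx; simp)

theorem lg_B2_le_B12 : lg_B2 O N ≤ lg_B12 O N :=
  lg_chart_mono O N (by intro x hx; rw [Set.mem_singleton_iff] at hx; subst hx; simp)

end Charts

end Fermat.Agent.JT3
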