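import Fermat.Agent.JT3.Inst.Defs
import Fermat.Agent.JT3.Cover.RamPlace

/-!
# JT3 / Route R (S18), instance layer: the tower `L(j') ⊆ φ(F_N), L(λ) ⊆ E` as types
(prefix `lgh_`)

`lgh_Kj L = L(j')` (`j' = j(q²)`) as an intermediate field of `L((q))`; its carrier is the base
field `K` of the Abhyankar seam.  The algebra structures between the carriers of `lgh_Kj L`,
`lg_F2 L N`, `lg_K L`, `lg_E L N` are given by `IntermediateField.inclusion` and are provided as
reducible definitions (use `attribute [local instance]` or `letI`).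
-/

set_option autoImplicit false
set_option linter.style.haveILetI false

noncomputable section

open IntermediateField

namespace Fermat.Agent.JT3

section Generic

/-- the generator of `L(x)` generates it as an extension of `L`. -/
theorem lgh_adjoin_gen_eq_top {L Ω : Type*} [Field L] [Field Ω] [Algebra L Ω] (x : Ω) :
    IntermediateField.adjoin L {AdjoinSimple.gen L x} = ⊤ := by
  apply IntermediateField.map_injective (L⟮x⟯.val)
  rw [IntermediateField.adjoin_map, Set.image_singleton]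
  have : L⟮x⟯.val (AdjoinSimple.gen L x) = x := rfl
  rw [this]
  ext y
  constructor
  · intro hy
    exact ⟨⟨y, hy⟩, trivial, rfl⟩
  · rintro ⟨z, _, rfl⟩
    exact z.2

variable {L Ω : Type*} [Field L] [Field Ω] [Algebra L Ω]

/-- the algebra structure given by an inclusion of intermediate fields. -/
@[reducible] def lgh_algOfLe {F₁ F₂ : IntermediateField L Ω} (h : F₁ ≤ F₂) : Algebra F₁ F₂ :=
  (IntermediateField.inclusion h).toRingHom.toAlgebra

theorem lgh_algOfLe_apply {F₁ F₂ : IntermediateField L Ω} (h : F₁ ≤ F₂) (x : F₁) :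
    ((@algebraMap F₁ F₂ _ _ (lgh_algOfLe h) x : F₂) : Ω) = (x : Ω) := rfl

theorem lgh_isScalarTower_base {F₁ F₂ : IntermediateField L Ω} (h : F₁ ≤ F₂) :
    @IsScalarTower L F₁ F₂ _ (lgh_algOfLe h).toSMul _ :=
  letI := lgh_algOfLe h
  IsScalarTower.of_algebraMap_eq (fun _ => rfl)

theorem lgh_isScalarTower {F₁ F₂ F₃ : IntermediateField L Ω} (h12 : F₁ ≤ F₂) (h23 : F₂ ≤ F₃) :
    @IsScalarTower F₁ F₂ F₃ (lgh_algOfLe h12).toSMul (lgh_algOfLe h23).toSMul
      (lgh_algOfLe (h12.trans h23)).toSMul :=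
  letI := lgh_algOfLe h12
  letI := lgh_algOfLe h23
  letI := lgh_algOfLe (h12.trans h23)
  IsScalarTower.of_algebraMap_eq (fun _ => rfl)

/-- if `F₃ = F₁ ⊔ F₂` then `F₃` is generated over `F₀ ≤ F₁, F₂` by the images of `F₁` and `F₂`. -/
theorem lgh_adjoin_range_eq_top {F₀ F₁ F₂ F₃ : IntermediateField L Ω} (h01 : F₀ ≤ F₁)
    (h13 : F₁ ≤ F₃) (h23 : F₂ ≤ F₃) (hsup : F₃ ≤ F₁ ⊔ F₂) :
    letI := lgh_algOfLe (h01.trans h13)
    letI := lgh_algOfLe h13
    letI := lgh_algOfLe h23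
    IntermediateField.adjoin F₀ (Set.range (algebraMap F₁ F₃) ∪ Set.range (algebraMap F₂ F₃))
      = ⊤ := by
  letI := lgh_algOfLe (h01.trans h13)
  letI := lgh_algOfLe h13
  letI := lgh_algOfLe h23
  haveI : IsScalarTower L F₀ F₃ := lgh_isScalarTower_base (h01.trans h13)
  set M : IntermediateField F₀ F₃ :=
    IntermediateField.adjoin F₀ (Set.range (algebraMap F₁ F₃) ∪ Set.range (algebraMap F₂ F₃))
    with hM
  rw [eq_top_iff]
  rintro z -
  -- the image of `M` in `Ω`
  let M' : IntermediateField L Ω := (M.restrictScalars L).map F₃.val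
  have h1 : F₁ ≤ M' := by
    intro x hx
    refine ⟨⟨x, h13 hx⟩, ?_, rfl⟩
    show (⟨x, h13 hx⟩ : F₃) ∈ M
    apply IntermediateField.subset_adjoin
    left
    exact ⟨⟨x, hx⟩, rfl⟩
  have h2 : F₂ ≤ M' := by
    intro x hx
    refine ⟨⟨x, h23 hx⟩, ?_, rfl⟩
    show (⟨x, h23 hx⟩ : F₃) ∈ M
    apply IntermediateField.subset_adjoin
    right
    exact ⟨⟨x, hx⟩, rfl⟩
  have h3 : F₃ ≤ M' := hsup.trans (sup_le h1 h2)
  obtain ⟨w, hw, hwz⟩ := h3 z.2
  have : w = z := Subtype.ext hwz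
  rw [← this]
  exact hw

/-- a simple extension stays simple over a bigger base: if `F₂ = L(x)` and `F₁ ≤ F₂` then
`F₂ = F₁(x)`. -/
theorem lgh_adjoin_simple_eq_top {F₁ : IntermediateField L Ω} {x : Ω}
    (h12 : F₁ ≤ IntermediateField.adjoin L {x}) :
    letI := lgh_algOfLe h12
    IntermediateField.adjoin F₁ {(AdjoinSimple.gen L x : IntermediateField.adjoin L {x})} = ⊤ := by
  letI := lgh_algOfLe h12
  haveI : IsScalarTower L F₁ (IntermediateField.adjoin L {x}) := lgh_isScalarTower_base h12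
  rw [eq_top_iff]
  have h1 : (⊤ : IntermediateField L (IntermediateField.adjoin L {x}))
      ≤ (IntermediateField.adjoin F₁
        {(AdjoinSimple.gen L x : IntermediateField.adjoin L {x})}).restrictScalars L := by
    rw [← lgh_adjoin_gen_eq_top (L := L) x, IntermediateField.adjoin_simple_le_iff]
    exact IntermediateField.mem_adjoin_simple_self F₁ _
  intro z _
  exact h1 (by trivial)

end Generic

section TowerDefs

variable (L : Type*) [Field L] (N : ℕ) [NeZero N]

/-- `L(j')`, `j' = j(q²)`, inside `L((q))`; its carrier is the base field of the seam. -/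
def lgh_Kj : IntermediateField L (LaurentSeries L) := IntermediateField.adjoin L {lg_j2 L}

/-- `j'` as an element of `L(j')`. -/
def lgh_j : lgh_Kj L := AdjoinSimple.gen L (lg_j2 L)

@[simp] theorem lgh_coe_j : ((lgh_j L : lgh_Kj L) : LaurentSeries L) = lg_j2 L := rfl

theorem lgh_adjoin_j : IntermediateField.adjoin L {lgh_j L} = ⊤ :=
  lgh_adjoin_gen_eq_top (lg_j2 L)

/-- `λ` as an element of `L(λ)`. -/
def lgh_lamK : lg_K L := AdjoinSimple.gen L (lg_lam L)

@[simp] theorem lgh_coe_lamK : ((lgh_lamK L : lg_K L) : LaurentSeries L) = lg_lam L := rfl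

theorem lgh_adjoin_lamK : IntermediateField.adjoin L {lgh_lamK L} = ⊤ :=
  lgh_adjoin_gen_eq_top (lg_lam L)

/-- the Legendre relation in `cv_` form. -/
theorem lgh_legendre : cv_legN (lg_lam L) = lg_j2 L * cv_legD (lg_lam L) := by
  unfold cv_legN cv_legD
  linear_combination lg_legendre L

theorem lgh_Kj_le_F2 : lgh_Kj L ≤ lg_F2 L N := by
  rw [lgh_Kj, IntermediateField.adjoin_simple_le_iff]
  exact lg_j2_mem_F2 L N

end TowerDefs

section Tower

variable (L : Type*) [Field L] [CharZero L] (N : ℕ) [NeZero N]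

theorem lgh_sixteen_ne_zero : (16 : L) ≠ 0 := by norm_num

theorem lgh_lam_ne_zero : lg_lam L ≠ 0 := by
  intro h
  have h1 := hm_lam_coeff_one L
  rw [show hm_lam L = lg_lam L from rfl, h] at h1
  exact lgh_sixteen_ne_zero L (by simpa using h1.symm)

theorem lgh_lam_ne_one : lg_lam L ≠ 1 := by
  intro h
  have h1 := hm_lam_coeff_one L
  rw [show hm_lam L = lg_lam L from rfl, h] at h1
  have h2 : ((1 : LaurentSeries L)).coeff 1 = 0 := by
    rw [HahnSeries.coeff_one]
    simp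
  rw [h2] at h1
  exact lgh_sixteen_ne_zero L h1.symm

theorem lgh_j2_mem_K : lg_j2 L ∈ lg_K L := by
  have hD : cv_legD (lg_lam L) ≠ 0 := cv_legD_ne_zero (lgh_lam_ne_zero L) (lgh_lam_ne_one L)
  have h : lg_j2 L = cv_legN (lg_lam L) / cv_legD (lg_lam L) := by
    rw [lgh_legendre, mul_div_assoc, div_self hD, mul_one]
  rw [h]
  have hl : lg_lam L ∈ lg_K L := lg_lam_mem_K L
  unfold cv_legN cv_legD
  exact div_mem (mul_mem (ofNat_mem _ 256) (pow_mem (add_mem (sub_mem (pow_mem hl 2) hl)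
    (one_mem _)) 3)) (mul_mem (pow_mem hl 2) (pow_mem (sub_mem hl (one_mem _)) 2))

theorem lgh_Kj_le_K : lgh_Kj L ≤ lg_K L := by
  rw [lgh_Kj, IntermediateField.adjoin_simple_le_iff]
  exact lgh_j2_mem_K L

theorem lgh_Kj_le_E : lgh_Kj L ≤ lg_E L N := (lgh_Kj_le_K L).trans (lg_K_le_E L N)

/-- `L(j') → L(λ)`. -/
@[reducible] def lgh_algKjK : Algebra (lgh_Kj L) (lg_K L) := lgh_algOfLe (lgh_Kj_le_K L)

/-- `L(j') → φ(F_N)`. -/
@[reducible] def lgh_algKjF2 : Algebra (lgh_Kj L) (lg_F2 L N) := lgh_algOfLe (lgh_Kj_le_F2 L N)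

/-- `L(j') → E`. -/
@[reducible] def lgh_algKjE : Algebra (lgh_Kj L) (lg_E L N) := lgh_algOfLe (lgh_Kj_le_E L N)

/-- `φ(F_N) → E`. -/
@[reducible] def lgh_algF2E : Algebra (lg_F2 L N) (lg_E L N) := lgh_algOfLe (lg_F2_le_E L N)

/-- `L(λ) → E`. -/
@[reducible] def lgh_algKE : Algebra (lg_K L) (lg_E L N) := lgh_algOfLe (lg_K_le_E L N)

attribute [local instance] lgh_algKjK lgh_algKjF2 lgh_algKjE lgh_algF2E lgh_algKE

instance lgh_tower_L_Kj_K : IsScalarTower L (lgh_Kj L) (lg_K L) :=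
  lgh_isScalarTower_base (lgh_Kj_le_K L)

instance lgh_tower_L_Kj_F2 : IsScalarTower L (lgh_Kj L) (lg_F2 L N) :=
  lgh_isScalarTower_base (lgh_Kj_le_F2 L N)

instance lgh_tower_L_Kj_E : IsScalarTower L (lgh_Kj L) (lg_E L N) :=
  lgh_isScalarTower_base (lgh_Kj_le_E L N)

instance lgh_tower_Kj_F2_E : IsScalarTower (lgh_Kj L) (lg_F2 L N) (lg_E L N) :=
  lgh_isScalarTower (lgh_Kj_le_F2 L N) (lg_F2_le_E L N)

instance lgh_tower_Kj_K_E : IsScalarTower (lgh_Kj L) (lg_K L) (lg_E L N) :=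
  lgh_isScalarTower (lgh_Kj_le_K L) (lg_K_le_E L N)

/-- `E = φ(F_N) · L(λ)` over `L(j')`. -/
theorem lgh_hgen :
    IntermediateField.adjoin (lgh_Kj L)
      (Set.range (algebraMap (lg_F2 L N) (lg_E L N)) ∪ Set.range (algebraMap (lg_K L) (lg_E L N)))
      = ⊤ :=
  lgh_adjoin_range_eq_top (lgh_Kj_le_F2 L N) (lg_F2_le_E L N) (lg_K_le_E L N) le_rfl

/-- the Legendre relation in `L(λ)` over `L(j')`. -/
theorem lgh_legendre_K :
    cv_legN (lgh_lamK L) = algebraMap (lgh_Kj L) (lg_K L) (lgh_j L) * cv_legD (lgh_lamK L) := by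
  apply Subtype.ext
  have h1 : ((cv_legN (lgh_lamK L) : lg_K L) : LaurentSeries L) = cv_legN (lg_lam L) :=
    cv_map_legN (lg_K L).val.toRingHom (lgh_lamK L)
  have h2 : ((cv_legD (lgh_lamK L) : lg_K L) : LaurentSeries L) = cv_legD (lg_lam L) :=
    cv_map_legD (lg_K L).val.toRingHom (lgh_lamK L)
  rw [h1, MulMemClass.coe_mul, h2]
  exact lgh_legendre L

/-- `λ` is integral over `L(j')`. -/
theorem lgh_isIntegral_lamK : IsIntegral (lgh_Kj L) (lgh_lamK L) :=
  cv_leg_isIntegral_field (two_ne_zero) (lgh_legendre_K L)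

/-- `L(λ) = L(j')(λ)`. -/
theorem lgh_adjoin_Kj_lamK : IntermediateField.adjoin (lgh_Kj L) {lgh_lamK L} = ⊤ :=
  lgh_adjoin_simple_eq_top (lgh_Kj_le_K L)

/-- `L(λ) / L(j')` is finite. -/
instance lgh_finiteDimensional_Kj_K : FiniteDimensional (lgh_Kj L) (lg_K L) := by
  have h1 : FiniteDimensional (lgh_Kj L) (IntermediateField.adjoin (lgh_Kj L) {lgh_lamK L}) :=
    IntermediateField.adjoin.finiteDimensional (lgh_isIntegral_lamK L)
  rw [lgh_adjoin_Kj_lamK] at h1
  exact (IntermediateField.topEquiv (F := lgh_Kj L) (E := lg_K L)).toLinearEquiv.finiteDimensional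

end Tower

end Fermat.Agent.JT3
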