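import Mathlib
import Fermat.Agent.JT3.Inst.Statements
import Fermat.Agent.JT3.S18.ConstRed
import Fermat.Agent.JT3.FCore.FunField

/-!
# JT3 / instance layer: the rigidified field `E = φ(F_N)(λ)` is a function field over `L`

For any field `L` of characteristic zero:

* `lgf_const`: a Laurent series algebraic over the coefficient field is constant;
* `lgf_lam_transcendental`: `λ` is transcendental over `L`;
* `lgf_finite`: `E` is finite over `L(λ)`;
* `lgf_hconst`: `L` is algebraically closed in `E`.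

These are the hypotheses `hx`, `[FiniteDimensional L⟮x⟯ F0]`, `hconst` of `fc_funField` for
`(F0, x) = (lg_E L N, lg_lamE N)`.
-/

set_option autoImplicit false
set_option linter.unusedSectionVars false
set_option linter.style.haveILetI false

namespace Fermat.Agent.JT3

open ModularCurve IntermediateField AlgebraicCurve

section Const

variable {L : Type*} [Field L]

theorem lgf_algebraMap_C (c : L) :
    algebraMap (PowerSeries L) (LaurentSeries L) (PowerSeries.C c)
      = algebraMap L (LaurentSeries L) c := by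
  rw [algebraMap_laurentSeries_eq_single]
  show HahnSeries.ofPowerSeries ℤ L (PowerSeries.C c) = _
  rw [HahnSeries.ofPowerSeries_C]
  rfl

/-- A Laurent series which is algebraic over the coefficient field is a power series. -/
theorem lgf_powerSeries_of_isAlgebraic (w : LaurentSeries L) (hw : IsAlgebraic L w) :
    ∃ y : PowerSeries L, algebraMap (PowerSeries L) (LaurentSeries L) y = w := by
  obtain ⟨p, hp, hpw⟩ := hw.isIntegral
  have h2 : IsIntegral (PowerSeries L) w := by
    refine ⟨p.map (PowerSeries.C : L →+* PowerSeries L), hp.map _, ?_⟩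
    rw [Polynomial.eval₂_map]
    have : (algebraMap (PowerSeries L) (LaurentSeries L)).comp (PowerSeries.C : L →+* PowerSeries L)
        = algebraMap L (LaurentSeries L) := RingHom.ext fun c => lgf_algebraMap_C c
    rw [this]
    exact hpw
  exact IsIntegrallyClosed.isIntegral_iff.1 h2

/-- A Laurent series which is algebraic over the coefficient field is constant. -/
theorem lgf_const (z : LaurentSeries L) (hz : IsAlgebraic L z) :
    z ∈ (algebraMap L (LaurentSeries L)).range := by
  obtain ⟨y, hy⟩ := lgf_powerSeries_of_isAlgebraic z hz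
  refine ⟨PowerSeries.constantCoeff y, ?_⟩
  by_contra hne
  have hw : IsAlgebraic L (z - algebraMap L (LaurentSeries L) (PowerSeries.constantCoeff y)) :=
    hz.sub (isAlgebraic_algebraMap _)
  have hw0 : z - algebraMap L (LaurentSeries L) (PowerSeries.constantCoeff y) ≠ 0 :=
    sub_ne_zero.2 (Ne.symm hne)
  obtain ⟨y', hy'⟩ := lgf_powerSeries_of_isAlgebraic _ hw.inv
  have hinj : Function.Injective (algebraMap (PowerSeries L) (LaurentSeries L)) :=
    IsFractionRing.injective _ _
  have hmul : (y - PowerSeries.C (PowerSeries.constantCoeff y)) * y' = 1 := by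
    apply hinj
    rw [map_mul, map_sub, hy, hy', map_one]
    rw [lgf_algebraMap_C]
    exact mul_inv_cancel₀ hw0
  have := congrArg PowerSeries.constantCoeff hmul
  simp at this

/-- `L` is algebraically closed in every subfield of `L((q))`. -/
theorem lgf_hconst (E : IntermediateField L (LaurentSeries L)) (z : E) (hz : IsAlgebraic L z) :
    z ∈ (algebraMap L E).range := by
  obtain ⟨c, hc⟩ := lgf_const (z : LaurentSeries L) (IntermediateField.isAlgebraic_iff.1 hz)
  exact ⟨c, Subtype.ext hc⟩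

/-- A non-constant Laurent series is transcendental over the coefficient field. -/
theorem lgf_transcendental_of_coeff {z : LaurentSeries L} {n : ℤ} (hn : n ≠ 0)
    (hz : z.coeff n ≠ 0) : Transcendental L z := by
  intro h
  obtain ⟨c, hc⟩ := lgf_const z h
  apply hz
  rw [← hc, algebraMap_laurentSeries_eq_single, HahnSeries.coeff_single_of_ne hn]

end Const

section Lambda

variable (L : Type*) [Field L] (N : ℕ) [NeZero N]

theorem lgf_lam_transcendental' (h2 : (2 : L) ≠ 0) : Transcendental L (lg_lam L) := by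
  refine lgf_transcendental_of_coeff (n := 1) one_ne_zero ?_
  rw [hm_lam_coeff_one]
  have : (16 : L) = 2 ^ 4 := by norm_num
  rw [this]
  exact pow_ne_zero _ h2

/-- `λ` is transcendental over `L`. -/
theorem lgf_lam_transcendental (h2 : (2 : L) ≠ 0) : Transcendental L (lg_lamE (L := L) N) := by
  intro h
  exact lgf_lam_transcendental' L h2 (IntermediateField.isAlgebraic_iff.1 h)

end Lambda

section Finite

variable {k Ω : Type*} [Field k] [Field Ω] [Algebra k Ω]

/-- Finitely many generators, each algebraic over `k(x)` ⟹ finite over `k(x)`. -/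
theorem lgf_finite_of_gens (E : IntermediateField k Ω) (S : Set Ω) (hS : S.Finite)
    (hE : E = IntermediateField.adjoin k S) (x : E)
    (hint : ∀ y : E, (y : Ω) ∈ S → IsAlgebraic k⟮x⟯ y) : FiniteDimensional k⟮x⟯ E := by
  subst hE
  have h1 : Algebra.EssFiniteType k (IntermediateField.adjoin k S) :=
    IntermediateField.essFiniteType_iff.mpr (IntermediateField.fg_adjoin_of_finite hS)
  have h2 : Algebra.EssFiniteType k⟮x⟯ (IntermediateField.adjoin k S) :=
    Algebra.EssFiniteType.of_comp k _ _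
  have h3 : Algebra.IsAlgebraic k⟮x⟯ (IntermediateField.adjoin k S) :=
    jcr_isAlgebraic_of_gen x ((IntermediateField.adjoin k S).val ⁻¹' S)
      (jcr_adjoin_preimage_eq_top S) (fun y hy => hint y hy)
  exact Algebra.finite_of_essFiniteType_of_isAlgebraic

/-- integrality from a monic two-variable relation, inside a field embedded in `k((q))` -/
theorem lgf_isIntegral_of_modEq {k F R : Type*} [Field k] [Field F] [Algebra k F] [CommRing R]
    (ι : F →ₐ[k] LaurentSeries k) (ρ : R →+* k) (K' : IntermediateField k F) {x y : F}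
    (hx : x ∈ K') (Φ : Polynomial (Polynomial R)) (hm : Φ.Monic)
    (h0 : Φ.eval₂ (Polynomial.eval₂RingHom ((HahnSeries.C : k →+* LaurentSeries k).comp ρ) (ι x))
      (ι y) = 0) :
    IsIntegral K' y := by
  let θ : Polynomial R →+* K' := Polynomial.eval₂RingHom ((algebraMap k K').comp ρ) ⟨x, hx⟩
  refine ⟨Φ.map θ, hm.map θ, ?_⟩
  rw [Polynomial.eval₂_map]
  apply (ι : F →+* LaurentSeries k).injective
  rw [map_zero]
  have h1 := Polynomial.hom_eval₂ Φ ((algebraMap K' F).comp θ) (ι : F →+* LaurentSeries k) y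
  have h2 : (ι : F →+* LaurentSeries k).comp ((algebraMap K' F).comp θ)
      = Polynomial.eval₂RingHom ((HahnSeries.C : k →+* LaurentSeries k).comp ρ) (ι x) := by
    refine Polynomial.ringHom_ext (fun r => ?_) ?_
    · simp only [θ, RingHom.comp_apply, Polynomial.coe_eval₂RingHom, Polynomial.eval₂_C]
      rw [← IsScalarTower.algebraMap_apply k K' F, HahnSeries.C_apply,
        ← algebraMap_laurentSeries_eq_single]
      exact ι.commutes _
    · simp only [θ, RingHom.comp_apply, Polynomial.coe_eval₂RingHom, Polynomial.eval₂_X]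
      rfl
  rw [h2] at h1
  rw [h1]
  exact h0

end Finite

section Concrete

variable (L : Type*) [Field L] [CharZero L] (N : ℕ) [NeZero N]

/-- `j' = j(q²)` as an element of `E`. -/
noncomputable def lgf_j2E : lg_E L N := ⟨lg_j2 L, lg_j2_mem_E L N⟩

theorem lgf_legendreE :
    256 * ((lg_lamE N : lg_E L N) ^ 2 - lg_lamE N + 1) ^ 3
      = lgf_j2E L N * (lg_lamE N : lg_E L N) ^ 2 * ((lg_lamE N : lg_E L N) - 1) ^ 2 :=
  Subtype.ext (lg_legendre L)

theorem lgf_j2E_mem : lgf_j2E L N ∈ L⟮(lg_lamE N : lg_E L N)⟯ := by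
  have hx := lgf_lam_transcendental L N two_ne_zero
  have h0 : (lg_lamE N : lg_E L N) ≠ 0 := fun h => hx (h ▸ isAlgebraic_zero)
  have h1 : (lg_lamE N : lg_E L N) - 1 ≠ 0 := by
    intro h
    apply hx
    rw [sub_eq_zero.1 h]
    exact isAlgebraic_one
  have hden : (lg_lamE N : lg_E L N) ^ 2 * ((lg_lamE N : lg_E L N) - 1) ^ 2 ≠ 0 :=
    mul_ne_zero (pow_ne_zero _ h0) (pow_ne_zero _ h1)
  have hj : lgf_j2E L N = 256 * ((lg_lamE N : lg_E L N) ^ 2 - lg_lamE N + 1) ^ 3 /
      ((lg_lamE N : lg_E L N) ^ 2 * ((lg_lamE N : lg_E L N) - 1) ^ 2) := by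
    rw [eq_div_iff hden, lgf_legendreE]
    ring
  rw [hj]
  have hmem := mem_adjoin_simple_self L (lg_lamE N : lg_E L N)
  exact div_mem (mul_mem (ofNat_mem _ 256)
    (pow_mem (add_mem (sub_mem (pow_mem hmem 2) hmem) (one_mem _)) 3))
    (mul_mem (pow_mem hmem 2) (pow_mem (sub_mem hmem (one_mem _)) 2))

/-- generators of `E` -/
noncomputable def lgf_gens : Set (LaurentSeries L) := (lg_phi L) '' (divisorExpansionsC L N) ∪ {lg_lam L}

theorem lgf_gens_finite : (lgf_gens L N).Finite :=
  ((jcr_finite_gens (k := L) N).image _).union (Set.finite_singleton _)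

theorem lgf_E_eq_adjoin : lg_E L N = IntermediateField.adjoin L (lgf_gens L N) := by
  rw [lgf_gens, IntermediateField.adjoin_union, ← IntermediateField.adjoin_map]
  rfl

/-- the twisted modular equation of level `d`: `Φ_d(j(q²), j(q^{2d})) = 0` -/
theorem lgf_modEq_twist (d ℓ : ℕ) [NeZero d] [Fact ℓ.Prime] (hℓd : ¬ ℓ ∣ d)
    (ρ : ↥(GaloisRep.ratLocalizedAt ℓ) →+* L) :
    ∃ Φ : Polynomial (Polynomial ↥(GaloisRep.ratLocalizedAt ℓ)), Φ.Monic ∧
      Φ.eval₂ (Polynomial.eval₂RingHom ((HahnSeries.C : L →+* LaurentSeries L).comp ρ)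
        (lg_j2 L)) (lg_phi L (qExpand L d (jqModC L))) = 0 := by
  obtain ⟨Φ, hm, h0⟩ := jcr_modEq d ℓ hℓd ρ
  refine ⟨Φ, hm, ?_⟩
  have h1 := Polynomial.hom_eval₂ Φ
    (Polynomial.eval₂RingHom ((HahnSeries.C : L →+* LaurentSeries L).comp ρ) (jqModC L))
    (lg_phi L : LaurentSeries L →+* LaurentSeries L) (qExpand L d (jqModC L))
  rw [h0, map_zero] at h1
  have h2 : (lg_phi L : LaurentSeries L →+* LaurentSeries L).comp
      (Polynomial.eval₂RingHom ((HahnSeries.C : L →+* LaurentSeries L).comp ρ) (jqModC L))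
      = Polynomial.eval₂RingHom ((HahnSeries.C : L →+* LaurentSeries L).comp ρ) (lg_j2 L) := by
    refine Polynomial.ringHom_ext (fun r => ?_) ?_
    · simp only [RingHom.comp_apply, Polynomial.coe_eval₂RingHom, Polynomial.eval₂_C]
      rw [HahnSeries.C_apply, ← algebraMap_laurentSeries_eq_single]
      exact (lg_phi L).commutes _
    · simp only [RingHom.comp_apply, Polynomial.coe_eval₂RingHom, Polynomial.eval₂_X]
      rfl
  rw [h2] at h1
  exact h1.symm

/-- **`E` is finite over `L(λ)`.** -/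
theorem lgf_finite : FiniteDimensional L⟮(lg_lamE N : lg_E L N)⟯ (lg_E L N) := by
  refine lgf_finite_of_gens (lg_E L N) (lgf_gens L N) (lgf_gens_finite L N) (lgf_E_eq_adjoin L N)
    (lg_lamE N) ?_
  rintro y (⟨_, ⟨d, hd, hdN, rfl⟩, hy⟩ | hy)
  · haveI := hd
    obtain ⟨ℓ, hℓN, hℓ⟩ := Nat.exists_infinite_primes (N + 1)
    haveI : Fact ℓ.Prime := ⟨hℓ⟩
    have hℓd : ¬ ℓ ∣ d := fun h => by
      have := Nat.le_of_dvd (Nat.pos_of_ne_zero (NeZero.ne N)) (h.trans hdN)
      omega
    let ρ : ↥(GaloisRep.ratLocalizedAt ℓ) →+* L :=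
      (algebraMap ℚ L).comp (GaloisRep.ratLocalizedAt ℓ).subtype
    obtain ⟨Φ, hm, h0⟩ := lgf_modEq_twist L d ℓ hℓd ρ
    refine (lgf_isIntegral_of_modEq (lg_E L N).val ρ L⟮(lg_lamE N : lg_E L N)⟯
      (x := lgf_j2E L N) (y := y) (lgf_j2E_mem L N) Φ hm ?_).isAlgebraic
    have hy' : (lg_E L N).val y = lg_phi L (qExpand L d (jqModC L)) := hy.symm
    rw [hy']
    exact h0
  · have hy' : y = lg_lamE N := Subtype.ext hy
    rw [hy']
    exact isAlgebraic_algebraMap
      (⟨lg_lamE N, mem_adjoin_simple_self L _⟩ : L⟮(lg_lamE N : lg_E L N)⟯)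

/-- **`fc_funField` at the Legendre instance** `(A0, L, F0, x) = (O, L, E, λ)`: only the model
hypotheses (h2), (h3), (h4a) and the divisibility (h4b) remain. -/
theorem lgf_funField (O : ValuationSubring L) [IsDiscreteValuationRing O] {π : O}
    (hπ : Irreducible π) (m : ℕ) (hm : IsUnit (m : O)) (f : lg_E L N) (hf0 : f ≠ 0)
    (hπ1 : Prime (algebraMap O (lg_B1 O N) π))
    (hπ2 : Prime (algebraMap O (lg_B2 O N) π))
    (hπ12 : Prime (algebraMap O (lg_B12 O N) π))
    (h31 : ∀ 𝔫 : Ideal (lg_B1 O N), 𝔫.IsMaximal → algebraMap O (lg_B1 O N) π ∈ 𝔫 →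
      ∃ u ∈ 𝔫, ∀ z ∈ 𝔫, ∃ s, s ∉ 𝔫 ∧ s * z ∈ Ideal.span {algebraMap O (lg_B1 O N) π, u})
    (h32 : ∀ 𝔫 : Ideal (lg_B2 O N), 𝔫.IsMaximal → algebraMap O (lg_B2 O N) π ∈ 𝔫 →
      ∃ u ∈ 𝔫, ∀ z ∈ 𝔫, ∃ s, s ∉ 𝔫 ∧ s * z ∈ Ideal.span {algebraMap O (lg_B2 O N) π, u})
    (h4a : f - 1 ∈ fc_piO hπ12)
    (h4b : ∀ Q : Place L (lg_E L N), (m : ℤ) ∣ Q.ord f) :
    ∃ (c : O) (g : lg_E L N), g ≠ 0 ∧ f = algebraMap O (lg_E L N) c * g ^ m := by
  haveI := lgf_finite L N
  haveI : IsScalarTower O L (lg_E L N) := IsScalarTower.of_algebraMap_eq fun _ => rfl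
  exact fc_funField (A0 := O) (L := L) (F0 := lg_E L N) hπ
    (lgf_lam_transcendental L N two_ne_zero) (lgf_hconst (lg_E L N)) m hm f hf0
    hπ1 hπ2 hπ12 h31 h32 h4a h4b

end Concrete

end Fermat.Agent.JT3
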