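/-
JT3 / Route R (S18), instance layer: the hypothesis (h4b) of `fc_main` from divisibility of the
orders at all places.

* `lg_place_of_dvr`     : a discrete valuation ring `O'` with fraction field `F0`, containing the
                          constant field `L`, is the valuation ring of a `Place L F0`;
* `lg_H4_of_place_dvd`  : `m ∣ ord_P f` for all places `P` of `F0 / L` ⟹ `fc_H4 π m f`;
* `lg_dvd_ord_of_embedding` : divisibility of the orders at all places passes to a bigger field
                          (`gw_val_dvd`).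
-/
import Mathlib
import Fermat.Agent.JT3.FCore.Main
import Fermat.Agent.JT3.Gateway.ValPlace
import Fermat.Agent.S24.Hurwitz.Places

set_option autoImplicit false

noncomputable section

open AlgebraicCurve

namespace Fermat.Agent.JT3

section PlaceOfDVR

universe v

variable (L : Type*) {F0 : Type v} [Field L] [Field F0] [Algebra L F0]
  (O' : Type v) [CommRing O'] [IsDomain O'] [IsDiscreteValuationRing O'] [Algebra O' F0]
  [IsFractionRing O' F0]

/-- A discrete valuation ring with fraction field `F0` containing the constants is (the valuation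
ring of) a place of `F0 / L`. -/
theorem lg_place_of_dvr
    (hL : ∀ c : L, algebraMap L F0 c ∈ (algebraMap O' F0).range) :
    ∃ P : Place L F0, ∀ z : F0, z ∈ P.toValuationSubring ↔ z ∈ (algebraMap O' F0).range := by
  classical
  set V : ValuationSubring F0 := (ValuationRing.valuation O' F0).valuationSubring with hV
  have hmem : ∀ z : F0, z ∈ V ↔ z ∈ (algebraMap O' F0).range := by
    intro z
    rw [hV, Valuation.mem_valuationSubring_iff]
    exact ValuationRing.mem_integer_iff O' F0 z
  have hinj : Function.Injective (algebraMap O' F0) := IsFractionRing.injective O' F0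
  -- the ring isomorphism `O' ≃ V`
  let e : O' →+* V := (algebraMap O' F0).codRestrict V.toSubring
    (fun a => (hmem _).2 ⟨a, rfl⟩)
  have he_surj : Function.Surjective e := by
    rintro ⟨z, hz⟩
    obtain ⟨a, ha⟩ := (hmem z).1 hz
    exact ⟨a, Subtype.ext ha⟩
  have hpid : IsPrincipalIdealRing V := IsPrincipalIdealRing.of_surjective e he_surj
  have hne : V ≠ ⊤ := by
    intro htop
    obtain ⟨ϖ, hϖ⟩ := IsDiscreteValuationRing.exists_irreducible O'
    have hϖ0 : algebraMap O' F0 ϖ ≠ 0 := by
      rw [Ne, map_eq_zero_iff _ hinj]; exact hϖ.ne_zero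
    have : (algebraMap O' F0 ϖ)⁻¹ ∈ V := by rw [htop]; exact ValuationSubring.mem_top _
    obtain ⟨b, hb⟩ := (hmem _).1 this
    apply hϖ.not_isUnit
    refine IsUnit.of_mul_eq_one b ?_
    apply hinj
    rw [map_mul, hb, map_one, mul_inv_cancel₀ hϖ0]
  exact ⟨⟨V, fun c => (hmem _).2 (hL c), hne, hpid⟩, hmem⟩

end PlaceOfDVR

section H4

universe v

variable {A0 : Type*} [CommRing A0] [IsDomain A0] [IsNoetherianRing A0]
  (L : Type*) [Field L] [Algebra A0 L]
  {F0 : Type v} [Field F0] [Algebra A0 F0] [Algebra L F0] [IsScalarTower A0 L F0]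

/-- **(h4b) from the places.** If every element of `L` is of the form `a / π ^ k` with `a : A0`
(e.g. `A0` a discrete valuation ring with uniformiser `π` and fraction field `L`) and the order of
`f` at every place of `F0 / L` is divisible by `m`, then `f` satisfies the hypothesis (h4b) of
`fc_main`. -/
theorem lg_H4_of_place_dvd (π : A0)
    (hfrac : ∀ c : L, ∃ (a : A0) (k : ℕ), c * algebraMap A0 L π ^ k = algebraMap A0 L a)
    (hπ0 : algebraMap A0 L π ≠ 0)
    (m : ℕ) (f : F0) (hf : f ≠ 0)
    (h : ∀ P : Place L F0, (m : ℤ) ∣ P.ord f) : fc_H4 π m f := by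
  intro O' _ _ _ _ _ hA hπ
  have hπF : algebraMap A0 F0 π ≠ 0 := by
    rw [IsScalarTower.algebraMap_apply A0 L F0, Ne, map_eq_zero]; exact hπ0
  have hL : ∀ c : L, algebraMap L F0 c ∈ (algebraMap O' F0).range := by
    intro c
    obtain ⟨a, k, hc⟩ := hfrac c
    have h1 : algebraMap L F0 c = algebraMap A0 F0 a * ((algebraMap A0 F0 π)⁻¹) ^ k := by
      have := congrArg (algebraMap L F0) hc
      rw [map_mul, map_pow, ← IsScalarTower.algebraMap_apply, ← IsScalarTower.algebraMap_apply]
        at this
      rw [← this, inv_pow, mul_assoc, mul_inv_cancel₀ (pow_ne_zero _ hπF), mul_one]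
    rw [h1]
    exact Subring.mul_mem _ (hA a) (Subring.pow_mem _ hπ k)
  obtain ⟨P, hP⟩ := lg_place_of_dvr L O' hL
  obtain ⟨k, hk⟩ := h P
  obtain ⟨ϖ, hϖ⟩ := IsDiscreteValuationRing.exists_irreducible P.toValuationSubring
  obtain ⟨u, hu⟩ := P.exists_unit_mul_zpow hf hϖ
  have hinj : Function.Injective (algebraMap O' F0) := IsFractionRing.injective O' F0
  -- the unit `u` comes from a unit of `O'`
  obtain ⟨a, ha⟩ := (hP _).1 (u : P.toValuationSubring).2
  obtain ⟨b, hb⟩ := (hP _).1 ((u⁻¹ : P.toValuationSubringˣ) : P.toValuationSubring).2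
  have hab : a * b = 1 := by
    apply hinj
    rw [map_mul, ha, hb, map_one, ← Subring.coe_mul, ← Units.val_mul, mul_inv_cancel]
    rfl
  refine ⟨⟨a, b, hab, by rw [mul_comm]; exact hab⟩, (ϖ : F0) ^ k, ?_⟩
  rw [hu, hk]
  show ((u : P.toValuationSubring) : F0) * (ϖ : F0) ^ ((m : ℤ) * k) = algebraMap O' F0 a * _
  rw [ha, mul_comm (m : ℤ) k, zpow_mul, zpow_natCast]

end H4

section Embedding

variable {L : Type*} [Field L] {F F' : Type*} [Field F] [Field F'] [Algebra L F] [Algebra L F']

/-- Divisibility of the orders at all places passes along an embedding of function fields. -/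
theorem lg_dvd_ord_of_embedding (ψ : F →ₐ[L] F') (n : ℤ) (f : F)
    (h : ∀ Q : Place L F, n ∣ Q.ord f) (P : Place L F') : n ∣ P.ord (ψ f) := by
  rcases eq_or_ne f 0 with rfl | hf
  · simp
  have hψ : ∀ z : F, z ≠ 0 → ψ z ≠ 0 := fun z hz => by
    intro h0
    exact hz ((map_eq_zero ψ).1 h0)
  have hv : gw_IsVal L (fun z : F => P.ord (ψ z)) := by
    refine ⟨fun a b ha hb => ?_, fun a b ha hb hab => ?_, fun c hc => ?_⟩
    · show P.ord (ψ (a * b)) = _
      rw [map_mul, P.ord_mul (hψ a ha) (hψ b hb)]
    · show min (P.ord (ψ a)) (P.ord (ψ b)) ≤ P.ord (ψ (a + b))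
      rw [map_add]
      exact Fermat.Agent.S24.hw_ord_add_ge P (hψ a ha) (hψ b hb)
        (by rw [← map_add]; exact hψ _ hab)
    · show P.ord (ψ (algebraMap L F c)) = 0
      rw [AlgHom.commutes]
      exact Fermat.Agent.S24.hw_ord_algebraMap P c
  choose D hD using h
  obtain ⟨u, _, hu⟩ := gw_val_dvd L hv hf n D (fun Q => hD Q)
  exact ⟨_, hu⟩

end Embedding

end Fermat.Agent.JT3
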