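/-
JT3 / Route R (S18), instance layer: `lg_Key0 L O N p` from the F-core theorem `fc_funField`,
applied with `A0 = O` (a discrete valuation ring with fraction field `L`), `F0 = E = φ(F_N)(λ)`,
`x = λ`, and from the model hypotheses, bundled in `lg_ModelHyp` (`π` prime in the three charts,
local regularity on the two standard charts).  The hypothesis (h4b) of the F-core is discharged
here; the hypothesis (h4a) is kept as the explicit argument `h4a` (it comes from the Gauss bridge).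
-/
import Mathlib
import Fermat.Agent.JT3.Inst.Statements
import Fermat.Agent.JT3.Inst.H4
import Fermat.Agent.JT3.FCore.FunField

set_option autoImplicit false

noncomputable section

open ModularCurve IntermediateField AlgebraicCurve

namespace Fermat.Agent.JT3

section Key0

variable {L : Type*} [Field L] (O : ValuationSubring L) (N : ℕ) [NeZero N]

/-- The model hypotheses of the F-core for the two standard charts of the `λ`-line, over `(L, O)`,
with `π : O` (a uniformiser): `π` is a prime element of the three charts, and the two standard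
charts are regular along `π = 0`. -/
structure lg_ModelHyp (π : O) : Prop where
  prime1 : Prime (algebraMap O (fc_chart O ({lg_lamE N} : Set (lg_E L N))) π)
  prime2 : Prime (algebraMap O (fc_chart O ({(lg_lamE N)⁻¹} : Set (lg_E L N))) π)
  prime12 : Prime (algebraMap O (fc_chart O ({lg_lamE N, (lg_lamE N)⁻¹} : Set (lg_E L N))) π)
  reg1 : ∀ 𝔫 : Ideal (fc_chart O ({lg_lamE N} : Set (lg_E L N))), 𝔫.IsMaximal →
      algebraMap O (fc_chart O ({lg_lamE N} : Set (lg_E L N))) π ∈ 𝔫 →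
      ∃ u ∈ 𝔫, ∀ z ∈ 𝔫, ∃ s, s ∉ 𝔫 ∧
        s * z ∈ Ideal.span {algebraMap O (fc_chart O ({lg_lamE N} : Set (lg_E L N))) π, u}
  reg2 : ∀ 𝔫 : Ideal (fc_chart O ({(lg_lamE N)⁻¹} : Set (lg_E L N))), 𝔫.IsMaximal →
      algebraMap O (fc_chart O ({(lg_lamE N)⁻¹} : Set (lg_E L N))) π ∈ 𝔫 →
      ∃ u ∈ 𝔫, ∀ z ∈ 𝔫, ∃ s, s ∉ 𝔫 ∧
        s * z ∈ Ideal.span {algebraMap O (fc_chart O ({(lg_lamE N)⁻¹} : Set (lg_E L N))) π, u}

variable {O N}

/-- the regularity hypotheses of the F-core from the local regularity seam `jt_RegAt`. -/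
theorem lg_modelHyp_of_regAt {π : O}
    (hp1 : Prime (algebraMap O (fc_chart O ({lg_lamE N} : Set (lg_E L N))) π))
    (hp2 : Prime (algebraMap O (fc_chart O ({(lg_lamE N)⁻¹} : Set (lg_E L N))) π))
    (hp12 : Prime (algebraMap O (fc_chart O ({lg_lamE N, (lg_lamE N)⁻¹} : Set (lg_E L N))) π))
    (hr1 : jt_RegAt (fc_chart O ({lg_lamE N} : Set (lg_E L N)))
      (algebraMap O (fc_chart O ({lg_lamE N} : Set (lg_E L N))) π))
    (hr2 : jt_RegAt (fc_chart O ({(lg_lamE N)⁻¹} : Set (lg_E L N)))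
      (algebraMap O (fc_chart O ({(lg_lamE N)⁻¹} : Set (lg_E L N))) π)) :
    lg_ModelHyp O N π where
  prime1 := hp1
  prime2 := hp2
  prime12 := hp12
  reg1 := fun 𝔫 hmax hπ => by
    obtain ⟨⟨u, -, hu, hgen⟩, -⟩ := hr1 𝔫 hmax hπ
    exact ⟨u, hu, hgen⟩
  reg2 := fun 𝔫 hmax hπ => by
    obtain ⟨⟨u, -, hu, hgen⟩, -⟩ := hr2 𝔫 hmax hπ
    exact ⟨u, hu, hgen⟩

/-- the restriction of `φ` to the level-`N` field, with values in `E`. -/
def lg_phiE : lg_F L N →ₐ[L] lg_E L N :=
  ((lg_phi L).comp (lg_F L N).val).codRestrict (lg_E L N).toSubalgebra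
    (fun x => lg_phi_mem_E L N x.2)

theorem lg_phiE_coe (x : lg_F L N) :
    ((lg_phiE (L := L) (N := N) x : lg_E L N) : LaurentSeries L) = lg_phi L (x : LaurentSeries L) :=
  rfl

/-- **`lg_Key0` from the F-core.** -/
theorem lg_Key0_of_model [CharZero L] [IsDiscreteValuationRing O] {π : O} (hπ : Irreducible π)
    (hM : lg_ModelHyp O N π)
    (hx : Transcendental L (lg_lamE (L := L) N))
    [FiniteDimensional L⟮lg_lamE (L := L) N⟯ (lg_E L N)]
    (hconst : ∀ z : lg_E L N, IsAlgebraic L z → z ∈ (algebraMap L (lg_E L N)).range)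
    (p : ℕ) (hp : IsUnit ((p : ℕ) : O))
    (h4a : ∀ (y1 y2 : LaurentSeries O)
      (h1 : coeffMap O.subtype y1 ∈ lg_F L N) (h2 : coeffMap O.subtype y2 ∈ lg_F L N),
      coeffMap (IsLocalRing.residue O) y1 = coeffMap (IsLocalRing.residue O) y2 →
      coeffMap (IsLocalRing.residue O) y2 ≠ 0 →
      ∀ f : lg_F L N,
        f * (⟨coeffMap O.subtype y2, h2⟩ : lg_F L N) = (⟨coeffMap O.subtype y1, h1⟩ : lg_F L N) →
        lg_phiE f - 1 ∈ fc_piO hM.prime12) :
    lg_Key0 L O N p := by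
  intro y1 y2 h1 h2 hred hred0 f hf hord
  by_cases hf0 : f = 0
  · refine ⟨0, 0, zero_mem _, ?_⟩
    rw [hf0]
    simp
  have hfE : lg_phiE f ≠ 0 := fun h => hf0 ((map_eq_zero (lg_phiE (L := L) (N := N))).1 h)
  obtain ⟨c, g, -, hcg⟩ := fc_funField (L := L) hπ hx hconst p hp (lg_phiE f) hfE hM.prime1
    hM.prime2 hM.prime12 hM.reg1 hM.reg2 (h4a y1 y2 h1 h2 hred hred0 f hf)
    (fun P => lg_dvd_ord_of_embedding lg_phiE (p : ℤ) f hord P)
  refine ⟨algebraMap O L c, (g : LaurentSeries L), g.2, ?_⟩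
  have h3 := congrArg (fun z : lg_E L N => (z : LaurentSeries L)) hcg
  have h4 : ((algebraMap O (lg_E L N) c : lg_E L N) : LaurentSeries L)
      = algebraMap L (LaurentSeries L) (algebraMap O L c) := rfl
  simp only [MulMemClass.coe_mul, SubmonoidClass.coe_pow, lg_phiE_coe, h4] at h3
  exact h3

end Key0

end Fermat.Agent.JT3
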