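/-
JT3 / Route R (S18), instance layer: `lg_Key0 L O N p` from the regularity of the two standard
charts (`jt_RegAt`), for a discrete valuation ring `O` with fraction field `L` of characteristic
zero in which `2` is a unit.  Everything else is discharged here:
* `π` prime in the three charts: `cn_prime_funField` (helper27);
* the function-field facts: `Inst/FunFieldFacts.lean` (helper4);
* (h4a): the Gauss bridge `gq_h4a_fc_of_iota` (helper8).
-/
import Mathlib
import Fermat.Agent.JT3.Inst.Key0
import Fermat.Agent.JT3.Inst.FunFieldFacts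
import Fermat.Agent.JT3.Model.Connected
import Fermat.Agent.JT3.Bridge.GaussCenter

set_option autoImplicit false

noncomputable section

open ModularCurve IntermediateField AlgebraicCurve

namespace Fermat.Agent.JT3

section Assemble

variable {L : Type*} [Field L] (O : ValuationSubring L) (N : ℕ) [NeZero N]

/-- every element of `E = φ(F_N)(λ)` is a quotient of series with coefficients in `O`. -/
theorem lg_E_le_quotField : lg_E L N ≤ gq_quotField O L := by
  rw [lg_E, sup_le_iff]
  constructor
  · rw [lg_F2, lg_F, modularFunctionFieldFullC, IntermediateField.adjoin_map,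
      IntermediateField.adjoin_le_iff]
    rintro _ ⟨_, ⟨d, hd, -, rfl⟩, rfl⟩
    have : (lg_phi L) (qExpand L d (jqModC L))
        = coeffMap (algebraMap O L) (qExpand O 2 (qExpand O d (jqModC O))) := by
      rw [coeffMap_qExpand, coeffMap_qExpand, coeffMap_jqModC, lg_phi_apply]
    show (lg_phi L) (qExpand L d (jqModC L)) ∈ gq_quotField O L
    rw [this]
    exact gq_iota_mem_quotField _
  · rw [lg_K, IntermediateField.adjoin_le_iff]
    rintro _ rfl
    have : lg_lam L = coeffMap (algebraMap O L) (hm_lam O) := (hm_coeffMap_lam _).symm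
    show lg_lam L ∈ gq_quotField O L
    rw [this]
    exact gq_iota_mem_quotField _

variable {O N}

/-- **`lg_Key0` from the regularity of the two standard charts.** -/
theorem lg_Key0_of_regAt [CharZero L] [IsDiscreteValuationRing O] {π : O} (hπ : Irreducible π)
    (h2 : IsUnit (2 : O))
    (hr1 : jt_RegAt (fc_chart O ({lg_lamE N} : Set (lg_E L N)))
      (algebraMap O (fc_chart O ({lg_lamE N} : Set (lg_E L N))) π))
    (hr2 : jt_RegAt (fc_chart O ({(lg_lamE N)⁻¹} : Set (lg_E L N)))
      (algebraMap O (fc_chart O ({(lg_lamE N)⁻¹} : Set (lg_E L N))) π))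
    (p : ℕ) (hp : IsUnit ((p : ℕ) : O)) : lg_Key0 L O N p := by
  have hx : Transcendental L (lg_lamE (L := L) N) := lgf_lam_transcendental L N two_ne_zero
  haveI := lgf_finite L N
  have hconst : ∀ z : lg_E L N, IsAlgebraic L z → z ∈ (algebraMap L (lg_E L N)).range :=
    fun z hz => lgf_hconst (lg_E L N) z hz
  obtain ⟨hp1, hp2, hp12⟩ := cn_prime_funField (K0 := L) hπ hx hconst
    (fun n hn hπn => (hr1 n hn hπn).2) (fun n hn hπn => (hr2 n hn hπn).2)
  have hM : lg_ModelHyp O N π := lg_modelHyp_of_regAt hp1 hp2 hp12 hr1 hr2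
  refine lg_Key0_of_model hπ hM hx hconst p hp ?_
  intro y1 y2 h1 h2' hred hred0 f hf
  have hπ0 : π ≠ 0 := hπ.ne_zero
  have hπmax : IsLocalRing.maximalIdeal O = Ideal.span {π} := hπ.maximalIdeal_eq
  haveI : Algebra.IsAlgebraic (Algebra.adjoin O ({lg_lamE N, (lg_lamE N)⁻¹} : Set (lg_E L N)))
      (lg_E L N) :=
    fc_ff_isAlgebraic_mono (S := {lg_lamE N}) (T := {lg_lamE N, (lg_lamE N)⁻¹}) (by simp)
      (fc_ff_isAlgebraic (L := L) (lg_lamE N))
  -- the reduction of `λ` is transcendental over the residue field
  have h16 : (16 : IsLocalRing.ResidueField O) ≠ 0 := by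
    have h2k : (2 : IsLocalRing.ResidueField O) ≠ 0 := by
      have := (IsLocalRing.residue O).isUnit_map h2
      rw [map_ofNat] at this
      exact this.ne_zero
    have : (16 : IsLocalRing.ResidueField O) = 2 ^ 4 := by norm_num
    rw [this]
    exact pow_ne_zero _ h2k
  have hxtr : ∀ q : Polynomial (IsLocalRing.ResidueField O),
      Polynomial.aeval (coeffMap (IsLocalRing.residue O) (hm_lam O)) q = 0 → q = 0 := by
    have htr : Transcendental (IsLocalRing.ResidueField O)
        (hm_lam (IsLocalRing.ResidueField O)) :=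
      lgf_transcendental_of_coeff (n := 1) one_ne_zero (by rw [hm_lam_coeff_one]; exact h16)
    rw [hm_coeffMap_lam]
    exact (transcendental_iff.1 htr)
  have hux : ((lg_lamE (L := L) N : lg_E L N) : LaurentSeries L)
      = coeffMap (algebraMap O L) (hm_lam O) := (hm_coeffMap_lam _).symm
  -- the relation `φ(f) * ι(φ y2) = ι(φ y1)`
  have hf' : ((lg_phiE f : lg_E L N) : LaurentSeries L)
      * coeffMap (algebraMap O L) (qExpand O 2 y2) = coeffMap (algebraMap O L) (qExpand O 2 y1) := by
    have h3 := congrArg (fun z : lg_F L N => lg_phi L (z : LaurentSeries L)) hf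
    simp only [MulMemClass.coe_mul, map_mul] at h3
    rw [lg_phiE_coe, coeffMap_qExpand, coeffMap_qExpand]
    exact h3
  have hred' : coeffMap (IsLocalRing.residue O) (qExpand O 2 y1)
      = coeffMap (IsLocalRing.residue O) (qExpand O 2 y2) := by
    rw [coeffMap_qExpand, coeffMap_qExpand, hred]
  have hred0' : coeffMap (IsLocalRing.residue O) (qExpand O 2 y2) ≠ 0 := by
    rw [coeffMap_qExpand]
    intro h0
    apply hred0
    have hinj : Function.Injective (qExpand (IsLocalRing.ResidueField O) 2) :=
      (qExpand (IsLocalRing.ResidueField O) 2).injective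
    exact hinj (by rw [h0, map_zero])
  exact gq_h4a_fc_of_iota π hπ0 hπmax (lg_E L N) (lg_E_le_quotField O N) (lg_lamE N) (hm_lam O) hux
    hxtr hp12 (qExpand O 2 y1) (qExpand O 2 y2) hred' hred0' (lg_phiE f) hf'

end Assemble

end Fermat.Agent.JT3
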