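/-
JT3 / Route R (S18), instance layer: the data `(K, E, x) = (L(λ), φ(F_N)(λ), λ resp. λ⁻¹)` in the
shape consumed by the generic model theorem `mdl_regAt`: algebra instances over `O`, towers,
`E / K` finite, `x` transcendental and generating.
-/
import Mathlib
import Fermat.Agent.JT3.Inst.Tower
import Fermat.Agent.JT3.Inst.Statements
import Fermat.Agent.JT3.Inst.FunFieldFacts
import Fermat.Agent.JT3.Cover.RamInfty

set_option autoImplicit false

noncomputable section

open ModularCurve IntermediateField AlgebraicCurve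

namespace Fermat.Agent.JT3

section Instances

variable {L : Type*} [Field L] (O : ValuationSubring L) (N : ℕ) [NeZero N]

/-- shortcut (this is the term found by instance search; declared to keep the search fast). -/
instance lg_algOK : Algebra ↥O ↥(lg_K L) := Algebra.ofSubsemiring O

/-- shortcut (this is the term found by instance search; declared to keep the search fast). -/
instance lg_algOE : Algebra ↥O ↥(lg_E L N) := Algebra.ofSubsemiring O

instance lg_tower_O_L_K : IsScalarTower ↥O L ↥(lg_K L) :=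
  IsScalarTower.of_algebraMap_eq (fun _ => rfl)

instance lg_tower_O_L_E : IsScalarTower ↥O L ↥(lg_E L N) :=
  IsScalarTower.of_algebraMap_eq (fun _ => rfl)

attribute [local instance] lgh_algKE

instance lg_tower_L_K_E : IsScalarTower L (lg_K L) (lg_E L N) :=
  lgh_isScalarTower_base (lg_K_le_E L N)

instance lg_tower_O_K_E : IsScalarTower ↥O (lg_K L) (lg_E L N) :=
  IsScalarTower.of_algebraMap_eq (fun _ => rfl)

theorem lg_algebraMap_lamK : algebraMap (lg_K L) (lg_E L N) (lgh_lamK L) = lg_lamE N := rfl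

theorem lg_algebraMap_lamK_inv :
    algebraMap (lg_K L) (lg_E L N) (lgh_lamK L)⁻¹ = (lg_lamE N)⁻¹ := by
  rw [map_inv₀]; rfl

end Instances

section Facts

variable (L : Type*) [Field L] [CharZero L] (N : ℕ) [NeZero N]

attribute [local instance] lgh_algKE

/-- the comparison map `L⟮λ⟯ ⊆ E` → `L(λ) ⊆ L((q))`. -/
def lg_simpleToK : ↥L⟮(lg_lamE N : lg_E L N)⟯ →+* ↥(lg_K L) where
  toFun z := ⟨((z : lg_E L N) : LaurentSeries L), by
    have h1 : ((z : lg_E L N) : LaurentSeries L) ∈
        (L⟮(lg_lamE N : lg_E L N)⟯).map (lg_E L N).val := ⟨(z : lg_E L N), z.2, rfl⟩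
    rw [IntermediateField.adjoin_map, Set.image_singleton] at h1
    exact h1⟩
  map_one' := rfl
  map_mul' _ _ := rfl
  map_zero' := rfl
  map_add' _ _ := rfl

/-- `E / L(λ)` is finite. -/
instance lg_finiteDimensional_K_E : FiniteDimensional (lg_K L) (lg_E L N) := by
  haveI := lgf_finite L N
  letI : Algebra ↥L⟮(lg_lamE N : lg_E L N)⟯ ↥(lg_K L) := (lg_simpleToK L N).toAlgebra
  haveI : IsScalarTower ↥L⟮(lg_lamE N : lg_E L N)⟯ ↥(lg_K L) ↥(lg_E L N) :=
    IsScalarTower.of_algebraMap_eq (fun _ => rfl)
  exact Module.Finite.of_restrictScalars_finite ↥L⟮(lg_lamE N : lg_E L N)⟯ ↥(lg_K L) ↥(lg_E L N)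

theorem lg_lamK_transcendental : Transcendental L (lgh_lamK L) := by
  intro h
  exact lgf_lam_transcendental' L two_ne_zero (IntermediateField.isAlgebraic_iff.1 h)

theorem lg_lamK_inv_transcendental : Transcendental L (lgh_lamK L)⁻¹ := fun h =>
  lg_lamK_transcendental L (IsAlgebraic.inv_iff.mp h)

theorem lg_adjoin_lamK_inv : IntermediateField.adjoin L {(lgh_lamK L)⁻¹} = ⊤ :=
  cv_adjoin_inv (lgh_adjoin_lamK L)

end Facts

end Fermat.Agent.JT3
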