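import Mathlib
import Fermat.Agent.JT3.Inst.Tower
import Fermat.Agent.JT3.Inst.FunFieldFacts

/-!
# JT3 / instance layer: the tower `L(j') ⊆ φ(F_N), L(λ) ⊆ E` is finite (prefix `lgf_tower_`)

With the algebra structures `lgh_alg*` of `Inst/Tower.lean` (inclusions of intermediate fields of
`L((q))`), all the extensions of the tower are finite-dimensional.
-/

set_option autoImplicit false
set_option linter.unusedSectionVars false
set_option linter.style.haveILetI false

namespace Fermat.Agent.JT3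

open ModularCurve IntermediateField

section Generic

variable {L Ω : Type*} [Field L] [Field Ω] [Algebra L Ω]

/-- `F₁ ≤ F₂ = L(S)` with `S` finite and integral over `F₁` ⟹ `F₂ / F₁` finite (for the algebra
structure given by the inclusion). -/
theorem lgf_tower_finite_of_gens {F₁ F₂ : IntermediateField L Ω} (h12 : F₁ ≤ F₂) (S : Set Ω)
    (hS : S.Finite) (hF₂ : F₂ = IntermediateField.adjoin L S)
    (hint : ∀ s ∈ S, IsIntegral F₁ s) :
    @FiniteDimensional F₁ F₂ _ _ (lgh_algOfLe h12).toModule := by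
  letI := lgh_algOfLe h12
  haveI : Finite S := hS
  haveI hfd : FiniteDimensional F₁ (IntermediateField.adjoin F₁ S) :=
    IntermediateField.finiteDimensional_adjoin hint
  have hle : ∀ x : F₂, (x : Ω) ∈ IntermediateField.adjoin F₁ S := by
    intro x
    have hx : (x : Ω) ∈ IntermediateField.adjoin L S := hF₂ ▸ x.2
    have hmono : IntermediateField.adjoin L S
        ≤ (IntermediateField.adjoin F₁ S).restrictScalars L := by
      rw [IntermediateField.adjoin_le_iff]
      intro s hs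
      exact IntermediateField.subset_adjoin F₁ S hs
    exact hmono hx
  let f : F₂ →ₗ[F₁] IntermediateField.adjoin F₁ S :=
    { toFun := fun x => ⟨(x : Ω), hle x⟩
      map_add' := fun x y => rfl
      map_smul' := fun a x => rfl }
  have hf : Function.Injective f := by
    intro x y hxy
    apply Subtype.ext
    exact congrArg (fun z : IntermediateField.adjoin F₁ S => (z : Ω)) hxy
  exact Module.Finite.of_injective f hf

end Generic

section Concrete

variable (L : Type*) [Field L] [CharZero L] (N : ℕ) [NeZero N]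

/-- `j(q^{2d})` is integral over every subfield of `L((q))` containing `j' = j(q²)`. -/
theorem lgf_tower_isIntegral_gen (F₁ : IntermediateField L (LaurentSeries L))
    (hj : lg_j2 L ∈ F₁) {d : ℕ} [NeZero d] (hd : d ∣ N) :
    IsIntegral F₁ (lg_phi L (qExpand L d (jqModC L))) := by
  obtain ⟨ℓ, hℓN, hℓ⟩ := Nat.exists_infinite_primes (N + 1)
  haveI : Fact ℓ.Prime := ⟨hℓ⟩
  have hℓd : ¬ ℓ ∣ d := fun h => by
    have := Nat.le_of_dvd (Nat.pos_of_ne_zero (NeZero.ne N)) (h.trans hd)
    omega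
  let ρ : ↥(GaloisRep.ratLocalizedAt ℓ) →+* L :=
    (algebraMap ℚ L).comp (GaloisRep.ratLocalizedAt ℓ).subtype
  obtain ⟨Φ, hm, h0⟩ := lgf_modEq_twist L d ℓ hℓd ρ
  exact lgf_isIntegral_of_modEq (AlgHom.id L (LaurentSeries L)) ρ F₁ (x := lg_j2 L)
    (y := lg_phi L (qExpand L d (jqModC L))) hj Φ hm h0

theorem lgf_tower_F2_eq_adjoin :
    lg_F2 L N = IntermediateField.adjoin L ((lg_phi L) '' (divisorExpansionsC L N)) := by
  rw [← IntermediateField.adjoin_map]
  rfl

/-- `λ` is integral over every subfield of `L((q))` containing `j'`. -/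
theorem lgf_tower_isIntegral_lam (F₁ : IntermediateField L (LaurentSeries L))
    (hj : lg_j2 L ∈ F₁) : IsIntegral F₁ (lg_lam L) :=
  cv_leg_isIntegral_field (K := F₁) (Ω := LaurentSeries L) two_ne_zero
    (j := (⟨lg_j2 L, hj⟩ : F₁)) (lgh_legendre L)

attribute [local instance] lgh_algKjK lgh_algKjF2 lgh_algKjE lgh_algF2E lgh_algKE

/-- `φ(F_N) / L(j')` is finite. -/
theorem lgf_tower_finite_Kj_F2 : FiniteDimensional (lgh_Kj L) (lg_F2 L N) := by
  refine lgf_tower_finite_of_gens (lgh_Kj_le_F2 L N) _ ((jcr_finite_gens (k := L) N).image _)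
    (lgf_tower_F2_eq_adjoin L N) ?_
  rintro _ ⟨_, ⟨d, hd, hdN, rfl⟩, rfl⟩
  haveI := hd
  exact lgf_tower_isIntegral_gen L N (lgh_Kj L) (mem_adjoin_simple_self L _) hdN

/-- `E / L(λ)` is finite. -/
theorem lgf_tower_finite_K_E : FiniteDimensional (lg_K L) (lg_E L N) := by
  refine lgf_tower_finite_of_gens (lg_K_le_E L N) _ (lgf_gens_finite L N)
    (lgf_E_eq_adjoin L N) ?_
  rintro _ (⟨_, ⟨d, hd, hdN, rfl⟩, rfl⟩ | rfl)
  · haveI := hd
    exact lgf_tower_isIntegral_gen L N (lg_K L) (lgh_j2_mem_K L) hdN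
  · exact isIntegral_algebraMap (x := (⟨lg_lam L, lg_lam_mem_K L⟩ : lg_K L))

/-- `E / L(j')` is finite. -/
theorem lgf_tower_finite_Kj_E : FiniteDimensional (lgh_Kj L) (lg_E L N) := by
  refine lgf_tower_finite_of_gens (lgh_Kj_le_E L N) _ (lgf_gens_finite L N)
    (lgf_E_eq_adjoin L N) ?_
  rintro _ (⟨_, ⟨d, hd, hdN, rfl⟩, rfl⟩ | rfl)
  · haveI := hd
    exact lgf_tower_isIntegral_gen L N (lgh_Kj L) (mem_adjoin_simple_self L _) hdN
  · exact lgf_tower_isIntegral_lam L (lgh_Kj L) (mem_adjoin_simple_self L _)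

/-- `E / φ(F_N)` is finite. -/
theorem lgf_tower_finite_F2_E : FiniteDimensional (lg_F2 L N) (lg_E L N) := by
  refine lgf_tower_finite_of_gens (lg_F2_le_E L N) _ (lgf_gens_finite L N)
    (lgf_E_eq_adjoin L N) ?_
  rintro _ (⟨_, ⟨d, hd, hdN, rfl⟩, rfl⟩ | rfl)
  · haveI := hd
    exact lgf_tower_isIntegral_gen L N (lg_F2 L N) (lg_j2_mem_F2 L N) hdN
  · exact lgf_tower_isIntegral_lam L (lg_F2 L N) (lg_j2_mem_F2 L N)

end Concrete

end Fermat.Agent.JT3
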