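/-
JT3 / Route R (S18), instance layer, Hesse cover (`ℓ = 2`): the objects.  Line-by-line twin of
`Inst/Defs.lean` (Legendre cover, `ℓ` odd), with `(q ↦ q², λ, j(q²))` replaced by
`(q ↦ q³, μ, j(q³))`.

Everything is generic in the coefficient field `L` with `3 ≠ 0`:

* `hs_phi L`       : `q ↦ q³` as an `L`-algebra endomorphism of `L((q))`;
* `hs_F3 L N`      : the twist `φ(F_N) = L(j(q^{3d}) : d ∣ N)` of the level-`N` field `lg_F L N`;
* `hs_mu L h3`     : the Hesse modulus `μ = (1/3) q⁻¹ + ⋯ ∈ q⁻¹ L[[q³]]` (`hm_mu`);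
* `hs_j3 L`        : `j' = j(q³) = 27 μ³ (μ³ + 8)³ / (μ³ - 1)³`;
* `hs_K L h3`      : the rational field `L(μ)`;
* `hs_E L h3 N`    : the rigidified field `E = φ(F_N)(μ)`.
-/
import Mathlib
import Fermat.Agent.JT3.Inst.Defs
import Fermat.Agent.JT3.Hauptmodul.Hesse

set_option autoImplicit false
set_option linter.unusedSectionVars false

noncomputable section

open ModularCurve IntermediateField
open Fermat.Agent.S28

namespace Fermat.Agent.JT3

section Defs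

variable (L : Type*) [Field L] (h3 : (3 : L) ≠ 0) (N : ℕ) [NeZero N]

/-- `φ = (q ↦ q³)` as an `L`-algebra endomorphism of `L((q))`. -/
abbrev hs_phi : LaurentSeries L →ₐ[L] LaurentSeries L := qExpandAlgHomC L 3

theorem hs_phi_apply (x : LaurentSeries L) : hs_phi L x = qExpand L 3 x := rfl

/-- The twisted level-`N` field `φ(F_N) = L(j(q^{3d}) : d ∣ N)`. -/
def hs_F3 : IntermediateField L (LaurentSeries L) := (lg_F L N).map (hs_phi L)

/-- The Hesse modulus `μ(q) = (1/3) q⁻¹ + ⋯`. -/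
def hs_mu : LaurentSeries L := hm_mu L (IsUnit.mk0 _ h3)

/-- `j' = j(q³)`. -/
def hs_j3 : LaurentSeries L := qExpand L 3 (jqModC L)

/-- The rational function field `L(μ)`. -/
def hs_K : IntermediateField L (LaurentSeries L) := IntermediateField.adjoin L {hs_mu L h3}

/-- The rigidified field `E = φ(F_N)(μ)`. -/
def hs_E : IntermediateField L (LaurentSeries L) := hs_F3 L N ⊔ hs_K L h3

end Defs

section Basic

variable (L : Type*) [Field L] (h3 : (3 : L) ≠ 0) (N : ℕ) [NeZero N]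

theorem hs_mu_eq (h : IsUnit (3 : L)) : hs_mu L h3 = hm_mu L h := rfl

theorem hs_mu_mem_K : hs_mu L h3 ∈ hs_K L h3 :=
  IntermediateField.mem_adjoin_simple_self L _

theorem hs_K_le_E : hs_K L h3 ≤ hs_E L h3 N := le_sup_right

theorem hs_F3_le_E : hs_F3 L N ≤ hs_E L h3 N := le_sup_left

theorem hs_mu_mem_E : hs_mu L h3 ∈ hs_E L h3 N := hs_K_le_E L h3 N (hs_mu_mem_K L h3)

theorem hs_phi_mem_F3 {x : LaurentSeries L} (hx : x ∈ lg_F L N) : hs_phi L x ∈ hs_F3 L N :=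
  ⟨x, hx, rfl⟩

theorem hs_phi_mem_E {x : LaurentSeries L} (hx : x ∈ lg_F L N) : hs_phi L x ∈ hs_E L h3 N :=
  hs_F3_le_E L h3 N (hs_phi_mem_F3 L N hx)

theorem hs_j3_mem_F3 : hs_j3 L ∈ hs_F3 L N :=
  ⟨jqModC L, jqModC_mem_full L N, rfl⟩

theorem hs_j3_mem_E : hs_j3 L ∈ hs_E L h3 N := hs_F3_le_E L h3 N (hs_j3_mem_F3 L N)

/-- The Hesse equation: `27 μ³ (μ³ + 8)³ = j' (μ³ - 1)³`. -/
theorem hs_hesse : cv_hesN (hs_mu L h3) = hs_j3 L * cv_hesD (hs_mu L h3) :=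
  hm_hesse L (IsUnit.mk0 _ h3)

/-- The Hesse equation, expanded. -/
theorem hs_hesse' :
    27 * hs_mu L h3 ^ 3 * (hs_mu L h3 ^ 3 + 8) ^ 3 = hs_j3 L * (hs_mu L h3 ^ 3 - 1) ^ 3 :=
  hs_hesse L h3

/-- `μ` has a simple pole at `q = 0`. -/
theorem hs_mu_order : (hs_mu L h3).order = -1 := hm_mu_order L (IsUnit.mk0 _ h3)

theorem hs_mu_ne_zero : hs_mu L h3 ≠ 0 := by
  intro h
  have := hs_mu_order L h3
  rw [h, HahnSeries.order_zero] at this
  omega

/-- the leading coefficient of `μ` is `1/3`. -/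
theorem hs_mu_coeff_neg_one : (hs_mu L h3).coeff (-1) = (3 : L)⁻¹ := by
  rw [hs_mu, hm_mu_coeff_neg_one]
  have h : ((IsUnit.mk0 (3 : L) h3).unit : L) = 3 := rfl
  rw [Units.val_inv_eq_inv_val, h]

theorem hs_mu_coeff_of_lt {n : ℤ} (h : n < -1) : (hs_mu L h3).coeff n = 0 :=
  hm_mu_coeff_of_lt L _ h

theorem hs_mu_coeff_of_not_dvd {n : ℤ} (h : ¬ (3 : ℤ) ∣ n + 1) : (hs_mu L h3).coeff n = 0 :=
  hm_mu_coeff_of_not_dvd L _ h

/-- `μ³` has order `-3`, so `μ³ ≠ 1`: `μ` is not a cusp of the Hesse pencil. -/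
theorem hs_mu_cube_order : (hs_mu L h3 ^ 3).order = -3 := by
  rw [HahnSeries.order_pow, hs_mu_order]
  norm_num

theorem hs_mu_cube_ne_one : hs_mu L h3 ^ 3 ≠ 1 := by
  intro h
  have := hs_mu_cube_order L h3
  rw [h, HahnSeries.order_one] at this
  omega

theorem hs_hesD_ne_zero : cv_hesD (hs_mu L h3) ≠ 0 := by
  unfold cv_hesD
  exact pow_ne_zero _ (sub_ne_zero.mpr (hs_mu_cube_ne_one L h3))

/-- `j' = cv_hesN μ / cv_hesD μ ∈ L(μ)`. -/
theorem hs_j3_eq_div : hs_j3 L = cv_hesN (hs_mu L h3) / cv_hesD (hs_mu L h3) := by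
  rw [eq_div_iff (hs_hesD_ne_zero L h3), hs_hesse]

theorem hs_j3_mem_K : hs_j3 L ∈ hs_K L h3 := by
  rw [hs_j3_eq_div L h3]
  have hμ := hs_mu_mem_K L h3
  refine div_mem ?_ ?_
  · unfold cv_hesN
    exact mul_mem (mul_mem (ofNat_mem _ 27) (pow_mem hμ 3))
      (pow_mem (add_mem (pow_mem hμ 3) (ofNat_mem _ 8)) 3)
  · unfold cv_hesD
    exact pow_mem (sub_mem (pow_mem hμ 3) (one_mem _)) 3

/-- Twisting `q ↦ e q` with `e³ = 1` multiplies `μ` by `e⁻¹`. -/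
theorem hs_twist_mu (e : Lˣ) (he : e ^ 3 = 1) :
    fs_twist e (hs_mu L h3) = HahnSeries.C ((e⁻¹ : Lˣ) : L) * hs_mu L h3 :=
  hm_twist_mu L _ e he

/-- naturality of the objects in the coefficient field -/
theorem hs_coeffMap_mu {L' : Type*} [Field L'] (f : L →+* L') (h3' : (3 : L') ≠ 0) :
    coeffMap f (hs_mu L h3) = hs_mu L' h3' := hm_coeffMap_mu f _ _

theorem hs_coeffMap_j3 {L' : Type*} [Field L'] (f : L →+* L') :
    coeffMap f (hs_j3 L) = hs_j3 L' := by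
  rw [hs_j3, coeffMap_qExpand, coeffMap_jqModC, hs_j3]

theorem hs_coeffMap_phi {L' : Type*} [Field L'] (f : L →+* L') (x : LaurentSeries L) :
    coeffMap f (hs_phi L x) = hs_phi L' (coeffMap f x) := by
  rw [hs_phi_apply, hs_phi_apply, coeffMap_qExpand]

end Basic

end Fermat.Agent.JT3
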