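/-
JT3 / Route R (S18), instance layer, Hesse cover (`ℓ = 2`): the intermediate statements of the
chain `S18 ⟸ jt_Key ⟸ hs_KeyE ⟸ hs_Key0 ⟸ fc_main + model`, and the charts of the model.
Line-by-line twin of `Inst/Statements.lean` (Legendre cover).
-/
import Mathlib
import Fermat.Agent.JT3.Inst.HesseDefs
import Fermat.Agent.JT3.S18Key
import Fermat.Agent.JT3.Seams

set_option autoImplicit false
set_option linter.unusedSectionVars false

noncomputable section

open ModularCurve IntermediateField AlgebraicCurve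

namespace Fermat.Agent.JT3

section KeyStatements

/-- **KEY over a coefficient field `L` with a valuation ring `O`** (in the application `L` is a
number field inside `Q̄` and `O = A ∩ L` a discrete valuation ring over `2`): the statement of
`jt_Key` over `(L, O)`, with conclusion in the rigidified field `E = φ(F_N)(μ)`, `φ = (q ↦ q³)`. -/
def hs_Key0 (L : Type*) [Field L] (h3 : (3 : L) ≠ 0) (O : ValuationSubring L) (N : ℕ) [NeZero N]
    (p : ℕ) : Prop :=
  ∀ (y1 y2 : LaurentSeries O)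
    (h1 : coeffMap O.subtype y1 ∈ lg_F L N) (h2 : coeffMap O.subtype y2 ∈ lg_F L N),
    coeffMap (IsLocalRing.residue O) y1 = coeffMap (IsLocalRing.residue O) y2 →
    coeffMap (IsLocalRing.residue O) y2 ≠ 0 →
    ∀ f : lg_F L N,
      f * (⟨coeffMap O.subtype y2, h2⟩ : lg_F L N) = (⟨coeffMap O.subtype y1, h1⟩ : lg_F L N) →
      (∀ P : Place L (lg_F L N), (p : ℤ) ∣ P.ord f) →
      ∃ (c : L) (g : LaurentSeries L), g ∈ hs_E L h3 N ∧
        hs_phi L (f : LaurentSeries L) = algebraMap L (LaurentSeries L) c * g ^ p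

/-- `3 ≠ 0` in `Q̄`. -/
theorem hs_three_ne_zero_bar : (3 : AlgebraicClosure ℚ) ≠ 0 := by norm_num

/-- **KEY_E**: the statement of `jt_Key A N p` with conclusion in `E = φ(F_N)(μ)` over `Q̄`. -/
def hs_KeyE (A : ValuationSubring (AlgebraicClosure ℚ)) (N : ℕ) [NeZero N] (p : ℕ) : Prop :=
  ∀ (y1 y2 : LaurentSeries A)
    (h1 : coeffMap A.subtype y1 ∈ modularFunctionFieldBar N)
    (h2 : coeffMap A.subtype y2 ∈ modularFunctionFieldBar N),
    coeffMap (IsLocalRing.residue A) y1 = coeffMap (IsLocalRing.residue A) y2 →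
    coeffMap (IsLocalRing.residue A) y2 ≠ 0 →
    ∀ f : modularFunctionFieldBar N,
      f * (⟨coeffMap A.subtype y2, h2⟩ : modularFunctionFieldBar N)
        = (⟨coeffMap A.subtype y1, h1⟩ : modularFunctionFieldBar N) →
      (∀ P : Place (AlgebraicClosure ℚ) (modularFunctionFieldBar N), (p : ℤ) ∣ P.ord f) →
      ∃ (c : AlgebraicClosure ℚ) (g : LaurentSeries (AlgebraicClosure ℚ)),
        g ∈ hs_E (AlgebraicClosure ℚ) hs_three_ne_zero_bar N ∧
        hs_phi (AlgebraicClosure ℚ) (f : LaurentSeries (AlgebraicClosure ℚ))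
          = algebraMap (AlgebraicClosure ℚ) (LaurentSeries (AlgebraicClosure ℚ)) c * g ^ p

end KeyStatements

section Charts

variable {L : Type*} [Field L] (h3 : (3 : L) ≠ 0) (O : ValuationSubring L) (N : ℕ) [NeZero N]

/-- `μ` as an element of `E`. -/
def hs_muE : hs_E L h3 N := ⟨hs_mu L h3, hs_mu_mem_E L h3 N⟩

/-- The normalisation in `E` of the `O`-subalgebra generated by a set `s ⊆ E`, as a subalgebra
over `O`. -/
def hs_chart (s : Set (hs_E L h3 N)) : Subalgebra O (hs_E L h3 N) :=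
  (integralClosure (Algebra.adjoin O s) (hs_E L h3 N)).restrictScalars O

theorem hs_mem_chart {s : Set (hs_E L h3 N)} {z : hs_E L h3 N} :
    z ∈ hs_chart h3 O N s ↔ IsIntegral (Algebra.adjoin O s) z := Iff.rfl

/-- The chart `B₁` (`μ ≠ ∞`): normalisation of `O[μ]`. -/
def hs_B1 : Subalgebra O (hs_E L h3 N) := hs_chart h3 O N {hs_muE h3 N}

/-- The chart `B₂` (`μ ≠ 0`): normalisation of `O[1/μ]`. -/
def hs_B2 : Subalgebra O (hs_E L h3 N) := hs_chart h3 O N {(hs_muE h3 N)⁻¹}

/-- The chart `B₁₂` (`μ ≠ 0, ∞`): normalisation of `O[μ, 1/μ]`. -/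
def hs_B12 : Subalgebra O (hs_E L h3 N) := hs_chart h3 O N {hs_muE h3 N, (hs_muE h3 N)⁻¹}

theorem hs_chart_mono {s t : Set (hs_E L h3 N)} (h : s ⊆ t) :
    hs_chart h3 O N s ≤ hs_chart h3 O N t := by
  intro z hz
  rw [hs_mem_chart] at hz ⊢
  have hle : Algebra.adjoin O s ≤ Algebra.adjoin O t := Algebra.adjoin_mono h
  obtain ⟨p, hp, hpz⟩ := hz
  refine ⟨p.map (Subalgebra.inclusion hle).toRingHom, hp.map _, ?_⟩
  rw [Polynomial.eval₂_map]
  exact hpz

theorem hs_B1_le_B12 : hs_B1 h3 O N ≤ hs_B12 h3 O N :=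
  hs_chart_mono h3 O N (by intro x hx; rw [Set.mem_singleton_iff] at hx; subst hx; simp)

theorem hs_B2_le_B12 : hs_B2 h3 O N ≤ hs_B12 h3 O N :=
  hs_chart_mono h3 O N (by intro x hx; rw [Set.mem_singleton_iff] at hx; subst hx; simp)

end Charts

end Fermat.Agent.JT3
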