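import Mathlib
import Fermat.Agent.JT3.Inst.HesseStatements
import Fermat.Agent.JT3.Inst.FunFieldFacts

/-!
# JT3 / instance layer, Hesse cover: `E = φ(F_N)(μ)` is a function field over `L`

Twin of `Inst/FunFieldFacts.lean` for the Hesse cover (`φ = (q ↦ q³)`, `μ` the Hesse modulus):

* `hsf_mu_transcendental`: `μ` is transcendental over `L`;
* `hsf_finite`: `E` is finite over `L(μ)`;
* `hsf_funField`: `fc_funField` at the Hesse instance.

(`lgf_const`, `lgf_hconst` are generic and serve both covers.)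
-/

set_option autoImplicit false
set_option linter.unusedSectionVars false
set_option linter.style.haveILetI false

namespace Fermat.Agent.JT3

open ModularCurve IntermediateField AlgebraicCurve
open Fermat.Agent.S28

section Mu

variable (L : Type*) [Field L] (h3 : (3 : L) ≠ 0) (N : ℕ) [NeZero N]

theorem hsf_mu_transcendental' : Transcendental L (hs_mu L h3) := by
  refine lgf_transcendental_of_coeff (n := -1) (by norm_num) ?_
  rw [hs_mu_coeff_neg_one]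
  exact inv_ne_zero h3

/-- `μ` is transcendental over `L`. -/
theorem hsf_mu_transcendental : Transcendental L (hs_muE h3 N) := by
  intro h
  exact hsf_mu_transcendental' L h3 (IntermediateField.isAlgebraic_iff.1 h)

end Mu

section Concrete

variable (L : Type*) [Field L] [CharZero L] (h3 : (3 : L) ≠ 0) (N : ℕ) [NeZero N]

/-- `j' = j(q³)` as an element of `E`. -/
noncomputable def hsf_j3E : hs_E L h3 N := ⟨hs_j3 L, hs_j3_mem_E L h3 N⟩

theorem hsf_hesseE :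
    27 * (hs_muE h3 N : hs_E L h3 N) ^ 3 * ((hs_muE h3 N : hs_E L h3 N) ^ 3 + 8) ^ 3
      = hsf_j3E L h3 N * ((hs_muE h3 N : hs_E L h3 N) ^ 3 - 1) ^ 3 :=
  Subtype.ext (hs_hesse' L h3)

theorem hsf_j3E_mem : hsf_j3E L h3 N ∈ L⟮(hs_muE h3 N : hs_E L h3 N)⟯ := by
  have h1 : (hs_muE h3 N : hs_E L h3 N) ^ 3 - 1 ≠ 0 := by
    intro h
    apply hs_mu_cube_ne_one L h3
    have := congrArg (fun z : hs_E L h3 N => (z : LaurentSeries L)) (sub_eq_zero.1 h)
    exact this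
  have hden : ((hs_muE h3 N : hs_E L h3 N) ^ 3 - 1) ^ 3 ≠ 0 := pow_ne_zero _ h1
  have hj : hsf_j3E L h3 N =
      27 * (hs_muE h3 N : hs_E L h3 N) ^ 3 * ((hs_muE h3 N : hs_E L h3 N) ^ 3 + 8) ^ 3 /
      ((hs_muE h3 N : hs_E L h3 N) ^ 3 - 1) ^ 3 := by
    rw [eq_div_iff hden, hsf_hesseE]
  rw [hj]
  have hmem := mem_adjoin_simple_self L (hs_muE h3 N : hs_E L h3 N)
  exact div_mem (mul_mem (mul_mem (ofNat_mem _ 27) (pow_mem hmem 3))
    (pow_mem (add_mem (pow_mem hmem 3) (ofNat_mem _ 8)) 3))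
    (pow_mem (sub_mem (pow_mem hmem 3) (one_mem _)) 3)

/-- generators of `E` -/
noncomputable def hsf_gens : Set (LaurentSeries L) :=
  (hs_phi L) '' (divisorExpansionsC L N) ∪ {hs_mu L h3}

theorem hsf_gens_finite : (hsf_gens L h3 N).Finite :=
  ((jcr_finite_gens (k := L) N).image _).union (Set.finite_singleton _)

theorem hsf_E_eq_adjoin : hs_E L h3 N = IntermediateField.adjoin L (hsf_gens L h3 N) := by
  rw [hsf_gens, IntermediateField.adjoin_union, ← IntermediateField.adjoin_map]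
  rfl

/-- the twisted modular equation of level `d`: `Φ_d(j(q³), j(q^{3d})) = 0` -/
theorem hsf_modEq_twist (d ℓ : ℕ) [NeZero d] [Fact ℓ.Prime] (hℓd : ¬ ℓ ∣ d)
    (ρ : ↥(GaloisRep.ratLocalizedAt ℓ) →+* L) :
    ∃ Φ : Polynomial (Polynomial ↥(GaloisRep.ratLocalizedAt ℓ)), Φ.Monic ∧
      Φ.eval₂ (Polynomial.eval₂RingHom ((HahnSeries.C : L →+* LaurentSeries L).comp ρ)
        (hs_j3 L)) (hs_phi L (qExpand L d (jqModC L))) = 0 := by
  obtain ⟨Φ, hm, h0⟩ := jcr_modEq d ℓ hℓd ρ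
  refine ⟨Φ, hm, ?_⟩
  have h1 := Polynomial.hom_eval₂ Φ
    (Polynomial.eval₂RingHom ((HahnSeries.C : L →+* LaurentSeries L).comp ρ) (jqModC L))
    (hs_phi L : LaurentSeries L →+* LaurentSeries L) (qExpand L d (jqModC L))
  rw [h0, map_zero] at h1
  have h2 : (hs_phi L : LaurentSeries L →+* LaurentSeries L).comp
      (Polynomial.eval₂RingHom ((HahnSeries.C : L →+* LaurentSeries L).comp ρ) (jqModC L))
      = Polynomial.eval₂RingHom ((HahnSeries.C : L →+* LaurentSeries L).comp ρ) (hs_j3 L) := by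
    refine Polynomial.ringHom_ext (fun r => ?_) ?_
    · simp only [RingHom.comp_apply, Polynomial.coe_eval₂RingHom, Polynomial.eval₂_C]
      rw [HahnSeries.C_apply, ← algebraMap_laurentSeries_eq_single]
      exact (hs_phi L).commutes _
    · simp only [RingHom.comp_apply, Polynomial.coe_eval₂RingHom, Polynomial.eval₂_X]
      rfl
  rw [h2] at h1
  exact h1.symm

/-- **`E` is finite over `L(μ)`.** -/
theorem hsf_finite : FiniteDimensional L⟮(hs_muE h3 N : hs_E L h3 N)⟯ (hs_E L h3 N) := by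
  refine lgf_finite_of_gens (hs_E L h3 N) (hsf_gens L h3 N) (hsf_gens_finite L h3 N)
    (hsf_E_eq_adjoin L h3 N) (hs_muE h3 N) ?_
  rintro y (⟨_, ⟨d, hd, hdN, rfl⟩, hy⟩ | hy)
  · haveI := hd
    obtain ⟨ℓ, hℓN, hℓ⟩ := Nat.exists_infinite_primes (N + 1)
    haveI : Fact ℓ.Prime := ⟨hℓ⟩
    have hℓd : ¬ ℓ ∣ d := fun h => by
      have := Nat.le_of_dvd (Nat.pos_of_ne_zero (NeZero.ne N)) (h.trans hdN)
      omega
    let ρ : ↥(GaloisRep.ratLocalizedAt ℓ) →+* L :=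
      (algebraMap ℚ L).comp (GaloisRep.ratLocalizedAt ℓ).subtype
    obtain ⟨Φ, hm, h0⟩ := hsf_modEq_twist L d ℓ hℓd ρ
    refine (lgf_isIntegral_of_modEq (hs_E L h3 N).val ρ L⟮(hs_muE h3 N : hs_E L h3 N)⟯
      (x := hsf_j3E L h3 N) (y := y) (hsf_j3E_mem L h3 N) Φ hm ?_).isAlgebraic
    have hy' : (hs_E L h3 N).val y = hs_phi L (qExpand L d (jqModC L)) := hy.symm
    rw [hy']
    exact h0
  · have hy' : y = hs_muE h3 N := Subtype.ext hy
    rw [hy']
    exact isAlgebraic_algebraMap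
      (⟨hs_muE h3 N, mem_adjoin_simple_self L _⟩ : L⟮(hs_muE h3 N : hs_E L h3 N)⟯)

/-- **`fc_funField` at the Hesse instance** `(A0, L, F0, x) = (O, L, E, μ)`. -/
theorem hsf_funField (O : ValuationSubring L) [IsDiscreteValuationRing O] {π : O}
    (hπ : Irreducible π) (m : ℕ) (hm : IsUnit (m : O)) (f : hs_E L h3 N) (hf0 : f ≠ 0)
    (hπ1 : Prime (algebraMap O (hs_B1 h3 O N) π))
    (hπ2 : Prime (algebraMap O (hs_B2 h3 O N) π))
    (hπ12 : Prime (algebraMap O (hs_B12 h3 O N) π))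
    (h31 : ∀ 𝔫 : Ideal (hs_B1 h3 O N), 𝔫.IsMaximal → algebraMap O (hs_B1 h3 O N) π ∈ 𝔫 →
      ∃ u ∈ 𝔫, ∀ z ∈ 𝔫, ∃ s, s ∉ 𝔫 ∧ s * z ∈ Ideal.span {algebraMap O (hs_B1 h3 O N) π, u})
    (h32 : ∀ 𝔫 : Ideal (hs_B2 h3 O N), 𝔫.IsMaximal → algebraMap O (hs_B2 h3 O N) π ∈ 𝔫 →
      ∃ u ∈ 𝔫, ∀ z ∈ 𝔫, ∃ s, s ∉ 𝔫 ∧ s * z ∈ Ideal.span {algebraMap O (hs_B2 h3 O N) π, u})
    (h4a : f - 1 ∈ fc_piO hπ12)
    (h4b : ∀ Q : Place L (hs_E L h3 N), (m : ℤ) ∣ Q.ord f) :
    ∃ (c : O) (g : hs_E L h3 N), g ≠ 0 ∧ f = algebraMap O (hs_E L h3 N) c * g ^ m := by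
  haveI := hsf_finite L h3 N
  haveI : IsScalarTower O L (hs_E L h3 N) := IsScalarTower.of_algebraMap_eq fun _ => rfl
  exact fc_funField (A0 := O) (L := L) (F0 := hs_E L h3 N) hπ
    (hsf_mu_transcendental L h3 N) (lgf_hconst (hs_E L h3 N)) m hm f hf0
    hπ1 hπ2 hπ12 h31 h32 h4a h4b

end Concrete

end Fermat.Agent.JT3
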