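import Mathlib
import Fermat.Agent.JT3.Inst.TowerFinite
import Fermat.Agent.JT3.Inst.HesseFunFieldFacts

/-!
# JT3 / instance layer, Hesse cover: the tower `L(j'') ⊆ φ₃(F_N), L(μ) ⊆ E` is finite

Twin of `Inst/TowerFinite.lean`.  The statements are generic in the bottom field `F₁` (any
intermediate field of `L((q))` containing `j'' = j(q³)`), with the algebra structure
`lgh_algOfLe h` given by the inclusion; they specialise to every step of the Hesse tower.
-/

set_option autoImplicit false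
set_option linter.unusedSectionVars false
set_option linter.style.haveILetI false

namespace Fermat.Agent.JT3

open ModularCurve IntermediateField
open Fermat.Agent.S28

section Concrete

variable (L : Type*) [Field L] [CharZero L] (h3 : (3 : L) ≠ 0) (N : ℕ) [NeZero N]

/-- `j(q^{3d})` is integral over every subfield of `L((q))` containing `j'' = j(q³)`. -/
theorem hsf_tower_isIntegral_gen (F₁ : IntermediateField L (LaurentSeries L))
    (hj : hs_j3 L ∈ F₁) {d : ℕ} [NeZero d] (hd : d ∣ N) :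
    IsIntegral F₁ (hs_phi L (qExpand L d (jqModC L))) := by
  obtain ⟨ℓ, hℓN, hℓ⟩ := Nat.exists_infinite_primes (N + 1)
  haveI : Fact ℓ.Prime := ⟨hℓ⟩
  have hℓd : ¬ ℓ ∣ d := fun h => by
    have := Nat.le_of_dvd (Nat.pos_of_ne_zero (NeZero.ne N)) (h.trans hd)
    omega
  let ρ : ↥(GaloisRep.ratLocalizedAt ℓ) →+* L :=
    (algebraMap ℚ L).comp (GaloisRep.ratLocalizedAt ℓ).subtype
  obtain ⟨Φ, hm, h0⟩ := hsf_modEq_twist L d ℓ hℓd ρ
  exact lgf_isIntegral_of_modEq (AlgHom.id L (LaurentSeries L)) ρ F₁ (x := hs_j3 L)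
    (y := hs_phi L (qExpand L d (jqModC L))) hj Φ hm h0

theorem hsf_tower_F3_eq_adjoin :
    hs_F3 L N = IntermediateField.adjoin L ((hs_phi L) '' (divisorExpansionsC L N)) := by
  rw [← IntermediateField.adjoin_map]
  rfl

/-- `μ` is integral over every subfield of `L((q))` containing `j''`. -/
theorem hsf_tower_isIntegral_mu (F₁ : IntermediateField L (LaurentSeries L))
    (hj : hs_j3 L ∈ F₁) : IsIntegral F₁ (hs_mu L h3) :=
  cv_hes_isIntegral_field (K := F₁) (Ω := LaurentSeries L)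
    (by norm_num : (3 : F₁) ≠ 0) (j := (⟨hs_j3 L, hj⟩ : F₁)) (hs_hesse L h3)

/-- `φ₃(F_N) / F₁` is finite for every `F₁ ∋ j''` below it. -/
theorem hsf_tower_finite_F3 (F₁ : IntermediateField L (LaurentSeries L)) (hj : hs_j3 L ∈ F₁)
    (h : F₁ ≤ hs_F3 L N) :
    @FiniteDimensional F₁ (hs_F3 L N) _ _ (lgh_algOfLe h).toModule := by
  refine lgf_tower_finite_of_gens h _ ((jcr_finite_gens (k := L) N).image _)
    (hsf_tower_F3_eq_adjoin L N) ?_
  rintro _ ⟨_, ⟨d, hd, hdN, rfl⟩, rfl⟩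
  haveI := hd
  exact hsf_tower_isIntegral_gen L N F₁ hj hdN

/-- `E / F₁` is finite for every `F₁ ∋ j''` below it. -/
theorem hsf_tower_finite_E (F₁ : IntermediateField L (LaurentSeries L)) (hj : hs_j3 L ∈ F₁)
    (h : F₁ ≤ hs_E L h3 N) :
    @FiniteDimensional F₁ (hs_E L h3 N) _ _ (lgh_algOfLe h).toModule := by
  refine lgf_tower_finite_of_gens h _ (hsf_gens_finite L h3 N) (hsf_E_eq_adjoin L h3 N) ?_
  rintro _ (⟨_, ⟨d, hd, hdN, rfl⟩, rfl⟩ | rfl)
  · haveI := hd
    exact hsf_tower_isIntegral_gen L N F₁ hj hdN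
  · exact hsf_tower_isIntegral_mu L h3 F₁ hj

end Concrete

end Fermat.Agent.JT3
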