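import Fermat.Agent.JT3.Inst.Tower
import Fermat.Agent.JT3.Inst.TowerFinite
import Fermat.Agent.JT3.Export.RamLInst
import Fermat.Agent.JT3.Cover.RamInfty
import Fermat.Agent.JT3.Algebra.AbhyankarSeam
import Fermat.Agent.JT3.Algebra.AbhyankarSeamDiv

/-!
# JT3 / Route R (S18), instance leaf [INST-RAM] (prefix `lgr_`)

The ramification hypotheses `(H)` and `(T)` of the generic model theorem for the Legendre cover.
Generic part: for a discrete valuation ring `V0 ⊇ L` of `K = L(j')`, a finite extension `L₁ / K`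
with the ramification data `rml_RamData` of `j'`, and a field `L₂ ⊇ K` containing a solution `x` of
the Legendre relation: there is `n ∈ {3, 2, 1}` with `e(P₁ | V0) ∣ n` for all primes of
`integralClosure V0 L₁` and `n ∣ e(P₂ | V0)` for all primes of `integralClosure V0 L₂` (when
`j' ∈ V0`); and `e(P₁ | V0) ∣ N` when `1/j' ∈ 𝔪_V0`.
-/

set_option autoImplicit false
set_option linter.style.haveILetI false
set_option linter.unusedSectionVars false

open IntermediateField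

namespace Fermat.Agent.JT3

section Generic

variable {L K L₁ L₂ : Type*} [Field L] [CharZero L] [Field K] [Field L₁] [Field L₂]
  [Algebra L K] [Algebra K L₁] [Algebra K L₂] [Algebra L L₁] [IsScalarTower L K L₁]
  [FiniteDimensional K L₁] [FiniteDimensional K L₂]

include L in
theorem lgr_charZero : CharZero K :=
  charZero_of_injective_algebraMap (algebraMap L K).injective

/-- **the pair `(h1, h2)` of the Abhyankar seam at a non-cuspidal place**. -/
theorem lgr_exists_index {N : ℕ} {j' : K} (hgen : IntermediateField.adjoin L {j'} = ⊤)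
    (D : rml_RamData L (algebraMap K L₁ j') N)
    (V0 : Subring K) [IsDiscreteValuationRing V0] [IsFractionRing V0 K]
    (hL0 : ∀ a : L, algebraMap L K a ∈ V0)
    {x : L₂} (hrel : cv_legN x = algebraMap K L₂ j' * cv_legD x) (hj : j' ∈ V0) :
    ∃ n : ℕ,
      (∀ (P : Ideal (integralClosure V0 L₁)) [P.IsPrime], P ≠ ⊥ → P.ramificationIdx V0 ∣ n) ∧
      (∀ (P : Ideal (integralClosure V0 L₂)) [P.IsPrime], P ≠ ⊥ → n ∣ P.ramificationIdx V0) := by
  haveI : CharZero K := lgr_charZero (L := L)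
  haveI : IsDedekindDomain (integralClosure V0 L₂) := integralClosure.isDedekindDomain V0 K L₂
  have h2L : (2 : L) ≠ 0 := two_ne_zero
  have h1728 : (1728 : K) ∈ V0 := by
    have := hL0 1728
    rwa [map_ofNat] at this
  have hj1 : j' - 1728 ∈ V0 := V0.sub_mem hj h1728
  by_cases hu : IsUnit (⟨j', hj⟩ : V0)
  · by_cases hu1 : IsUnit (⟨j' - 1728, hj1⟩ : V0)
    · -- generic place: `n = 1`
      refine ⟨1, ?_, fun P _ _ => one_dvd _⟩
      intro P _ hP
      have hun : jt_UnramAt V0 L₁ := rml_unram_subring V0 hL0 D hj hu hj1 hu1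
      haveI : Algebra.IsUnramifiedAt V0 P := hun P hP
      haveI : Module.Finite V0 (integralClosure V0 L₁) :=
        IsIntegralClosure.finite V0 K L₁ (integralClosure V0 L₁)
      rw [Ideal.ramificationIdx_eq_one P V0]
    · -- `j' = 1728`: `n = 2`
      refine ⟨2, fun P _ hP => rml_ram_one_subring V0 hL0 D hj1 hu1 P hP,
        fun P _ hP => cv_leg_ram_1728_subring V0 h2L hL0 hgen hj1 hu1 hrel P hP⟩
  · -- `j' = 0`: `n = 3`
    refine ⟨3, fun P _ hP => rml_ram_zero_subring V0 hL0 D hj hu P hP,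
      fun P _ hP => cv_leg_ram_zero_subring V0 h2L hL0 hgen hj hu hrel P hP⟩

end Generic

section Comap

variable {L K L₂ : Type*} [Field L] [CharZero L] [Field K] [Field L₂]
  [Algebra L K] [Algebra K L₂] [Algebra L L₂] [IsScalarTower L K L₂]
  (V2 : Subring L₂)

theorem lgr_mem_V0 {a : K} : a ∈ ti_under K V2 ↔ algebraMap K L₂ a ∈ V2 := Iff.rfl

theorem lgr_V0_map_mem (a : ti_under K V2) : algebraMap K L₂ a ∈ V2 := a.2

theorem lgr_L_le_V0 (hL : ∀ a : L, algebraMap L L₂ a ∈ V2) (a : L) :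
    algebraMap L K a ∈ ti_under K V2 := by
  rw [lgr_mem_V0, ← IsScalarTower.algebraMap_apply]
  exact hL a

/-- the residue field of a local subring containing a field of characteristic zero has
characteristic zero. -/
theorem lgr_charZero_residueField [IsLocalRing V2] (hL : ∀ a : L, algebraMap L L₂ a ∈ V2) :
    CharZero (IsLocalRing.ResidueField V2) := by
  let f : L →+* V2 := (algebraMap L L₂).codRestrict V2 hL
  exact charZero_of_injective_ringHom ((IsLocalRing.residue V2).comp f).injective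

theorem lgr_ofNat_mem (hL : ∀ a : L, algebraMap L L₂ a ∈ V2) (n : ℕ) [n.AtLeastTwo] :
    (OfNat.ofNat n : L₂) ∈ V2 := by
  have := hL (OfNat.ofNat n)
  rwa [map_ofNat] at this

theorem lgr_isUnit_ofNat (hL : ∀ a : L, algebraMap L L₂ a ∈ V2) (n : ℕ) [n.AtLeastTwo] :
    IsUnit (⟨(OfNat.ofNat n : L₂), lgr_ofNat_mem V2 hL n⟩ : V2) := by
  let f : L →+* V2 := (algebraMap L L₂).codRestrict V2 hL
  have h0 : (OfNat.ofNat n : L) ≠ 0 := OfNat.ofNat_ne_zero n
  have h1 : IsUnit (f (OfNat.ofNat n)) := (IsUnit.mk0 _ h0).map f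
  have h2 : f (OfNat.ofNat n) = ⟨(OfNat.ofNat n : L₂), lgr_ofNat_mem V2 hL n⟩ := by
    apply Subtype.ext
    show algebraMap L L₂ (OfNat.ofNat n) = OfNat.ofNat n
    rw [map_ofNat]
  rwa [h2] at h1

variable {V2}

omit [CharZero L] in
/-- a solution of the Legendre relation is not `0` or `1` (characteristic `≠ 2`). -/
theorem lgr_ne_zero_one (h2 : (2 : L₂) ≠ 0) {x j : L₂} (hrel : cv_legN x = j * cv_legD x) :
    x ≠ 0 ∧ x ≠ 1 := by
  have h256 : (256 : L₂) ≠ 0 := by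
    have : (256 : L₂) = 2 ^ 8 := by norm_num
    rw [this]
    exact pow_ne_zero 8 h2
  constructor
  · rintro rfl
    apply h256
    have := hrel
    simp only [cv_legN, cv_legD] at this
    simpa using this
  · rintro rfl
    apply h256
    have := hrel
    simp only [cv_legN, cv_legD] at this
    simpa using this

/-- **non-cuspidal places**: if `x, 1/x, 1/(x - 1) ∈ V2` then `j' ∈ V0`. -/
theorem lgr_j_mem_V0 (hL : ∀ a : L, algebraMap L L₂ a ∈ V2) {j' : K} {x : L₂}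
    (hrel : cv_legN x = algebraMap K L₂ j' * cv_legD x)
    (hx : x ∈ V2) (hx0 : x⁻¹ ∈ V2) (hx1 : (x - 1)⁻¹ ∈ V2) : j' ∈ ti_under K V2 := by
  have h2 : (2 : L₂) ≠ 0 := by
    have : (2 : L₂) = algebraMap L L₂ 2 := (map_ofNat _ 2).symm
    rw [this]
    exact (map_ne_zero _).2 two_ne_zero
  obtain ⟨h0, h1⟩ := lgr_ne_zero_one h2 hrel
  have hD : cv_legD x ≠ 0 := cv_legD_ne_zero h0 h1
  have h1' : x - 1 ≠ 0 := sub_ne_zero.2 h1
  have hj : algebraMap K L₂ j' = cv_legN x * (x⁻¹ ^ 2 * (x - 1)⁻¹ ^ 2) := by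
    have : x⁻¹ ^ 2 * (x - 1)⁻¹ ^ 2 = (cv_legD x)⁻¹ := by
      unfold cv_legD
      rw [mul_inv, inv_pow, inv_pow]
    rw [this, hrel, mul_assoc, mul_inv_cancel₀ hD, mul_one]
  rw [lgr_mem_V0, hj]
  have h256 : (256 : L₂) ∈ V2 := lgr_ofNat_mem V2 hL 256
  refine V2.mul_mem ?_ (V2.mul_mem (V2.pow_mem hx0 2) (V2.pow_mem hx1 2))
  unfold cv_legN
  exact V2.mul_mem h256 (V2.pow_mem (V2.add_mem (V2.sub_mem (V2.pow_mem hx 2) hx) V2.one_mem) 3)

/-- **cuspidal places** `x = c`, `c ∈ {0, 1}`: if `x ∈ V2` and `1/(x - c) ∉ V2` then `1/j'` is a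
non-unit of `V0`. -/
theorem lgr_cusp_V0 [IsLocalRing V2] (hL : ∀ a : L, algebraMap L L₂ a ∈ V2) {j' : K} {x : L₂}
    (hrel : cv_legN x = algebraMap K L₂ j' * cv_legD x)
    (hx : x ∈ V2) {c : L₂} (hc : c = 0 ∨ c = 1) (hxc : (x - c)⁻¹ ∉ V2) :
    ∃ hj : j'⁻¹ ∈ ti_under K V2, ¬ IsUnit (⟨j'⁻¹, hj⟩ : ti_under K V2) := by
  have h2 : (2 : L₂) ≠ 0 := by
    have : (2 : L₂) = algebraMap L L₂ 2 := (map_ofNat _ 2).symm
    rw [this]
    exact (map_ne_zero _).2 two_ne_zero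
  obtain ⟨h0, h1⟩ := lgr_ne_zero_one h2 hrel
  have hD : cv_legD x ≠ 0 := cv_legD_ne_zero h0 h1
  have hcV : c ∈ V2 := by
    rcases hc with rfl | rfl
    · exact V2.zero_mem
    · exact V2.one_mem
  have hc'V : 1 - c ∈ V2 := V2.sub_mem V2.one_mem hcV
  -- `x - c` is a non-unit of `V2`
  have hnu : ¬ IsUnit (⟨x - c, V2.sub_mem hx hcV⟩ : V2) := by
    rintro ⟨u, hu⟩
    apply hxc
    have h3 : ((u⁻¹ : V2ˣ) : V2) * ⟨x - c, V2.sub_mem hx hcV⟩ = 1 := by
      rw [← hu]; exact u.inv_mul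
    have h4 : (((u⁻¹ : V2ˣ) : V2) : L₂) * (x - c) = 1 := by
      have := congrArg (Subtype.val) h3
      simpa using this
    have h5 : (x - c)⁻¹ = (((u⁻¹ : V2ˣ) : V2) : L₂) := by
      rw [eq_comm, ← mul_eq_one_iff_eq_inv₀]
      · exact h4
      · intro h6
        rw [h6, mul_zero] at h4
        exact zero_ne_one h4
    rw [h5]
    exact (((u⁻¹ : V2ˣ) : V2)).2
  -- `x² - x = (x - c)(x - (1 - c))` is a non-unit
  have hw : x ^ 2 - x = (x - c) * (x - (1 - c)) := by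
    rcases hc with rfl | rfl <;> ring
  have hwV : x ^ 2 - x ∈ V2 := V2.sub_mem (V2.pow_mem hx 2) hx
  have hwnu : ¬ IsUnit (⟨x ^ 2 - x, hwV⟩ : V2) := by
    intro hu
    apply hnu
    have h3 : (⟨x ^ 2 - x, hwV⟩ : V2)
        = ⟨x - c, V2.sub_mem hx hcV⟩ * ⟨x - (1 - c), V2.sub_mem hx hc'V⟩ := by
      apply Subtype.ext
      exact hw
    rw [h3] at hu
    exact isUnit_of_mul_isUnit_left hu
  -- `x² - x + 1` is a unit, hence so is `N(x)`
  have hqu : IsUnit ((1 : V2) + ⟨x ^ 2 - x, hwV⟩) := cv_isUnit_add_of_nonunit isUnit_one hwnu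
  have hNu : IsUnit ((⟨(256 : L₂), lgr_ofNat_mem V2 hL 256⟩ : V2)
      * ((1 : V2) + ⟨x ^ 2 - x, hwV⟩) ^ 3) := (lgr_isUnit_ofNat V2 hL 256).mul (hqu.pow 3)
  obtain ⟨uN, huN⟩ := hNu
  have huNval : ((uN : V2) : L₂) = cv_legN x := by
    rw [huN]
    unfold cv_legN
    push_cast
    ring
  have hN0 : cv_legN x ≠ 0 := by
    rw [← huNval]
    intro h
    have : (uN : V2) = 0 := Subtype.ext h
    exact uN.ne_zero this
  have hNinv : (cv_legN x)⁻¹ = (((uN⁻¹ : V2ˣ) : V2) : L₂) := by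
    rw [eq_comm, ← mul_eq_one_iff_eq_inv₀ hN0, ← huNval]
    have h7 : ((uN⁻¹ : V2ˣ) : V2) * (uN : V2) = 1 := uN.inv_mul
    have h8 : ((((uN⁻¹ : V2ˣ) : V2) * (uN : V2) : V2) : L₂) = 1 := by rw [h7]; rfl
    rw [Subring.coe_mul] at h8
    exact h8
  have hj0 : algebraMap K L₂ j' ≠ 0 := by
    intro h
    rw [h, zero_mul] at hrel
    exact hN0 hrel
  have hjinv : algebraMap K L₂ j'⁻¹ = cv_legD x * (cv_legN x)⁻¹ := by
    rw [map_inv₀, hrel, mul_inv, mul_comm (algebraMap K L₂ j')⁻¹, ← mul_assoc,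
      mul_inv_cancel₀ hD, one_mul]
  have hDV : cv_legD x ∈ V2 := by
    unfold cv_legD
    exact V2.mul_mem (V2.pow_mem hx 2) (V2.pow_mem (V2.sub_mem hx V2.one_mem) 2)
  have hj : j'⁻¹ ∈ ti_under K V2 := by
    rw [lgr_mem_V0, hjinv, hNinv]
    exact V2.mul_mem hDV (((uN⁻¹ : V2ˣ) : V2)).2
  refine ⟨hj, ?_⟩
  rintro ⟨u, hu⟩
  -- then `D(x)` would be a unit of `V2`
  apply hwnu
  set v : ti_under K V2 := ((u⁻¹ : (ti_under K V2)ˣ) : ti_under K V2) with hv
  have h3 : (⟨j'⁻¹, hj⟩ : ti_under K V2) * v = 1 := by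
    rw [← hu]; exact u.mul_inv
  have h4 : j'⁻¹ * (v : K) = 1 := by
    have h9 : (((⟨j'⁻¹, hj⟩ : ti_under K V2) * v : ti_under K V2) : K) = 1 := by
      rw [h3]; rfl
    rw [Subring.coe_mul] at h9
    exact h9
  have h5 : cv_legD x * ((cv_legN x)⁻¹ * algebraMap K L₂ (v : K)) = 1 := by
    rw [← mul_assoc, ← hjinv, ← map_mul, h4, map_one]
  have hDsq : cv_legD x = (x ^ 2 - x) * (x ^ 2 - x) := by
    unfold cv_legD; ring
  have hvV : algebraMap K L₂ (v : K) ∈ V2 := lgr_V0_map_mem V2 v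
  have h6 : (⟨x ^ 2 - x, hwV⟩ : V2) * (⟨x ^ 2 - x, hwV⟩ * (((uN⁻¹ : V2ˣ) : V2)
      * ⟨algebraMap K L₂ (v : K), hvV⟩)) = 1 := by
    apply Subtype.ext
    push_cast
    rw [← hNinv, ← mul_assoc, ← hDsq]
    exact h5
  exact IsUnit.of_mul_eq_one _ h6

end Comap

section Instance

open Fermat.Agent.S24

variable (L : Type*) [Field L] [CharZero L] [Algebra ℚ L] [Algebra L Kbar] [IsScalarTower ℚ L Kbar]
  (N : ℕ) [NeZero N]

attribute [local instance] lgh_algKjK lgh_algKjF2 lgh_algKjE lgh_algF2E lgh_algKE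

/-- helper22's ramification data of `j'` on `φ(F_N)`, over the base field `L(j')` of the tower. -/
theorem lgr_ramData :
    rml_RamData L (algebraMap (lgh_Kj L) (lg_F2 L N) (lgh_j L)) N :=
  rml_ramData2 L N

variable {L}

/-- **(H)**: `E / L(λ)` is unramified at every place of `L(λ)` (trivial on `L`) at which the
anharmonic coordinate `x` is finite and different from `0, 1`. -/
theorem lgr_hH {x : lg_K L}
    (hrel : cv_legN x = algebraMap (lgh_Kj L) (lg_K L) (lgh_j L) * cv_legD x)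
    (V2 : Subring (lg_K L)) [IsDiscreteValuationRing V2] [IsFractionRing V2 (lg_K L)]
    (hL : ∀ a : L, algebraMap L (lg_K L) a ∈ V2) (hx : x ∈ V2) (hx0 : x⁻¹ ∈ V2)
    (hx1 : (x - 1)⁻¹ ∈ V2) : jt_UnramAt V2 (lg_E L N) := by
  haveI := lgf_tower_finite_Kj_E L N
  haveI := lgf_tower_finite_Kj_F2 L N
  haveI : CharZero (lgh_Kj L) := lgr_charZero (L := L)
  haveI : CharZero (IsLocalRing.ResidueField V2) := ti_charZero_residueField L V2 hL
  haveI : IsDiscreteValuationRing (ti_under (lgh_Kj L) V2) := ti_under_isDVR (lgh_Kj L) V2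
  haveI : IsFractionRing (ti_under (lgh_Kj L) V2) (lgh_Kj L) :=
    ti_under_isFractionRing (lgh_Kj L) V2
  have hL0 : ∀ a : L, algebraMap L (lgh_Kj L) a ∈ ti_under (lgh_Kj L) V2 :=
    lgr_L_le_V0 V2 hL
  have hj : lgh_j L ∈ ti_under (lgh_Kj L) V2 := lgr_j_mem_V0 hL hrel hx hx0 hx1
  obtain ⟨n, h1, h2⟩ := lgr_exists_index (L₁ := lg_F2 L N) (lgh_adjoin_j L) (lgr_ramData L N)
    (ti_under (lgh_Kj L) V2) hL0 hrel hj
  exact ti_seam_unram_under (lg_F2 L N) (lg_K L) (lg_E L N) (lgh_hgen L N) V2 n h1 h2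

/-- **(T)**: at a place of `L(λ)` (trivial on `L`) where `x = c ∈ {0, 1}`, every prime of `E` above
it has ramification index dividing `N`. -/
theorem lgr_hT {x : lg_K L}
    (hrel : cv_legN x = algebraMap (lgh_Kj L) (lg_K L) (lgh_j L) * cv_legD x)
    (V2 : Subring (lg_K L)) [IsDiscreteValuationRing V2] [IsFractionRing V2 (lg_K L)]
    (hL : ∀ a : L, algebraMap L (lg_K L) a ∈ V2) (hx : x ∈ V2)
    {c : lg_K L} (hc : c = 0 ∨ c = 1) (hxc : (x - c)⁻¹ ∉ V2)
    (P : Ideal (integralClosure V2 (lg_E L N))) [P.IsPrime] (hP : P ≠ ⊥) :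
    P.ramificationIdx V2 ∣ N := by
  haveI := lgf_tower_finite_Kj_E L N
  haveI := lgf_tower_finite_Kj_F2 L N
  haveI : CharZero (lgh_Kj L) := lgr_charZero (L := L)
  haveI : CharZero (IsLocalRing.ResidueField V2) := ti_charZero_residueField L V2 hL
  haveI : IsDiscreteValuationRing (ti_under (lgh_Kj L) V2) := ti_under_isDVR (lgh_Kj L) V2
  haveI : IsFractionRing (ti_under (lgh_Kj L) V2) (lgh_Kj L) :=
    ti_under_isFractionRing (lgh_Kj L) V2
  have hL0 : ∀ a : L, algebraMap L (lgh_Kj L) a ∈ ti_under (lgh_Kj L) V2 :=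
    lgr_L_le_V0 V2 hL
  obtain ⟨hj, hjm⟩ := lgr_cusp_V0 (K := lgh_Kj L) hL hrel hx hc hxc
  have h1 : ∀ (P₁ : Ideal (integralClosure (ti_under (lgh_Kj L) V2) (lg_F2 L N))) [P₁.IsPrime],
      P₁ ≠ ⊥ → P₁.ramificationIdx (ti_under (lgh_Kj L) V2) ∣ N := fun P₁ _ hP₁ =>
    rml_ram_infty_subring (ti_under (lgh_Kj L) V2) hL0 (lgr_ramData L N) hj hjm P₁ hP₁
  exact ti_seam_div_under (lg_F2 L N) (lg_K L) (lg_E L N) (lgh_hgen L N) V2 N h1 P hP

/-- **(T)** at `x = 0`. -/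
theorem lgr_hT0 {x : lg_K L}
    (hrel : cv_legN x = algebraMap (lgh_Kj L) (lg_K L) (lgh_j L) * cv_legD x)
    (V2 : Subring (lg_K L)) [IsDiscreteValuationRing V2] [IsFractionRing V2 (lg_K L)]
    (hL : ∀ a : L, algebraMap L (lg_K L) a ∈ V2) (hx : x ∈ V2) (hx0 : x⁻¹ ∉ V2)
    (P : Ideal (integralClosure V2 (lg_E L N))) [P.IsPrime] (hP : P ≠ ⊥) :
    P.ramificationIdx V2 ∣ N :=
  lgr_hT N hrel V2 hL hx (c := 0) (Or.inl rfl) (by rwa [sub_zero]) P hP

/-- **(T)** at `x = 1`. -/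
theorem lgr_hT1 {x : lg_K L}
    (hrel : cv_legN x = algebraMap (lgh_Kj L) (lg_K L) (lgh_j L) * cv_legD x)
    (V2 : Subring (lg_K L)) [IsDiscreteValuationRing V2] [IsFractionRing V2 (lg_K L)]
    (hL : ∀ a : L, algebraMap L (lg_K L) a ∈ V2) (hx : x ∈ V2) (hx1 : (x - 1)⁻¹ ∉ V2)
    (P : Ideal (integralClosure V2 (lg_E L N))) [P.IsPrime] (hP : P ≠ ⊥) :
    P.ramificationIdx V2 ∣ N :=
  lgr_hT N hrel V2 hL hx (c := 1) (Or.inr rfl) hx1 P hP

variable (L)

omit [Algebra ℚ L] [Algebra L Kbar] [IsScalarTower ℚ L Kbar] in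
/-- the Legendre relation for `1/λ` over `L(j')`. -/
theorem lgr_legendre_K_inv :
    cv_legN (lgh_lamK L)⁻¹
      = algebraMap (lgh_Kj L) (lg_K L) (lgh_j L) * cv_legD (lgh_lamK L)⁻¹ := by
  refine cv_leg_rel_inv ?_ (lgh_legendre_K L)
  intro h
  apply lgh_lam_ne_zero L
  have := congrArg Subtype.val h
  simpa using this

end Instance

end Fermat.Agent.JT3
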