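import Fermat.Agent.JT3.Inst.HesseTower
import Fermat.Agent.JT3.Inst.HesseTowerFinite
import Fermat.Agent.JT3.Inst.Ram
import Fermat.Agent.JT3.Export.RamLHesse

/-!
# JT3 / Route R (S18), instance leaf [HES-RAM], the three cores (prefix `hsrc_`)

Hesse twin of `Inst/Ram.lean`: for a discrete valuation ring `V2 ⊇ L` of `L(μ)`:
* `(cH)` `μ ∈ V2`, `1/(μ³ - 1) ∈ V2` ⟹ `E / L(μ)` unramified over `V2`;
* `(cT)` `μ ∈ V2`, `1/(μ³ - 1) ∉ V2` ⟹ `e ∣ N`;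
* `(cTinf)` `μ ∉ V2` ⟹ `e ∣ N`.
-/

set_option autoImplicit false
set_option linter.style.haveILetI false
set_option linter.unusedSectionVars false

open IntermediateField

namespace Fermat.Agent.JT3

section Generic

variable {L K L₁ L₂ : Type*} [Field L] [CharZero L] [Field K] [Field L₁] [Field L₂]
  [Algebra L K] [Algebra K L₁] [Algebra K L₂] [Algebra L L₁] [IsScalarTower L K L₁]
  [FiniteDimensional K L₁] [FiniteDimensional K L₂]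

/-- **the pair `(h1, h2)` of the Abhyankar seam at a non-cuspidal place** (Hesse cover). -/
theorem hsrc_exists_index {N : ℕ} {j' : K} (hgen : IntermediateField.adjoin L {j'} = ⊤)
    (D : rml_RamData L (algebraMap K L₁ j') N)
    (V0 : Subring K) [IsDiscreteValuationRing V0] [IsFractionRing V0 K]
    (hL0 : ∀ a : L, algebraMap L K a ∈ V0)
    {x : L₂} (hrel : cv_hesN x = algebraMap K L₂ j' * cv_hesD x) (hj : j' ∈ V0) :
    ∃ n : ℕ,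
      (∀ (P : Ideal (integralClosure V0 L₁)) [P.IsPrime], P ≠ ⊥ → P.ramificationIdx V0 ∣ n) ∧
      (∀ (P : Ideal (integralClosure V0 L₂)) [P.IsPrime], P ≠ ⊥ → n ∣ P.ramificationIdx V0) := by
  haveI : CharZero K := lgr_charZero (L := L)
  haveI : IsDedekindDomain (integralClosure V0 L₂) := integralClosure.isDedekindDomain V0 K L₂
  have h3L : (3 : L) ≠ 0 := three_ne_zero
  have h1728 : (1728 : K) ∈ V0 := by
    have := hL0 1728
    rwa [map_ofNat] at this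
  have hj1 : j' - 1728 ∈ V0 := V0.sub_mem hj h1728
  by_cases hu : IsUnit (⟨j', hj⟩ : V0)
  · by_cases hu1 : IsUnit (⟨j' - 1728, hj1⟩ : V0)
    · refine ⟨1, ?_, fun P _ _ => one_dvd _⟩
      intro P _ hP
      have hun : jt_UnramAt V0 L₁ := rml_unram_subring V0 hL0 D hj hu hj1 hu1
      haveI : Algebra.IsUnramifiedAt V0 P := hun P hP
      haveI : Module.Finite V0 (integralClosure V0 L₁) :=
        IsIntegralClosure.finite V0 K L₁ (integralClosure V0 L₁)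
      rw [Ideal.ramificationIdx_eq_one P V0]
    · refine ⟨2, fun P _ hP => rml_ram_one_subring V0 hL0 D hj1 hu1 P hP,
        fun P _ hP => cv_hes_ram_1728_subring V0 h3L hL0 hgen hj1 hu1 hrel P hP⟩
  · refine ⟨3, fun P _ hP => rml_ram_zero_subring V0 hL0 D hj hu P hP,
      fun P _ hP => cv_hes_ram_zero_subring V0 h3L hL0 hgen hj hu hrel P hP⟩

end Generic

section Comap

variable {L K L₂ : Type*} [Field L] [CharZero L] [Field K] [Field L₂]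
  [Algebra L K] [Algebra K L₂] [Algebra L L₂] [IsScalarTower L K L₂]
  {V2 : Subring L₂}

/-- `j' · d = n` in `L₂` with `n` a unit and `d` a non-unit of `V2` ⟹ `1/j'` is a non-unit of
`V0 = V2 ∩ K`. -/
theorem hsrc_inv_nonunit {j' : K} {d n : V2} (hn : IsUnit n) (hd : ¬ IsUnit d)
    (h : algebraMap K L₂ j' * (d : L₂) = (n : L₂)) :
    ∃ hj : j'⁻¹ ∈ ti_under K V2, ¬ IsUnit (⟨j'⁻¹, hj⟩ : ti_under K V2) := by
  obtain ⟨un, hun⟩ := hn
  have hn0 : (n : L₂) ≠ 0 := by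
    intro h0
    have : (un : V2) = 0 := by rw [hun]; exact Subtype.ext h0
    exact un.ne_zero this
  have hj0 : algebraMap K L₂ j' ≠ 0 := by
    intro h0
    rw [h0, zero_mul] at h
    exact hn0 h.symm
  have hninv : (n : L₂)⁻¹ = (((un⁻¹ : V2ˣ) : V2) : L₂) := by
    rw [eq_comm, ← mul_eq_one_iff_eq_inv₀ hn0, ← hun]
    have h7 : ((un⁻¹ : V2ˣ) : V2) * (un : V2) = 1 := un.inv_mul
    have h8 : ((((un⁻¹ : V2ˣ) : V2) * (un : V2) : V2) : L₂) = 1 := by rw [h7]; rfl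
    rw [Subring.coe_mul] at h8
    exact h8
  have hd0 : (d : L₂) ≠ 0 := by
    intro hd0
    rw [hd0, mul_zero] at h
    exact hn0 h.symm
  have hjinv : algebraMap K L₂ j'⁻¹ = (d : L₂) * (n : L₂)⁻¹ := by
    rw [map_inv₀, ← h, mul_inv, mul_comm (algebraMap K L₂ j')⁻¹, ← mul_assoc,
      mul_inv_cancel₀ hd0, one_mul]
  have hj : j'⁻¹ ∈ ti_under K V2 := by
    show algebraMap K L₂ j'⁻¹ ∈ V2
    rw [hjinv, hninv]
    exact V2.mul_mem d.2 (((un⁻¹ : V2ˣ) : V2)).2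
  refine ⟨hj, ?_⟩
  rintro ⟨u, hu⟩
  apply hd
  set v : ti_under K V2 := ((u⁻¹ : (ti_under K V2)ˣ) : ti_under K V2) with hv
  have h3 : (⟨j'⁻¹, hj⟩ : ti_under K V2) * v = 1 := by
    rw [← hu]; exact u.mul_inv
  have h4 : j'⁻¹ * (v : K) = 1 := by
    have h9 : (((⟨j'⁻¹, hj⟩ : ti_under K V2) * v : ti_under K V2) : K) = 1 := by
      rw [h3]; rfl
    rw [Subring.coe_mul] at h9
    exact h9
  have h5 : (d : L₂) * ((n : L₂)⁻¹ * algebraMap K L₂ (v : K)) = 1 := by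
    rw [← mul_assoc, ← hjinv, ← map_mul, h4, map_one]
  have hvV : algebraMap K L₂ (v : K) ∈ V2 := v.2
  have h6 : d * (((un⁻¹ : V2ˣ) : V2) * ⟨algebraMap K L₂ (v : K), hvV⟩) = 1 := by
    apply Subtype.ext
    push_cast
    rw [← hninv]
    exact h5
  exact IsUnit.of_mul_eq_one _ h6

omit [CharZero L] in
/-- a solution of the Hesse relation has `x³ ≠ 1` (characteristic `≠ 3`). -/
theorem hsrc_cube_ne_one (h3 : (3 : L₂) ≠ 0) {x j : L₂} (hrel : cv_hesN x = j * cv_hesD x) :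
    x ^ 3 - 1 ≠ 0 := by
  intro h0
  have h1 : x ^ 3 = 1 := sub_eq_zero.1 h0
  have := hrel
  simp only [cv_hesN, cv_hesD, h1, sub_self] at this
  have h39 : (3 : L₂) ^ 9 = 0 := by
    linear_combination this
  exact h3 (pow_eq_zero_iff (by norm_num) |>.1 h39)

theorem hsrc_three_ne_zero (L : Type*) {L₂ : Type*} [Field L] [CharZero L] [Field L₂]
    [Algebra L L₂] : (3 : L₂) ≠ 0 := by
  have : (3 : L₂) = algebraMap L L₂ 3 := (map_ofNat _ 3).symm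
  rw [this]
  exact (map_ne_zero _).2 three_ne_zero

/-- **non-cuspidal places**: if `x, 1/(x³ - 1) ∈ V2` then `j' ∈ V0`. -/
theorem hsrc_j_mem_V0 (hL : ∀ a : L, algebraMap L L₂ a ∈ V2) {j' : K} {x : L₂}
    (hrel : cv_hesN x = algebraMap K L₂ j' * cv_hesD x)
    (hx : x ∈ V2) (hx1 : (x ^ 3 - 1)⁻¹ ∈ V2) : j' ∈ ti_under K V2 := by
  have h3 : (3 : L₂) ≠ 0 := hsrc_three_ne_zero L
  have hs : x ^ 3 - 1 ≠ 0 := hsrc_cube_ne_one h3 hrel
  have hD : cv_hesD x ≠ 0 := pow_ne_zero 3 hs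
  have hj : algebraMap K L₂ j' = cv_hesN x * ((x ^ 3 - 1)⁻¹) ^ 3 := by
    have : ((x ^ 3 - 1)⁻¹) ^ 3 = (cv_hesD x)⁻¹ := by
      unfold cv_hesD
      rw [inv_pow]
    rw [this, hrel, mul_assoc, mul_inv_cancel₀ hD, mul_one]
  show algebraMap K L₂ j' ∈ V2
  rw [hj]
  have h27 : (27 : L₂) ∈ V2 := lgr_ofNat_mem V2 hL 27
  have h8 : (8 : L₂) ∈ V2 := lgr_ofNat_mem V2 hL 8
  refine V2.mul_mem ?_ (V2.pow_mem hx1 3)
  unfold cv_hesN
  exact V2.mul_mem (V2.mul_mem h27 (V2.pow_mem hx 3))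
    (V2.pow_mem (V2.add_mem (V2.pow_mem hx 3) h8) 3)

/-- **the cusps `x³ = 1`**: if `x ∈ V2` and `1/(x³ - 1) ∉ V2` then `1/j'` is a non-unit of
`V0`. -/
theorem hsrc_cusp_V0 [IsLocalRing V2] (hL : ∀ a : L, algebraMap L L₂ a ∈ V2) {j' : K} {x : L₂}
    (hrel : cv_hesN x = algebraMap K L₂ j' * cv_hesD x)
    (hx : x ∈ V2) (hx1 : (x ^ 3 - 1)⁻¹ ∉ V2) :
    ∃ hj : j'⁻¹ ∈ ti_under K V2, ¬ IsUnit (⟨j'⁻¹, hj⟩ : ti_under K V2) := by
  have hsV : x ^ 3 - 1 ∈ V2 := V2.sub_mem (V2.pow_mem hx 3) V2.one_mem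
  -- `s = x³ - 1` is a non-unit of `V2`
  have hnu : ¬ IsUnit (⟨x ^ 3 - 1, hsV⟩ : V2) := by
    rintro ⟨u, hu⟩
    apply hx1
    have h3 : ((u⁻¹ : V2ˣ) : V2) * ⟨x ^ 3 - 1, hsV⟩ = 1 := by
      rw [← hu]; exact u.inv_mul
    have h4 : (((u⁻¹ : V2ˣ) : V2) : L₂) * (x ^ 3 - 1) = 1 := by
      have h9 : ((((u⁻¹ : V2ˣ) : V2) * ⟨x ^ 3 - 1, hsV⟩ : V2) : L₂) = 1 := by rw [h3]; rfl
      rw [Subring.coe_mul] at h9
      exact h9
    have h5 : (x ^ 3 - 1)⁻¹ = (((u⁻¹ : V2ˣ) : V2) : L₂) := by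
      rw [eq_comm, ← mul_eq_one_iff_eq_inv₀]
      · exact h4
      · intro h6
        rw [h6, mul_zero] at h4
        exact zero_ne_one h4
    rw [h5]
    exact (((u⁻¹ : V2ˣ) : V2)).2
  set s : V2 := ⟨x ^ 3 - 1, hsV⟩ with hsdef
  -- `N(x) = 27 (s + 1)(s + 9)³` is a unit
  have h1u : IsUnit ((1 : V2) + s) := cv_isUnit_add_of_nonunit isUnit_one hnu
  have h9u : IsUnit ((⟨(9 : L₂), lgr_ofNat_mem V2 hL 9⟩ : V2) + s) :=
    cv_isUnit_add_of_nonunit (lgr_isUnit_ofNat V2 hL 9) hnu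
  have hNu : IsUnit ((⟨(27 : L₂), lgr_ofNat_mem V2 hL 27⟩ : V2) * ((1 : V2) + s)
      * ((⟨(9 : L₂), lgr_ofNat_mem V2 hL 9⟩ : V2) + s) ^ 3) :=
    ((lgr_isUnit_ofNat V2 hL 27).mul h1u).mul (h9u.pow 3)
  have hDnu : ¬ IsUnit (s ^ 3) := fun h => hnu (isUnit_of_mul_isUnit_left (x := s) (y := s ^ 2)
    (by rwa [← pow_succ'] ))
  refine hsrc_inv_nonunit hNu hDnu ?_
  have hsval : (s : L₂) = x ^ 3 - 1 := rfl
  have : ((s ^ 3 : V2) : L₂) = cv_hesD x := by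
    unfold cv_hesD
    push_cast
    rw [hsval]
  rw [this, ← hrel]
  unfold cv_hesN
  push_cast
  rw [hsval]
  ring

/-- **the cusp `x = ∞`**: if `x ∉ V2` (a valuation ring) then `1/j'` is a non-unit of `V0`. -/
theorem hsrc_cusp_inf_V0 [IsDiscreteValuationRing V2] [IsFractionRing V2 L₂]
    (hL : ∀ a : L, algebraMap L L₂ a ∈ V2) {j' : K} {x : L₂}
    (hrel : cv_hesN x = algebraMap K L₂ j' * cv_hesD x) (hx : x ∉ V2) :
    ∃ hj : j'⁻¹ ∈ ti_under K V2, ¬ IsUnit (⟨j'⁻¹, hj⟩ : ti_under K V2) := by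
  have hx0 : x ≠ 0 := fun h => hx (h ▸ V2.zero_mem)
  -- `ν = 1/x ∈ V2`
  have hνV : x⁻¹ ∈ V2 := by
    rcases (ValuationRing.iff_isInteger_or_isInteger V2 L₂).1 inferInstance x with ⟨y, hy⟩ | ⟨y, hy⟩
    · exact absurd (hy ▸ y.2) hx
    · exact hy ▸ y.2
  set ν : V2 := ⟨x⁻¹, hνV⟩ with hνdef
  have hνnu : ¬ IsUnit ν := by
    rintro ⟨u, hu⟩
    apply hx
    have h3 : ((u⁻¹ : V2ˣ) : V2) * ν = 1 := by
      rw [← hu]; exact u.inv_mul
    have h4 : (((u⁻¹ : V2ˣ) : V2) : L₂) * x⁻¹ = 1 := by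
      have h9 : ((((u⁻¹ : V2ˣ) : V2) * ν : V2) : L₂) = 1 := by rw [h3]; rfl
      rw [Subring.coe_mul] at h9
      exact h9
    have h5 : x = (((u⁻¹ : V2ˣ) : V2) : L₂) := by
      have := (mul_eq_one_iff_eq_inv₀ (inv_ne_zero hx0)).1 h4
      rw [inv_inv] at this
      exact this.symm
    rw [h5]
    exact (((u⁻¹ : V2ˣ) : V2)).2
  -- `n = 27 (1 + 8 ν³)³` is a unit, `d = ν³ (1 - ν³)³` is not
  have h8ν : ¬ IsUnit ((⟨(8 : L₂), lgr_ofNat_mem V2 hL 8⟩ : V2) * ν ^ 3) := by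
    intro h
    have h1 : IsUnit (ν ^ 3) := isUnit_of_mul_isUnit_right h
    exact hνnu (isUnit_of_mul_isUnit_left (x := ν) (y := ν ^ 2) (by rwa [← pow_succ']))
  have hnu : IsUnit ((⟨(27 : L₂), lgr_ofNat_mem V2 hL 27⟩ : V2)
      * ((1 : V2) + (⟨(8 : L₂), lgr_ofNat_mem V2 hL 8⟩ : V2) * ν ^ 3) ^ 3) :=
    (lgr_isUnit_ofNat V2 hL 27).mul ((cv_isUnit_add_of_nonunit isUnit_one h8ν).pow 3)
  have hdnu : ¬ IsUnit (ν ^ 3 * (1 - ν ^ 3) ^ 3) := by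
    intro h
    have h1 : IsUnit (ν ^ 3) := isUnit_of_mul_isUnit_left h
    exact hνnu (isUnit_of_mul_isUnit_left (x := ν) (y := ν ^ 2) (by rwa [← pow_succ']))
  refine hsrc_inv_nonunit hnu hdnu ?_
  push_cast
  simp only [hνdef]
  unfold cv_hesN cv_hesD at hrel
  field_simp
  linear_combination (-1 : L₂) * hrel

end Comap

section Instance

open Fermat.Agent.S24

variable {L : Type*} [Field L] [CharZero L] [Algebra ℚ L] [Algebra L Kbar] [IsScalarTower ℚ L Kbar]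
  (h3 : (3 : L) ≠ 0) (N : ℕ) [NeZero N]

attribute [local instance] hsh_algKjK hsh_algKjF3 hsh_algKjE hsh_algF3E hsh_algKE

/-- helper22's ramification data of `j₃` on `φ₃(F_N)`, over the base field `L(j₃)`. -/
theorem hsrc_ramData :
    rml_RamData L (algebraMap (hsh_Kj L) (hs_F3 L N) (hsh_j L)) N :=
  rml_ramData3 L N

theorem hsrc_j3_mem_Kj : hs_j3 L ∈ hsh_Kj L :=
  IntermediateField.mem_adjoin_simple_self L _

/-- **(cH)**: `E / L(μ)` is unramified over every discrete valuation ring `V2 ⊇ L` of `L(μ)` with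
`x, 1/(x³ - 1) ∈ V2`. -/
theorem hsrc_cH {x : hs_K L h3}
    (hrel : cv_hesN x = algebraMap (hsh_Kj L) (hs_K L h3) (hsh_j L) * cv_hesD x)
    (V2 : Subring (hs_K L h3)) [IsDiscreteValuationRing V2] [IsFractionRing V2 (hs_K L h3)]
    (hL : ∀ a : L, algebraMap L (hs_K L h3) a ∈ V2) (hx : x ∈ V2) (hx1 : (x ^ 3 - 1)⁻¹ ∈ V2) :
    jt_UnramAt V2 (hs_E L h3 N) := by
  haveI : FiniteDimensional (hsh_Kj L) (hs_E L h3 N) :=
    hsf_tower_finite_E L h3 N (hsh_Kj L) (hsrc_j3_mem_Kj) (hsh_Kj_le_E L h3 N)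
  haveI : FiniteDimensional (hsh_Kj L) (hs_F3 L N) :=
    hsf_tower_finite_F3 L N (hsh_Kj L) (hsrc_j3_mem_Kj) (hsh_Kj_le_F3 L N)
  haveI : CharZero (hsh_Kj L) := lgr_charZero (L := L)
  haveI : CharZero (IsLocalRing.ResidueField V2) := ti_charZero_residueField L V2 hL
  haveI : IsDiscreteValuationRing (ti_under (hsh_Kj L) V2) := ti_under_isDVR (hsh_Kj L) V2
  haveI : IsFractionRing (ti_under (hsh_Kj L) V2) (hsh_Kj L) :=
    ti_under_isFractionRing (hsh_Kj L) V2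
  have hL0 : ∀ a : L, algebraMap L (hsh_Kj L) a ∈ ti_under (hsh_Kj L) V2 :=
    lgr_L_le_V0 V2 hL
  have hj : hsh_j L ∈ ti_under (hsh_Kj L) V2 := hsrc_j_mem_V0 hL hrel hx hx1
  obtain ⟨n, h1, h2⟩ := hsrc_exists_index (L₁ := hs_F3 L N) (hsh_adjoin_j L) (hsrc_ramData N)
    (ti_under (hsh_Kj L) V2) hL0 hrel hj
  exact ti_seam_unram_under (hs_F3 L N) (hs_K L h3) (hs_E L h3 N) (hsh_hgen L h3 N) V2 n h1 h2

/-- common part of `(cT)` and `(cTinf)`. -/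
theorem hsrc_cT_aux
    (V2 : Subring (hs_K L h3)) [IsDiscreteValuationRing V2] [IsFractionRing V2 (hs_K L h3)]
    (hL : ∀ a : L, algebraMap L (hs_K L h3) a ∈ V2)
    (hinv : ∃ hj : (hsh_j L)⁻¹ ∈ ti_under (hsh_Kj L) V2,
      ¬ IsUnit (⟨(hsh_j L)⁻¹, hj⟩ : ti_under (hsh_Kj L) V2))
    (P : Ideal (integralClosure V2 (hs_E L h3 N))) [P.IsPrime] (hP : P ≠ ⊥) :
    P.ramificationIdx V2 ∣ N := by
  haveI : FiniteDimensional (hsh_Kj L) (hs_E L h3 N) :=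
    hsf_tower_finite_E L h3 N (hsh_Kj L) (hsrc_j3_mem_Kj) (hsh_Kj_le_E L h3 N)
  haveI : FiniteDimensional (hsh_Kj L) (hs_F3 L N) :=
    hsf_tower_finite_F3 L N (hsh_Kj L) (hsrc_j3_mem_Kj) (hsh_Kj_le_F3 L N)
  haveI : CharZero (hsh_Kj L) := lgr_charZero (L := L)
  haveI : CharZero (IsLocalRing.ResidueField V2) := ti_charZero_residueField L V2 hL
  haveI : IsDiscreteValuationRing (ti_under (hsh_Kj L) V2) := ti_under_isDVR (hsh_Kj L) V2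
  haveI : IsFractionRing (ti_under (hsh_Kj L) V2) (hsh_Kj L) :=
    ti_under_isFractionRing (hsh_Kj L) V2
  have hL0 : ∀ a : L, algebraMap L (hsh_Kj L) a ∈ ti_under (hsh_Kj L) V2 :=
    lgr_L_le_V0 V2 hL
  obtain ⟨hj, hjm⟩ := hinv
  have h1 : ∀ (P₁ : Ideal (integralClosure (ti_under (hsh_Kj L) V2) (hs_F3 L N))) [P₁.IsPrime],
      P₁ ≠ ⊥ → P₁.ramificationIdx (ti_under (hsh_Kj L) V2) ∣ N := fun P₁ _ hP₁ =>
    rml_ram_infty_subring (ti_under (hsh_Kj L) V2) hL0 (hsrc_ramData N) hj hjm P₁ hP₁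
  exact ti_seam_div_under (hs_F3 L N) (hs_K L h3) (hs_E L h3 N) (hsh_hgen L h3 N) V2 N h1 P hP

/-- **(cT)**: at a place with `x ∈ V2`, `1/(x³ - 1) ∉ V2` (a cusp `x³ = 1`), `e ∣ N`. -/
theorem hsrc_cT {x : hs_K L h3}
    (hrel : cv_hesN x = algebraMap (hsh_Kj L) (hs_K L h3) (hsh_j L) * cv_hesD x)
    (V2 : Subring (hs_K L h3)) [IsDiscreteValuationRing V2] [IsFractionRing V2 (hs_K L h3)]
    (hL : ∀ a : L, algebraMap L (hs_K L h3) a ∈ V2) (hx : x ∈ V2) (hx1 : (x ^ 3 - 1)⁻¹ ∉ V2)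
    (P : Ideal (integralClosure V2 (hs_E L h3 N))) [P.IsPrime] (hP : P ≠ ⊥) :
    P.ramificationIdx V2 ∣ N :=
  hsrc_cT_aux h3 N V2 hL (hsrc_cusp_V0 (K := hsh_Kj L) hL hrel hx hx1) P hP

/-- **(cTinf)**: at a place with `x ∉ V2` (the cusp `x = ∞`), `e ∣ N`. -/
theorem hsrc_cTinf {x : hs_K L h3}
    (hrel : cv_hesN x = algebraMap (hsh_Kj L) (hs_K L h3) (hsh_j L) * cv_hesD x)
    (V2 : Subring (hs_K L h3)) [IsDiscreteValuationRing V2] [IsFractionRing V2 (hs_K L h3)]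
    (hL : ∀ a : L, algebraMap L (hs_K L h3) a ∈ V2) (hx : x ∉ V2)
    (P : Ideal (integralClosure V2 (hs_E L h3 N))) [P.IsPrime] (hP : P ≠ ⊥) :
    P.ramificationIdx V2 ∣ N :=
  hsrc_cT_aux h3 N V2 hL (hsrc_cusp_inf_V0 (K := hsh_Kj L) hL hrel hx) P hP

/-- the three cores for `x = μ` in helper22's `(cH) (cT) (cTinf)` shapes. -/
theorem hsrc_cores :
    (∀ (V2 : Subring (hs_K L h3)) [IsDiscreteValuationRing V2] [IsFractionRing V2 (hs_K L h3)],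
      (∀ a : L, algebraMap L (hs_K L h3) a ∈ V2) → hsh_muK L h3 ∈ V2 →
      ((hsh_muK L h3) ^ 3 - 1)⁻¹ ∈ V2 → jt_UnramAt V2 (hs_E L h3 N)) ∧
    (∀ (V2 : Subring (hs_K L h3)) [IsDiscreteValuationRing V2] [IsFractionRing V2 (hs_K L h3)],
      (∀ a : L, algebraMap L (hs_K L h3) a ∈ V2) → hsh_muK L h3 ∈ V2 →
      ((hsh_muK L h3) ^ 3 - 1)⁻¹ ∉ V2 →
      ∀ (P : Ideal (integralClosure V2 (hs_E L h3 N))) [P.IsPrime], P ≠ ⊥ →
        P.ramificationIdx V2 ∣ N) ∧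
    (∀ (V2 : Subring (hs_K L h3)) [IsDiscreteValuationRing V2] [IsFractionRing V2 (hs_K L h3)],
      (∀ a : L, algebraMap L (hs_K L h3) a ∈ V2) → hsh_muK L h3 ∉ V2 →
      ∀ (P : Ideal (integralClosure V2 (hs_E L h3 N))) [P.IsPrime], P ≠ ⊥ →
        P.ramificationIdx V2 ∣ N) :=
  ⟨fun V2 _ _ hL hx hx1 => hsrc_cH h3 N (hsh_hesse_K L h3) V2 hL hx hx1,
   fun V2 _ _ hL hx hx1 P _ hP => hsrc_cT h3 N (hsh_hesse_K L h3) V2 hL hx hx1 P hP,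
   fun V2 _ _ hL hx P _ hP => hsrc_cTinf h3 N (hsh_hesse_K L h3) V2 hL hx P hP⟩

end Instance

end Fermat.Agent.JT3
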