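import Fermat.Agent.JT3.Inst.HesseDefs
import Fermat.Agent.JT3.Inst.Tower

/-!
# JT3 / Route R (S18), instance layer, Hesse cover (`ℓ = 2`): the tower
`L(j₃) ⊆ φ(F_N), L(μ) ⊆ E` as types (prefix `hsh_`)

Line-by-line twin of `Inst/Tower.lean` (Legendre cover, prefix `lgh_`) with
`(lg_j2, lg_lam, lg_K, lg_F2, lg_E, cv_leg*)` replaced by
`(hs_j3, hs_mu L h3, hs_K L h3, hs_F3 L N, hs_E L h3 N, cv_hes*)`.

`hsh_Kj L = L(j₃)` (`j₃ = j(q³)`) as an intermediate field of `L((q))`; its carrier is the base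
field `K` of the Abhyankar seam.  The algebra structures between the carriers of `hsh_Kj L`,
`hs_F3 L N`, `hs_K L h3`, `hs_E L h3 N` are given by `IntermediateField.inclusion` (the generic
`lgh_algOfLe` of `Inst/Tower.lean`) and are provided as reducible definitions (use
`attribute [local instance]` or `letI`).
-/

set_option autoImplicit false
set_option linter.style.haveILetI false

noncomputable section

open IntermediateField

namespace Fermat.Agent.JT3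

section TowerDefs

variable (L : Type*) [Field L] (h3 : (3 : L) ≠ 0) (N : ℕ) [NeZero N]

/-- `L(j₃)`, `j₃ = j(q³)`, inside `L((q))`; its carrier is the base field of the seam. -/
def hsh_Kj : IntermediateField L (LaurentSeries L) := IntermediateField.adjoin L {hs_j3 L}

/-- `j₃` as an element of `L(j₃)`. -/
def hsh_j : hsh_Kj L := AdjoinSimple.gen L (hs_j3 L)

@[simp] theorem hsh_coe_j : ((hsh_j L : hsh_Kj L) : LaurentSeries L) = hs_j3 L := rfl

theorem hsh_adjoin_j : IntermediateField.adjoin L {hsh_j L} = ⊤ :=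
  lgh_adjoin_gen_eq_top (hs_j3 L)

/-- `μ` as an element of `L(μ)`. -/
def hsh_muK : hs_K L h3 := AdjoinSimple.gen L (hs_mu L h3)

@[simp] theorem hsh_coe_muK : ((hsh_muK L h3 : hs_K L h3) : LaurentSeries L) = hs_mu L h3 := rfl

theorem hsh_adjoin_muK : IntermediateField.adjoin L {hsh_muK L h3} = ⊤ :=
  lgh_adjoin_gen_eq_top (hs_mu L h3)

/-- the Hesse relation in `cv_` form. -/
theorem hsh_hesse : cv_hesN (hs_mu L h3) = hs_j3 L * cv_hesD (hs_mu L h3) :=
  hs_hesse L h3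

theorem hsh_Kj_le_F3 : hsh_Kj L ≤ hs_F3 L N := by
  rw [hsh_Kj, IntermediateField.adjoin_simple_le_iff]
  exact hs_j3_mem_F3 L N

theorem hsh_Kj_le_K : hsh_Kj L ≤ hs_K L h3 := by
  rw [hsh_Kj, IntermediateField.adjoin_simple_le_iff]
  exact hs_j3_mem_K L h3

theorem hsh_Kj_le_E : hsh_Kj L ≤ hs_E L h3 N := (hsh_Kj_le_K L h3).trans (hs_K_le_E L h3 N)

/-- `L(j₃) → L(μ)`. -/
@[reducible] def hsh_algKjK : Algebra (hsh_Kj L) (hs_K L h3) := lgh_algOfLe (hsh_Kj_le_K L h3)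

/-- `L(j₃) → φ(F_N)`. -/
@[reducible] def hsh_algKjF3 : Algebra (hsh_Kj L) (hs_F3 L N) := lgh_algOfLe (hsh_Kj_le_F3 L N)

/-- `L(j₃) → E`. -/
@[reducible] def hsh_algKjE : Algebra (hsh_Kj L) (hs_E L h3 N) :=
  lgh_algOfLe (hsh_Kj_le_E L h3 N)

/-- `φ(F_N) → E`. -/
@[reducible] def hsh_algF3E : Algebra (hs_F3 L N) (hs_E L h3 N) :=
  lgh_algOfLe (hs_F3_le_E L h3 N)

/-- `L(μ) → E`. -/
@[reducible] def hsh_algKE : Algebra (hs_K L h3) (hs_E L h3 N) := lgh_algOfLe (hs_K_le_E L h3 N)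

attribute [local instance] hsh_algKjK hsh_algKjF3 hsh_algKjE hsh_algF3E hsh_algKE

instance hsh_tower_L_Kj_K : IsScalarTower L (hsh_Kj L) (hs_K L h3) :=
  lgh_isScalarTower_base (hsh_Kj_le_K L h3)

instance hsh_tower_L_Kj_F3 : IsScalarTower L (hsh_Kj L) (hs_F3 L N) :=
  lgh_isScalarTower_base (hsh_Kj_le_F3 L N)

instance hsh_tower_L_Kj_E : IsScalarTower L (hsh_Kj L) (hs_E L h3 N) :=
  lgh_isScalarTower_base (hsh_Kj_le_E L h3 N)

instance hsh_tower_Kj_F3_E : IsScalarTower (hsh_Kj L) (hs_F3 L N) (hs_E L h3 N) :=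
  lgh_isScalarTower (hsh_Kj_le_F3 L N) (hs_F3_le_E L h3 N)

instance hsh_tower_Kj_K_E : IsScalarTower (hsh_Kj L) (hs_K L h3) (hs_E L h3 N) :=
  lgh_isScalarTower (hsh_Kj_le_K L h3) (hs_K_le_E L h3 N)

/-- `E = φ(F_N) · L(μ)` over `L(j₃)`. -/
theorem hsh_hgen :
    IntermediateField.adjoin (hsh_Kj L)
      (Set.range (algebraMap (hs_F3 L N) (hs_E L h3 N)) ∪
        Set.range (algebraMap (hs_K L h3) (hs_E L h3 N))) = ⊤ :=
  lgh_adjoin_range_eq_top (hsh_Kj_le_F3 L N) (hs_F3_le_E L h3 N) (hs_K_le_E L h3 N) le_rfl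

/-- the Hesse relation in `L(μ)` over `L(j₃)`. -/
theorem hsh_hesse_K :
    cv_hesN (hsh_muK L h3) =
      algebraMap (hsh_Kj L) (hs_K L h3) (hsh_j L) * cv_hesD (hsh_muK L h3) := by
  apply Subtype.ext
  have h1 : ((cv_hesN (hsh_muK L h3) : hs_K L h3) : LaurentSeries L) = cv_hesN (hs_mu L h3) :=
    cv_map_hesN (hs_K L h3).val.toRingHom (hsh_muK L h3)
  have h2 : ((cv_hesD (hsh_muK L h3) : hs_K L h3) : LaurentSeries L) = cv_hesD (hs_mu L h3) :=
    cv_map_hesD (hs_K L h3).val.toRingHom (hsh_muK L h3)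
  rw [h1, MulMemClass.coe_mul, h2]
  exact hsh_hesse L h3

include h3 in
/-- `(3 : L(j₃)) ≠ 0`. -/
theorem hsh_three_ne_zero : (3 : hsh_Kj L) ≠ 0 := by
  intro h
  apply h3
  have h1 : algebraMap L (hsh_Kj L) 3 = 0 := by rw [map_ofNat]; exact h
  exact (map_eq_zero (algebraMap L (hsh_Kj L))).mp h1

/-- `μ` is integral over `L(j₃)`. -/
theorem hsh_isIntegral_muK : IsIntegral (hsh_Kj L) (hsh_muK L h3) :=
  cv_hes_isIntegral_field (hsh_three_ne_zero L h3) (hsh_hesse_K L h3)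

/-- `L(μ) = L(j₃)(μ)`. -/
theorem hsh_adjoin_Kj_muK : IntermediateField.adjoin (hsh_Kj L) {hsh_muK L h3} = ⊤ :=
  lgh_adjoin_simple_eq_top (hsh_Kj_le_K L h3)

/-- `L(μ) / L(j₃)` is finite. -/
instance hsh_finiteDimensional_Kj_K : FiniteDimensional (hsh_Kj L) (hs_K L h3) := by
  have h1 : FiniteDimensional (hsh_Kj L)
      (IntermediateField.adjoin (hsh_Kj L) {hsh_muK L h3}) :=
    IntermediateField.adjoin.finiteDimensional (hsh_isIntegral_muK L h3)
  rw [hsh_adjoin_Kj_muK] at h1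
  exact (IntermediateField.topEquiv (F := hsh_Kj L) (E := hs_K L h3)).toLinearEquiv.finiteDimensional

end TowerDefs

end Fermat.Agent.JT3
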