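/-
JT3 / Route R (S18), instance layer, Hesse cover: the data
`(K, E, x) = (L(μ), φ(F_N)(μ), μ resp. μ⁻¹)` in the shape consumed by the generic model theorem
`mdl_regAt`: algebra instances over `O`, towers, `E / K` finite, `x` transcendental and
generating.  Twin of `Inst/Reg.lean`.
-/
import Mathlib
import Fermat.Agent.JT3.Inst.HesseTower
import Fermat.Agent.JT3.Inst.HesseStatements
import Fermat.Agent.JT3.Inst.HesseFunFieldFacts
import Fermat.Agent.JT3.Cover.RamInfty

set_option autoImplicit false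

noncomputable section

open ModularCurve IntermediateField AlgebraicCurve

namespace Fermat.Agent.JT3

section Instances

variable {L : Type*} [Field L] (h3 : (3 : L) ≠ 0) (O : ValuationSubring L) (N : ℕ) [NeZero N]

/-- shortcut (this is the term found by instance search; declared to keep the search fast). -/
instance hs_algOK : Algebra ↥O ↥(hs_K L h3) := Algebra.ofSubsemiring O

/-- shortcut (this is the term found by instance search; declared to keep the search fast). -/
instance hs_algOE : Algebra ↥O ↥(hs_E L h3 N) := Algebra.ofSubsemiring O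

instance hs_tower_O_L_K : IsScalarTower ↥O L ↥(hs_K L h3) :=
  IsScalarTower.of_algebraMap_eq (fun _ => rfl)

instance hs_tower_O_L_E : IsScalarTower ↥O L ↥(hs_E L h3 N) :=
  IsScalarTower.of_algebraMap_eq (fun _ => rfl)

attribute [local instance] hsh_algKE

instance hs_tower_L_K_E : IsScalarTower L (hs_K L h3) (hs_E L h3 N) :=
  lgh_isScalarTower_base (hs_K_le_E L h3 N)

instance hs_tower_O_K_E : IsScalarTower ↥O (hs_K L h3) (hs_E L h3 N) :=
  IsScalarTower.of_algebraMap_eq (fun _ => rfl)

theorem hs_algebraMap_muK :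
    algebraMap (hs_K L h3) (hs_E L h3 N) (hsh_muK L h3) = hs_muE h3 N := rfl

theorem hs_algebraMap_muK_inv :
    algebraMap (hs_K L h3) (hs_E L h3 N) (hsh_muK L h3)⁻¹ = (hs_muE h3 N)⁻¹ := by
  rw [map_inv₀]; rfl

end Instances

section Facts

variable (L : Type*) [Field L] [CharZero L] (h3 : (3 : L) ≠ 0) (N : ℕ) [NeZero N]

attribute [local instance] hsh_algKE

/-- the comparison map `L⟮μ⟯ ⊆ E` → `L(μ) ⊆ L((q))`. -/
def hs_simpleToK : ↥L⟮(hs_muE h3 N : hs_E L h3 N)⟯ →+* ↥(hs_K L h3) where
  toFun z := ⟨((z : hs_E L h3 N) : LaurentSeries L), by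
    have h1 : ((z : hs_E L h3 N) : LaurentSeries L) ∈
        (L⟮(hs_muE h3 N : hs_E L h3 N)⟯).map (hs_E L h3 N).val := ⟨(z : hs_E L h3 N), z.2, rfl⟩
    rw [IntermediateField.adjoin_map, Set.image_singleton] at h1
    exact h1⟩
  map_one' := rfl
  map_mul' _ _ := rfl
  map_zero' := rfl
  map_add' _ _ := rfl

/-- `E / L(μ)` is finite. -/
instance hs_finiteDimensional_K_E : FiniteDimensional (hs_K L h3) (hs_E L h3 N) := by
  haveI := hsf_finite L h3 N
  letI : Algebra ↥L⟮(hs_muE h3 N : hs_E L h3 N)⟯ ↥(hs_K L h3) := (hs_simpleToK L h3 N).toAlgebra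
  haveI : IsScalarTower ↥L⟮(hs_muE h3 N : hs_E L h3 N)⟯ ↥(hs_K L h3) ↥(hs_E L h3 N) :=
    IsScalarTower.of_algebraMap_eq (fun _ => rfl)
  exact Module.Finite.of_restrictScalars_finite ↥L⟮(hs_muE h3 N : hs_E L h3 N)⟯ ↥(hs_K L h3)
    ↥(hs_E L h3 N)

omit [CharZero L] in
theorem hs_muK_transcendental : Transcendental L (hsh_muK L h3) := by
  intro h
  exact hsf_mu_transcendental' L h3 (IntermediateField.isAlgebraic_iff.1 h)

omit [CharZero L] in
theorem hs_muK_inv_transcendental : Transcendental L (hsh_muK L h3)⁻¹ := fun h =>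
  hs_muK_transcendental L h3 (IsAlgebraic.inv_iff.mp h)

omit [CharZero L] in
theorem hs_adjoin_muK_inv : IntermediateField.adjoin L {(hsh_muK L h3)⁻¹} = ⊤ :=
  cv_adjoin_inv (hsh_adjoin_muK L h3)

end Facts

end Fermat.Agent.JT3
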