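/-
JT3 / Route R (S18), instance layer, final assembly (Legendre cover, `ℓ` odd):
`jt_Key A N p` from `lg_Key0` over the number fields `L1 ⊆ Q̄` containing a primitive `N`-th root of
unity, with the discrete valuation ring `A ∩ L1`.
-/
import Mathlib
import Fermat.Agent.JT3.Inst.Key0
import Fermat.Agent.JT3.KDescent.LegendreKey
import Fermat.Agent.JT3.Descent.KeyBridge
import Fermat.Agent.JT3.Descent.ConstDVR
import Fermat.Agent.JT3.S18.ConstRed

set_option autoImplicit false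

noncomputable section

open ModularCurve IntermediateField AlgebraicCurve

namespace Fermat.Agent.JT3

section Final

/-- **`jt_Key` from `lg_Key0` over number fields.** It suffices to prove `lg_Key0 L1 (A ∩ L1) N p`
for the (abstract) number fields `L1 → Q̄` which contain a primitive `M`-th root of unity (`M` any
fixed integer, e.g. `M = N` or `M = 3 N`). -/
theorem lg_key_of_key0 (A : ValuationSubring (AlgebraicClosure ℚ)) (N : ℕ) [NeZero N] {p : ℕ}
    (hp : p ≠ 0) (M : ℕ) [NeZero M]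
    (h : ∀ (L1 : Type) [Field L1] [NumberField L1] [Algebra L1 (AlgebraicClosure ℚ)] (ζ : L1),
      IsPrimitiveRoot ζ M → lg_Key0 L1 (A.comap (algebraMap L1 (AlgebraicClosure ℚ))) N p) :
    jt_Key A N p := by
  classical
  have _ : Algebra.IsAlgebraic ℚ (AlgebraicClosure ℚ) := AlgebraicClosure.isAlgebraic ℚ
  apply dsc_key_of_keyAt
  intro s
  obtain ⟨ζ, hζ⟩ : ∃ ζ : AlgebraicClosure ℚ, IsPrimitiveRoot ζ M :=
    HasEnoughRootsOfUnity.exists_primitiveRoot (AlgebraicClosure ℚ) M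
  let L1 : IntermediateField ℚ (AlgebraicClosure ℚ) :=
    IntermediateField.adjoin ℚ ((↑s : Set (AlgebraicClosure ℚ)) ∪ {ζ})
  have hs : (↑s : Set (AlgebraicClosure ℚ)) ⊆ L1 := fun a ha =>
    IntermediateField.subset_adjoin ℚ _ (Set.mem_union_left _ ha)
  have hζ1 : ζ ∈ L1 := IntermediateField.subset_adjoin ℚ _ (Set.mem_union_right _ rfl)
  have hfin : FiniteDimensional ℚ L1 := by
    have hfinset : ((↑s : Set (AlgebraicClosure ℚ)) ∪ {ζ}).Finite :=
      s.finite_toSet.union (Set.finite_singleton ζ)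
    exact IntermediateField.finiteDimensional_adjoin
      (fun x _ => Algebra.IsIntegral.isIntegral x)
  haveI : NumberField L1 := ⟨⟩
  refine ⟨L1, hs, kd_leg_keyAt A N hp ↥L1 (h ↥L1 ⟨ζ, hζ1⟩ ?_)⟩
  have hζ' : IsPrimitiveRoot (L1.val (⟨ζ, hζ1⟩ : L1)) M := hζ
  exact IsPrimitiveRoot.of_map_of_injective hζ' Subtype.val_injective

/-- in a local ring whose maximal ideal contains `ℓ`, every integer prime to `ℓ` is a unit. -/
theorem lg_isUnit_natCast {O : Type*} [CommRing O] [IsLocalRing O] {ℓ : ℕ}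
    (hℓ : ((ℓ : ℕ) : O) ∈ IsLocalRing.maximalIdeal O) {m : ℕ} (hm : Nat.Coprime m ℓ) :
    IsUnit ((m : ℕ) : O) := by
  by_contra hnu
  have hmem : ((m : ℕ) : O) ∈ IsLocalRing.maximalIdeal O :=
    (IsLocalRing.mem_maximalIdeal _).2 hnu
  have h1 : ((Nat.gcd m ℓ : ℕ) : ℤ) = (m : ℤ) * Nat.gcdA m ℓ + (ℓ : ℤ) * Nat.gcdB m ℓ :=
    Nat.gcd_eq_gcd_ab m ℓ
  rw [hm] at h1
  have h2 : (1 : O) = (m : O) * ((Nat.gcdA m ℓ : ℤ) : O) + (ℓ : O) * ((Nat.gcdB m ℓ : ℤ) : O) := by
    have := congrArg (fun z : ℤ => (z : O)) h1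
    simpa using this
  have h3 : (1 : O) ∈ IsLocalRing.maximalIdeal O := by
    rw [h2]
    exact Ideal.add_mem _ (Ideal.mul_mem_right _ _ hmem) (Ideal.mul_mem_right _ _ hℓ)
  exact (Ideal.ne_top_iff_one _).1 (IsLocalRing.maximalIdeal.isMaximal O).ne_top h3

/-- the rational prime `ℓ` lies in the maximal ideal of `A ∩ L1`. -/
theorem lg_natCast_mem_maximalIdeal (A : ValuationSubring (AlgebraicClosure ℚ)) {ℓ : ℕ}
    (hA : A.LiesOverPrime ℓ) (L1 : Type*) [Field L1] [Algebra L1 (AlgebraicClosure ℚ)] :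
    ((ℓ : ℕ) : ↥(A.comap (algebraMap L1 (AlgebraicClosure ℚ)))) ∈
      IsLocalRing.maximalIdeal ↥(A.comap (algebraMap L1 (AlgebraicClosure ℚ))) := by
  rw [IsLocalRing.mem_maximalIdeal, mem_nonunits_iff]
  intro hu
  have h1 : ((ℓ : ℕ) : L1) ∈ (A.comap (algebraMap L1 (AlgebraicClosure ℚ))).nonunits := by
    rw [dsc_mem_comap_nonunits_iff, map_natCast]
    exact hA
  rw [ValuationSubring.mem_nonunits_iff_exists_mem_maximalIdeal] at h1
  obtain ⟨hmem, hmax⟩ := h1
  rw [IsLocalRing.mem_maximalIdeal, mem_nonunits_iff] at hmax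
  apply hmax
  convert hu using 1
  exact Subtype.ext (by push_cast; rfl)

/-- **S18 from `lg_Key0` over number fields** (any `ℓ ∤ N`; the hypothesis `hkey` is provable by
the Legendre model when `ℓ` is odd). -/
theorem lg_S18_of_key0 (N : ℕ) [NeZero N] {ℓ : ℕ} [Fact ℓ.Prime] (hℓN : ¬ ℓ ∣ N)
    (A : ValuationSubring (AlgebraicClosure ℚ)) (hA : A.LiesOverPrime ℓ)
    (h : ReductionInputsModL A N) (m : ℕ) (hm : ¬ ℓ ∣ m) (M : ℕ) [NeZero M]
    (hkey : ∀ p : ℕ, p.Prime → p ≠ ℓ →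
      ∀ (L1 : Type) [Field L1] [NumberField L1] [Algebra L1 (AlgebraicClosure ℚ)] (ζ : L1),
        IsPrimitiveRoot ζ M → lg_Key0 L1 (A.comap (algebraMap L1 (AlgebraicClosure ℚ))) N p)
    (z : JZero N) (hmz : m • z = 0) (hz : reductionModL A N z = 0) : z = 0 := by
  have hm0 : m ≠ 0 := by
    rintro rfl
    exact hm (dvd_zero ℓ)
  refine jt_S18_of_Key h m hm0 (fun p hp hpm => ?_) (jcr_constRed N A hℓN hA) z hmz hz
  have hpℓ : p ≠ ℓ := by
    rintro rfl
    exact hm hpm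
  exact lg_key_of_key0 A N hp.ne_zero M (hkey p hp hpℓ)

end Final

end Fermat.Agent.JT3
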