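/-
JT3 / Route R (S18), instance layer, leaf [INST-V] (helper16): the VERTICAL hypothesis (V) of the
generic model theorem `mdl_regAt` for the Legendre cover.

* `lgv_minpoly_eq`   : polynomial independence (S28 `bd_PolyIndep`) identifies the minimal polynomial;
* `lgv_Phi_exists`   : the modular polynomial `Φ_d ∈ ℤ_(ℓ)[J][T]` of S28 with its three properties;
* `lgv_separable`    : [VX] `Φ̄_d` is separable over `k(J)` for every field `k` of characteristic `ℓ ∤ d`;
* `lgv_goodGen`      : `θ_d = φ(j(q^d))` is a good generator (`mdl_GoodGen`) over an anharmonic coordinate;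
* `lgv_adjoin_eq_top`: the `θ_d`, `d ∣ N`, generate `E = φ(F_N)(λ)` over `L(λ)`.
-/
import Mathlib
import Fermat.Agent.JT3.Inst.FunFieldFacts
import Fermat.Agent.JT3.Model.GenDefs
import Fermat.Agent.JT3.Cover.Legendre
import Fermat.Agent.S28.Wiring.Main

set_option autoImplicit false

noncomputable section

open ModularCurve IntermediateField Polynomial

namespace Fermat.Agent.JT3

open Fermat.Agent.S28

section MinPoly

variable {k M : Type*} [Field k] [Field M] [Algebra k M]

/-- polynomial independence of `1, y, …, y^(n-1)` over `k[x]` (`x` transcendental) forces every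
monic polynomial of degree `n` over `k(x)` killing `y` to be the minimal polynomial. -/
theorem lgv_minpoly_eq {x y : M} (hx : Transcendental k x) {n : ℕ}
    (hind : bd_PolyIndep k x y n) (P : Polynomial k⟮x⟯) (hP : P.Monic) (hn : P.natDegree = n)
    (h0 : Polynomial.aeval y P = 0) : minpoly k⟮x⟯ y = P := by
  have hint : IsIntegral k⟮x⟯ y := ⟨P, hP, h0⟩
  have hdvd : minpoly k⟮x⟯ y ∣ P := minpoly.dvd _ _ h0
  have hmon := minpoly.monic hint
  symm
  refine Polynomial.eq_of_monic_of_dvd_of_natDegree_le hmon hP hdvd ?_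
  rw [hn]
  by_contra hlt
  push Not at hlt
  set m := minpoly k⟮x⟯ y with hm
  let e : RatFunc k ≃ₐ[k] k⟮x⟯ := RatFunc.algEquivOfTranscendental x hx
  let g : RatFunc k →+* M := (algebraMap k⟮x⟯ M).comp (e : RatFunc k →+* k⟮x⟯)
  set m' : Polynomial (RatFunc k) := m.map (e.symm : k⟮x⟯ →+* RatFunc k) with hm'
  have hev : Polynomial.eval₂ g y m' = 0 := by
    rw [hm', Polynomial.eval₂_map]
    have : g.comp (e.symm : k⟮x⟯ →+* RatFunc k) = algebraMap k⟮x⟯ M := by
      ext z
      simp [g]
    rw [this]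
    exact minpoly.aeval _ _
  have hM0 := IsLocalization.integerNormalization_eval₂_eq_zero (nonZeroDivisors (Polynomial k))
    g m' hev
  set M0 := IsLocalization.integerNormalization (nonZeroDivisors (Polynomial k)) m' with hM0def
  have hgcomp : ∀ c : Polynomial k, g (algebraMap (Polynomial k) (RatFunc k) c)
      = Polynomial.aeval x c := by
    intro c
    show algebraMap k⟮x⟯ M (e (algebraMap (Polynomial k) (RatFunc k) c)) = _
    rw [RatFunc.algEquivOfTranscendental_algebraMap, ← Polynomial.aeval_algebraMap_apply,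
      AdjoinSimple.algebraMap_gen]
  have hdeg' : m'.natDegree = m.natDegree :=
    Polynomial.natDegree_map_eq_of_injective (e.symm : k⟮x⟯ →+* RatFunc k).injective m
  have hM0deg : M0.natDegree < n := by
    refine lt_of_le_of_lt ?_ (hdeg' ▸ hlt)
    rw [Polynomial.natDegree_le_iff_coeff_eq_zero]
    intro i hi
    by_contra hne
    have h1 : i ∈ M0.support := Polynomial.mem_support_iff.mpr hne
    have h2 := IsLocalization.integerNormalization_support (nonZeroDivisors (Polynomial k)) m' h1
    exact (Polynomial.mem_support_iff.mp h2) (Polynomial.coeff_eq_zero_of_natDegree_lt hi)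
  rw [Polynomial.eval₂_eq_sum_range' _ hM0deg, ← Fin.sum_univ_eq_sum_range
    (fun i => (g.comp (algebraMap (Polynomial k) (RatFunc k))) (M0.coeff i) * y ^ i) n] at hM0
  have hzero := hind (fun i : Fin n => M0.coeff i) (by
    rw [← hM0]
    refine Finset.sum_congr rfl fun i _ => ?_
    rw [RingHom.comp_apply, hgcomp])
  have hM0z : M0 = 0 := by
    refine Polynomial.ext fun i => ?_
    rw [Polynomial.coeff_zero]
    by_cases hi : i < n
    · exact congrFun hzero ⟨i, hi⟩
    · exact Polynomial.coeff_eq_zero_of_natDegree_lt (lt_of_lt_of_le hM0deg (not_lt.mp hi))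
  have hm'z : m' = 0 := IsFractionRing.integerNormalization_eq_zero_iff.mp hM0z
  have hmz : m = 0 := by
    have := (Polynomial.map_eq_zero_iff (e.symm : k⟮x⟯ →+* RatFunc k).injective).mp hm'z
    exact this
  exact hmon.ne_zero hmz

end MinPoly

section Phi

/-- **the modular polynomial of level `d`** (S28): monic `Φ ∈ ℤ_(ℓ)[J][T]` with
`Φ(j(q), j(q^d)) = 0` already over `ℤ_(ℓ)`, of the right degree modulo `ℓ`. -/
theorem lgv_Phi_exists (d ℓ : ℕ) [NeZero d] [Fact ℓ.Prime] (hℓd : ¬ ℓ ∣ d) :
    ∃ Φ : Polynomial (Polynomial ↥(GaloisRep.ratLocalizedAt ℓ)), Φ.Monic ∧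
      Φ.eval₂ (Polynomial.eval₂RingHom
        (HahnSeries.C : ↥(GaloisRep.ratLocalizedAt ℓ) →+* LaurentSeries ↥(GaloisRep.ratLocalizedAt ℓ))
        (jqModC ↥(GaloisRep.ratLocalizedAt ℓ)))
        (qExpand ↥(GaloisRep.ratLocalizedAt ℓ) d (jqModC ↥(GaloisRep.ratLocalizedAt ℓ))) = 0 ∧
      bd_PolyIndep (ZMod ℓ) (jqModC (ZMod ℓ)) (qExpand (ZMod ℓ) d (jqModC (ZMod ℓ)))
        Φ.natDegree := by
  obtain ⟨Φ, hm, h0, hind⟩ := Fermat.Agent.S28.wr_inputs d ℓ hℓd
  refine ⟨Φ, hm, ?_, hind⟩
  set R := ↥(GaloisRep.ratLocalizedAt ℓ)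
  apply jcr_coeffMap_injective (algebraMap R ℚ) (FaithfulSMul.algebraMap_injective R ℚ)
  rw [map_zero, jcr_coeffMap_eval₂, coeffMap_qExpand, coeffMap_jqModC, jqModC_rat]
  exact h0

/-- the modular equation over any coefficient ring receiving `ℤ_(ℓ)` -/
theorem lgv_modEq {R S : Type*} [CommRing R] [CommRing S] (d : ℕ) [NeZero d]
    (Φ : Polynomial (Polynomial R))
    (h0 : Φ.eval₂ (Polynomial.eval₂RingHom (HahnSeries.C : R →+* LaurentSeries R) (jqModC R))
      (qExpand R d (jqModC R)) = 0) (ρ : R →+* S) :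
    Φ.eval₂ (Polynomial.eval₂RingHom ((HahnSeries.C : S →+* LaurentSeries S).comp ρ) (jqModC S))
      (qExpand S d (jqModC S)) = 0 := by
  have := congrArg (coeffMap ρ) h0
  rw [map_zero, jcr_coeffMap_eval₂, coeffMap_qExpand, coeffMap_jqModC] at this
  exact this

end Phi

section RatLoc

variable (ℓ : ℕ) [Fact ℓ.Prime]

theorem lgv_den_ne_zero (k : Type*) [Field k] [CharP k ℓ] (x : ↥(GaloisRep.ratLocalizedAt ℓ)) :
    (((x : ℚ).den : ℕ) : k) ≠ 0 := by
  intro h
  rw [CharP.cast_eq_zero_iff k ℓ] at h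
  have hcop : (x : ℚ).den.Coprime ℓ := x.2
  have := Nat.Coprime.eq_one_of_dvd hcop.symm h
  exact (Fact.out : ℓ.Prime).one_lt.ne' this

/-- the canonical ring homomorphism `ℤ_(ℓ) → k` for a field `k` of characteristic `ℓ` -/
def lgv_rho (k : Type*) [Field k] [CharP k ℓ] : ↥(GaloisRep.ratLocalizedAt ℓ) →+* k where
  toFun x := ((x : ℚ) : k)
  map_one' := by simp
  map_zero' := by simp
  map_mul' x y := by
    show (((x * y : ↥(GaloisRep.ratLocalizedAt ℓ)) : ℚ) : k) = _
    rw [Subring.coe_mul]
    exact Rat.cast_mul_of_ne_zero (lgv_den_ne_zero ℓ k x) (lgv_den_ne_zero ℓ k y)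
  map_add' x y := by
    show (((x + y : ↥(GaloisRep.ratLocalizedAt ℓ)) : ℚ) : k) = _
    rw [Subring.coe_add]
    exact Rat.cast_add_of_ne_zero (lgv_den_ne_zero ℓ k x) (lgv_den_ne_zero ℓ k y)

/-- ring homomorphisms from `ℤ_(ℓ)` to a field of characteristic `ℓ` are unique -/
theorem lgv_rho_ext {k : Type*} [Field k] [CharP k ℓ]
    (f g : ↥(GaloisRep.ratLocalizedAt ℓ) →+* k) : f = g := by
  ext x
  have hx : x * (((x : ℚ).den : ℕ) : ↥(GaloisRep.ratLocalizedAt ℓ))
      = (((x : ℚ).num : ℤ) : ↥(GaloisRep.ratLocalizedAt ℓ)) := by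
    apply Subtype.ext
    push_cast
    exact Rat.mul_den_eq_num (x : ℚ)
  have hf := congrArg f hx
  have hg := congrArg g hx
  rw [map_mul, map_natCast, map_intCast] at hf hg
  exact mul_right_cancel₀ (lgv_den_ne_zero ℓ k x) (hf.trans hg.symm)

end RatLoc

section Sep

/-- the canonical isomorphism `k(X) ≃ k(x)` followed by the inclusion is evaluation at `x` -/
theorem lgv_equiv_algebraMap {k M : Type*} [Field k] [Field M] [Algebra k M] {x : M}
    (hx : Transcendental k x) (c : Polynomial k) :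
    algebraMap k⟮x⟯ M (RatFunc.algEquivOfTranscendental x hx
      (algebraMap (Polynomial k) (RatFunc k) c)) = Polynomial.aeval x c := by
  rw [RatFunc.algEquivOfTranscendental_algebraMap, ← Polynomial.aeval_algebraMap_apply,
    AdjoinSimple.algebraMap_gen]

variable (d ℓ : ℕ) [NeZero d] [Fact ℓ.Prime]

/-- [VX] over the prime field -/
theorem lgv_separable_zmod (Φ : Polynomial (Polynomial ↥(GaloisRep.ratLocalizedAt ℓ)))
    (hm : Φ.Monic)
    (h0 : Φ.eval₂ (Polynomial.eval₂RingHom
        (HahnSeries.C : ↥(GaloisRep.ratLocalizedAt ℓ) →+* LaurentSeries ↥(GaloisRep.ratLocalizedAt ℓ))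
        (jqModC ↥(GaloisRep.ratLocalizedAt ℓ)))
        (qExpand ↥(GaloisRep.ratLocalizedAt ℓ) d (jqModC ↥(GaloisRep.ratLocalizedAt ℓ))) = 0)
    (hind : bd_PolyIndep (ZMod ℓ) (jqModC (ZMod ℓ)) (qExpand (ZMod ℓ) d (jqModC (ZMod ℓ)))
        Φ.natDegree)
    (ρ : ↥(GaloisRep.ratLocalizedAt ℓ) →+* ZMod ℓ) :
    ((Φ.map (Polynomial.mapRingHom ρ)).map
      (algebraMap (Polynomial (ZMod ℓ)) (RatFunc (ZMod ℓ)))).Separable := by
  set x0 : LaurentSeries (ZMod ℓ) := jqModC (ZMod ℓ) with hx0def
  set y0 : LaurentSeries (ZMod ℓ) := qExpand (ZMod ℓ) d x0 with hy0def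
  have hx : Transcendental (ZMod ℓ) x0 :=
    lgf_transcendental_of_coeff (n := -1) (by norm_num)
      (by rw [coeff_jqModC_neg_one]; exact one_ne_zero)
  set e : RatFunc (ZMod ℓ) ≃ₐ[ZMod ℓ] (ZMod ℓ)⟮x0⟯ := RatFunc.algEquivOfTranscendental x0 hx
    with hedef
  rw [← Polynomial.separable_map (e : RatFunc (ZMod ℓ) →+* (ZMod ℓ)⟮x0⟯)]
  set P : Polynomial (ZMod ℓ)⟮x0⟯ := ((Φ.map (Polynomial.mapRingHom ρ)).map
      (algebraMap (Polynomial (ZMod ℓ)) (RatFunc (ZMod ℓ)))).map
        (e : RatFunc (ZMod ℓ) →+* (ZMod ℓ)⟮x0⟯) with hPdef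
  have hPmon : P.Monic := ((hm.map _).map _).map _
  have hPdeg : P.natDegree = Φ.natDegree := by
    rw [hPdef, ((hm.map _).map _).natDegree_map, (hm.map _).natDegree_map, hm.natDegree_map]
  have hP0 : Polynomial.aeval y0 P = 0 := by
    rw [Polynomial.aeval_def, hPdef, Polynomial.map_map, Polynomial.map_map, Polynomial.eval₂_map]
    have hcomp : (algebraMap (ZMod ℓ)⟮x0⟯ (LaurentSeries (ZMod ℓ))).comp
        (((e : RatFunc (ZMod ℓ) →+* (ZMod ℓ)⟮x0⟯).comp
          (algebraMap (Polynomial (ZMod ℓ)) (RatFunc (ZMod ℓ)))).comp (Polynomial.mapRingHom ρ))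
        = Polynomial.eval₂RingHom
          ((HahnSeries.C : ZMod ℓ →+* LaurentSeries (ZMod ℓ)).comp ρ) x0 := by
      refine Polynomial.ringHom_ext (fun r => ?_) ?_
      · simp only [RingHom.comp_apply, Polynomial.coe_mapRingHom, Polynomial.map_C,
          Polynomial.coe_eval₂RingHom, Polynomial.eval₂_C]
        have := lgv_equiv_algebraMap hx (Polynomial.C (ρ r))
        rw [Polynomial.aeval_C] at this
        rw [HahnSeries.C_apply, ← algebraMap_laurentSeries_eq_single]
        exact this
      · simp only [RingHom.comp_apply, Polynomial.coe_mapRingHom, Polynomial.map_X,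
          Polynomial.coe_eval₂RingHom, Polynomial.eval₂_X]
        have := lgv_equiv_algebraMap hx (Polynomial.X : Polynomial (ZMod ℓ))
        rw [Polynomial.aeval_X] at this
        exact this
    rw [hcomp]
    exact lgv_modEq d Φ h0 ρ
  have hmin : minpoly (ZMod ℓ)⟮x0⟯ y0 = P := lgv_minpoly_eq hx hind P hPmon hPdeg hP0
  rw [← hmin]
  have hx0 : x0 ≠ 0 := jqModC_ne_zero_of_nontrivial (ZMod ℓ)
  have hord : ¬ (ℓ : ℤ) ∣ x0.order := by
    rw [hx0def, jcr_order_jq]
    intro h
    have h2 := (Fact.out : ℓ.Prime).two_le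
    have := Int.le_of_dvd (by norm_num) ((dvd_neg).mp h)
    omega
  exact lsp_isSeparable ℓ hx0 hord (IsIntegral.isAlgebraic ⟨P, hPmon, hP0⟩)

/-- **[VX]**: the reduction of the modular polynomial of level `d` is separable over `k(J)`, for
every field `k` of characteristic `ℓ ∤ d`. -/
theorem lgv_separable {k : Type*} [Field k] [CharP k ℓ]
    (Φ : Polynomial (Polynomial ↥(GaloisRep.ratLocalizedAt ℓ))) (hm : Φ.Monic)
    (h0 : Φ.eval₂ (Polynomial.eval₂RingHom
        (HahnSeries.C : ↥(GaloisRep.ratLocalizedAt ℓ) →+* LaurentSeries ↥(GaloisRep.ratLocalizedAt ℓ))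
        (jqModC ↥(GaloisRep.ratLocalizedAt ℓ)))
        (qExpand ↥(GaloisRep.ratLocalizedAt ℓ) d (jqModC ↥(GaloisRep.ratLocalizedAt ℓ))) = 0)
    (hind : bd_PolyIndep (ZMod ℓ) (jqModC (ZMod ℓ)) (qExpand (ZMod ℓ) d (jqModC (ZMod ℓ)))
        Φ.natDegree)
    (ρ : ↥(GaloisRep.ratLocalizedAt ℓ) →+* k) :
    ((Φ.map (Polynomial.mapRingHom ρ)).map
      (algebraMap (Polynomial k) (RatFunc k))).Separable := by
  have hρ : ρ = (ZMod.castHom (dvd_refl ℓ) k).comp (lgv_rho ℓ (ZMod ℓ)) := lgv_rho_ext ℓ _ _
  have hsep := lgv_separable_zmod d ℓ Φ hm h0 hind (lgv_rho ℓ (ZMod ℓ))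
  set c : ZMod ℓ →+* k := ZMod.castHom (dvd_refl ℓ) k with hc
  let g : Polynomial (ZMod ℓ) →+* RatFunc k :=
    (algebraMap (Polynomial k) (RatFunc k)).comp (Polynomial.mapRingHom c)
  have hg : Function.Injective g :=
    (IsFractionRing.injective (Polynomial k) (RatFunc k)).comp
      (Polynomial.map_injective c c.injective)
  let ψ : RatFunc (ZMod ℓ) →+* RatFunc k := IsFractionRing.lift hg
  have h1 := hsep.map (f := ψ)
  rw [Polynomial.map_map, Polynomial.map_map] at h1
  rw [Polynomial.map_map]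
  have hhom : (algebraMap (Polynomial k) (RatFunc k)).comp (Polynomial.mapRingHom ρ)
      = (ψ.comp (algebraMap (Polynomial (ZMod ℓ)) (RatFunc (ZMod ℓ)))).comp
          (Polynomial.mapRingHom (lgv_rho ℓ (ZMod ℓ))) := by
    rw [hρ]
    refine Polynomial.ringHom_ext (fun r => ?_) ?_
    · simp only [RingHom.comp_apply, Polynomial.coe_mapRingHom, Polynomial.map_C]
      show _ = ψ (algebraMap (Polynomial (ZMod ℓ)) (RatFunc (ZMod ℓ)) (Polynomial.C _))
      rw [IsFractionRing.lift_algebraMap]
      simp [g]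
    · simp only [RingHom.comp_apply, Polynomial.coe_mapRingHom, Polynomial.map_X]
      show _ = ψ (algebraMap (Polynomial (ZMod ℓ)) (RatFunc (ZMod ℓ)) Polynomial.X)
      rw [IsFractionRing.lift_algebraMap]
      simp [g]
  rw [hhom]
  exact h1

end Sep

section Hom

variable {R : Type*} [CommRing R]

/-- homogenisation of a one-variable polynomial: `∑ c_j A^j B^(D-j)` -/
def lgv_hom (A B : Polynomial R) (D : ℕ) (c : Polynomial R) : Polynomial R :=
  ∑ j ∈ Finset.range (D + 1), Polynomial.C (c.coeff j) * A ^ j * B ^ (D - j)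

theorem lgv_hom_eval {S : Type*} [CommRing S] (F : Polynomial R →+* S) (A B : Polynomial R)
    (D : ℕ) (c : Polynomial R) (hc : c.natDegree ≤ D) (y : S) (hy : F A = y * F B) :
    F (lgv_hom A B D c) = F B ^ D * c.eval₂ (F.comp Polynomial.C) y := by
  rw [lgv_hom, map_sum, Polynomial.eval₂_eq_sum_range' (F.comp Polynomial.C)
    (Nat.lt_succ_of_le hc) y, Finset.mul_sum]
  refine Finset.sum_congr rfl fun j hj => ?_
  have hj' : j ≤ D := Nat.lt_succ_iff.mp (Finset.mem_range.mp hj)
  rw [map_mul, map_mul, map_pow, map_pow, hy, mul_pow, RingHom.comp_apply]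
  have : F B ^ D = F B ^ j * F B ^ (D - j) := by rw [← pow_add, Nat.add_sub_cancel' hj']
  rw [this]
  ring

theorem lgv_hom_one (A B : Polynomial R) (D : ℕ) : lgv_hom A B D 1 = B ^ D := by
  rw [lgv_hom, Finset.sum_eq_single 0]
  · simp
  · intro j _ hj
    rw [Polynomial.coeff_one, if_neg hj, map_zero, zero_mul, zero_mul]
  · intro h
    exact absurd (Finset.mem_range.mpr (Nat.succ_pos D)) h

/-- homogenisation of a two-variable polynomial in its inner variable -/
def lgv_homPoly (A B : Polynomial R) (D : ℕ) (Φ : Polynomial (Polynomial R)) :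
    Polynomial (Polynomial R) :=
  ∑ i ∈ Finset.range (Φ.natDegree + 1),
    Polynomial.C (lgv_hom A B D (Φ.coeff i)) * Polynomial.X ^ i

theorem lgv_homPoly_eval₂ {S : Type*} [CommRing S] (F : Polynomial R →+* S) (A B : Polynomial R)
    (D : ℕ) (Φ : Polynomial (Polynomial R)) (hD : ∀ i, (Φ.coeff i).natDegree ≤ D) (y t : S)
    (hy : F A = y * F B) :
    (lgv_homPoly A B D Φ).eval₂ F t
      = F B ^ D * Φ.eval₂ (Polynomial.eval₂RingHom (F.comp Polynomial.C) y) t := by
  rw [lgv_homPoly, Polynomial.eval₂_finsetSum,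
    Polynomial.eval₂_eq_sum_range (Polynomial.eval₂RingHom (F.comp Polynomial.C) y) t,
    Finset.mul_sum]
  refine Finset.sum_congr rfl fun i _ => ?_
  rw [Polynomial.eval₂_mul, Polynomial.eval₂_C, Polynomial.eval₂_pow, Polynomial.eval₂_X,
    lgv_hom_eval F A B D _ (hD i) y hy, Polynomial.coe_eval₂RingHom, mul_assoc]

theorem lgv_homPoly_coeff (A B : Polynomial R) (D : ℕ) (Φ : Polynomial (Polynomial R)) (i : ℕ) :
    (lgv_homPoly A B D Φ).coeff i = lgv_hom A B D (Φ.coeff i) := by
  rw [lgv_homPoly, Polynomial.finsetSum_coeff]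
  by_cases hi : i ∈ Finset.range (Φ.natDegree + 1)
  · rw [Finset.sum_eq_single i]
    · rw [Polynomial.coeff_C_mul, Polynomial.coeff_X_pow, if_pos rfl, mul_one]
    · intro j _ hj
      rw [Polynomial.coeff_C_mul, Polynomial.coeff_X_pow, if_neg (Ne.symm hj), mul_zero]
    · intro h
      exact absurd hi h
  · rw [Finset.sum_eq_zero]
    · have : Φ.coeff i = 0 := Polynomial.coeff_eq_zero_of_natDegree_lt
        (by rw [Finset.mem_range, not_lt] at hi; omega)
      rw [this, lgv_hom]
      simp
    · intro j hj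
      have hne : i ≠ j := fun h => hi (h ▸ hj)
      rw [Polynomial.coeff_C_mul, Polynomial.coeff_X_pow, if_neg hne, mul_zero]

theorem lgv_homPoly_leadingCoeff [Nontrivial R] (A B : Polynomial R) (hB : B.Monic) (D : ℕ)
    (Φ : Polynomial (Polynomial R)) (hm : Φ.Monic) :
    (lgv_homPoly A B D Φ).leadingCoeff = B ^ D := by
  have hcoeff : (lgv_homPoly A B D Φ).coeff Φ.natDegree = B ^ D := by
    rw [lgv_homPoly_coeff, hm.coeff_natDegree, lgv_hom_one]
  have hne : (B ^ D : Polynomial R) ≠ 0 := (hB.pow D).ne_zero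
  have hle : (lgv_homPoly A B D Φ).natDegree ≤ Φ.natDegree := by
    rw [Polynomial.natDegree_le_iff_coeff_eq_zero]
    intro i hi
    rw [lgv_homPoly_coeff, Polynomial.coeff_eq_zero_of_natDegree_lt hi, lgv_hom]
    simp
  have hge : Φ.natDegree ≤ (lgv_homPoly A B D Φ).natDegree :=
    Polynomial.le_natDegree_of_ne_zero (by rw [hcoeff]; exact hne)
  rw [Polynomial.leadingCoeff, le_antisymm hle hge, hcoeff]

end Hom

section GoodGen

variable {R0 O : Type*} [CommRing R0] [CommRing O] [IsLocalRing O] {E : Type*} [Field E]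
  [Algebra O E]

/-- a bound for the degrees of the coefficients -/
def lgv_innerDeg {R : Type*} [CommRing R] (Φ : Polynomial (Polynomial R)) : ℕ :=
  Φ.support.sup fun i => (Φ.coeff i).natDegree

theorem lgv_innerDeg_le {R : Type*} [CommRing R] (Φ : Polynomial (Polynomial R)) (i : ℕ) :
    (Φ.coeff i).natDegree ≤ lgv_innerDeg Φ := by
  by_cases hi : i ∈ Φ.support
  · exact Finset.le_sup (f := fun i => (Φ.coeff i).natDegree) hi
  · rw [Polynomial.notMem_support_iff.mp hi, Polynomial.natDegree_zero]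
    exact Nat.zero_le _

/-- **generic (V)**: a root `θ` of a two-variable monic relation `Φ(j', θ) = 0`, where
`j' = A(x)/B(x)`, is a good generator over `x` as soon as the reduction of `Φ` is separable over
`k(J)` and the reduction of `A/B` is transcendental over `k`. -/
theorem lgv_goodGen_generic (ρO : R0 →+* O) (Φ : Polynomial (Polynomial R0)) (hm : Φ.Monic)
    (x θ j' : E) (A B : Polynomial O) (hB : B.Monic)
    (hrel : Polynomial.aeval x A = j' * Polynomial.aeval x B)
    (hmod : Φ.eval₂ (Polynomial.eval₂RingHom ((algebraMap O E).comp ρO) j') θ = 0)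
    (htr : Transcendental (IsLocalRing.ResidueField O)
      (algebraMap (Polynomial (IsLocalRing.ResidueField O)) (RatFunc (IsLocalRing.ResidueField O))
          (A.map (IsLocalRing.residue O))
        / algebraMap (Polynomial (IsLocalRing.ResidueField O))
          (RatFunc (IsLocalRing.ResidueField O)) (B.map (IsLocalRing.residue O))))
    (hsep : ((Φ.map (Polynomial.mapRingHom ((IsLocalRing.residue O).comp ρO))).map
      (algebraMap (Polynomial (IsLocalRing.ResidueField O))
        (RatFunc (IsLocalRing.ResidueField O)))).Separable) :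
    mdl_GoodGen O x θ := by
  set k := IsLocalRing.ResidueField O with hk
  set res : O →+* k := IsLocalRing.residue O with hres
  set ΦO : Polynomial (Polynomial O) := Φ.map (Polynomial.mapRingHom ρO) with hΦO
  have hmO : ΦO.Monic := hm.map _
  set D := lgv_innerDeg ΦO with hD
  have hDle : ∀ i, (ΦO.coeff i).natDegree ≤ D := lgv_innerDeg_le ΦO
  refine ⟨lgv_homPoly A B D ΦO, ?_, ?_, ?_⟩
  · -- leading coefficient
    rw [lgv_homPoly_leadingCoeff A B hB D ΦO hmO, Polynomial.map_pow]
    exact pow_ne_zero _ (hB.map res).ne_zero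
  · -- the relation
    rw [lgv_homPoly_eval₂ ((Polynomial.aeval x : Polynomial O →ₐ[O] E) : Polynomial O →+* E)
      A B D ΦO hDle j' θ hrel]
    have h1 : ΦO.eval₂ (Polynomial.eval₂RingHom
        ((((Polynomial.aeval x : Polynomial O →ₐ[O] E) : Polynomial O →+* E)).comp Polynomial.C)
          j') θ = 0 := by
      rw [hΦO, Polynomial.eval₂_map]
      have hcomp : (Polynomial.eval₂RingHom
          ((((Polynomial.aeval x : Polynomial O →ₐ[O] E) : Polynomial O →+* E)).comp
            Polynomial.C) j').comp (Polynomial.mapRingHom ρO)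
          = Polynomial.eval₂RingHom ((algebraMap O E).comp ρO) j' := by
        refine Polynomial.ringHom_ext (fun r => ?_) ?_
        · simp only [RingHom.comp_apply, Polynomial.coe_mapRingHom, Polynomial.map_C,
            Polynomial.coe_eval₂RingHom, Polynomial.eval₂_C]
          simp
        · simp only [RingHom.comp_apply, Polynomial.coe_mapRingHom, Polynomial.map_X,
            Polynomial.coe_eval₂RingHom, Polynomial.eval₂_X]
      rw [hcomp]
      exact hmod
    rw [h1, mul_zero]
  · -- separability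
    set Ab : Polynomial k := A.map res with hAb
    set Bb : Polynomial k := B.map res with hBb
    have hBb0 : algebraMap (Polynomial k) (RatFunc k) Bb ≠ 0 := by
      rw [ne_eq, map_eq_zero_iff _ (IsFractionRing.injective (Polynomial k) (RatFunc k))]
      exact (hB.map res).ne_zero
    set y0 : RatFunc k := algebraMap (Polynomial k) (RatFunc k) Ab
      / algebraMap (Polynomial k) (RatFunc k) Bb with hy0
    -- the coefficient map `O[X] → k(X)[T]`
    let F0 : Polynomial O →+* RatFunc k :=
      (algebraMap (Polynomial k) (RatFunc k)).comp (Polynomial.mapRingHom res)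
    let F : Polynomial O →+* Polynomial (RatFunc k) := Polynomial.C.comp F0
    have hmapH : ((lgv_homPoly A B D ΦO).map (Polynomial.mapRingHom res)).map
        (algebraMap (Polynomial k) (RatFunc k))
        = (lgv_homPoly A B D ΦO).eval₂ F Polynomial.X := by
      rw [Polynomial.map_map]
      rfl
    rw [hmapH, lgv_homPoly_eval₂ F A B D ΦO hDle (Polynomial.C y0) Polynomial.X (by
      show Polynomial.C (F0 A) = Polynomial.C y0 * Polynomial.C (F0 B)
      rw [← Polynomial.C_mul]
      congr 1
      show algebraMap (Polynomial k) (RatFunc k) Ab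
        = y0 * algebraMap (Polynomial k) (RatFunc k) Bb
      rw [hy0, div_mul_cancel₀ _ hBb0])]
    -- the substitution `J ↦ y0`
    have hinj : Function.Injective ((Polynomial.aeval y0 : Polynomial k →ₐ[k] RatFunc k) :
        Polynomial k →+* RatFunc k) := by
      rw [injective_iff_map_eq_zero]
      intro c hc
      by_contra hne
      exact htr ⟨c, hne, hc⟩
    let σ : RatFunc k →+* RatFunc k := IsFractionRing.lift hinj
    let ψ : Polynomial O →+* RatFunc k :=
      Polynomial.eval₂RingHom ((algebraMap k (RatFunc k)).comp res) y0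
    have hψ : ψ = (σ.comp (algebraMap (Polynomial k) (RatFunc k))).comp
        (Polynomial.mapRingHom res) := by
      refine Polynomial.ringHom_ext (fun r => ?_) ?_
      · simp only [ψ, σ, RingHom.comp_apply, Polynomial.coe_mapRingHom, Polynomial.map_C,
          Polynomial.coe_eval₂RingHom, Polynomial.eval₂_C]
        rw [IsFractionRing.lift_algebraMap]
        simp
      · simp only [ψ, σ, RingHom.comp_apply, Polynomial.coe_mapRingHom, Polynomial.map_X,
          Polynomial.coe_eval₂RingHom, Polynomial.eval₂_X]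
        rw [IsFractionRing.lift_algebraMap]
        simp
    have hev : ΦO.eval₂ (Polynomial.eval₂RingHom (F.comp Polynomial.C) (Polynomial.C y0))
        Polynomial.X = ΦO.map ψ := by
      have hcomp : Polynomial.eval₂RingHom (F.comp Polynomial.C) (Polynomial.C y0)
          = Polynomial.C.comp ψ := by
        refine Polynomial.ringHom_ext (fun r => ?_) ?_
        · simp only [ψ, F, F0, RingHom.comp_apply, Polynomial.coe_mapRingHom, Polynomial.map_C,
            Polynomial.coe_eval₂RingHom, Polynomial.eval₂_C]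
          rfl
        · simp only [ψ, RingHom.comp_apply, Polynomial.coe_eval₂RingHom, Polynomial.eval₂_X]
      rw [hcomp]
      rfl
    rw [hev]
    have hsep' : (ΦO.map ψ).Separable := by
      rw [hψ, hΦO, Polynomial.map_map]
      have h2 := hsep.map (f := σ)
      rw [Polynomial.map_map, Polynomial.map_map] at h2
      have h3 : ((σ.comp (algebraMap (Polynomial k) (RatFunc k))).comp
          (Polynomial.mapRingHom res)).comp (Polynomial.mapRingHom ρO)
          = (σ.comp (algebraMap (Polynomial k) (RatFunc k))).comp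
            (Polynomial.mapRingHom (res.comp ρO)) := by
        rw [RingHom.comp_assoc, ← Polynomial.mapRingHom_comp]
      rw [h3]
      exact h2
    refine Polynomial.Separable.unit_mul ?_ hsep'
    refine IsUnit.pow _ ?_
    show IsUnit (Polynomial.C (F0 B))
    exact Polynomial.isUnit_C.mpr (IsUnit.mk0 _ hBb0)

end GoodGen

section Legendre

/-- the Legendre `j`-function is transcendental over the constants -/
theorem lgv_legj_transcendental (k : Type*) [Field k] (h2 : (2 : k) ≠ 0) :
    Transcendental k (cv_legj k) := by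
  intro halg
  have := cv_leg_finiteDimensional (K := k) h2
  have h1 : FiniteDimensional k k⟮cv_legj k⟯ :=
    IntermediateField.adjoin.finiteDimensional halg.isIntegral
  have h3 : FiniteDimensional k (RatFunc k) := FiniteDimensional.trans k k⟮cv_legj k⟯ (RatFunc k)
  have h4 : IsAlgebraic k (RatFunc.X : RatFunc k) := Algebra.IsAlgebraic.isAlgebraic _
  exact RatFunc.transcendental_X h4

/-- numerator of the Legendre `j`-function as a polynomial -/
def lgv_legA (O : Type*) [CommRing O] : Polynomial O :=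
  256 * (Polynomial.X ^ 2 - Polynomial.X + 1) ^ 3

/-- denominator of the Legendre `j`-function as a polynomial -/
def lgv_legB (O : Type*) [CommRing O] : Polynomial O :=
  Polynomial.X ^ 2 * (Polynomial.X - 1) ^ 2

theorem lgv_legB_monic (O : Type*) [CommRing O] [Nontrivial O] : (lgv_legB O).Monic := by
  unfold lgv_legB
  exact (Polynomial.monic_X_pow 2).mul ((Polynomial.monic_X_sub_C (1 : O)).pow 2)

theorem lgv_aeval_legA {O S : Type*} [CommRing O] [CommRing S] [Algebra O S] (x : S) :
    Polynomial.aeval x (lgv_legA O) = cv_legN x := by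
  unfold lgv_legA cv_legN
  simp only [map_mul, map_pow, map_add, map_sub, map_one, Polynomial.aeval_X, map_ofNat]

theorem lgv_aeval_legB {O S : Type*} [CommRing O] [CommRing S] [Algebra O S] (x : S) :
    Polynomial.aeval x (lgv_legB O) = cv_legD x := by
  unfold lgv_legB cv_legD
  simp only [map_mul, map_pow, map_sub, map_one, Polynomial.aeval_X]

theorem lgv_leg_quot (O : Type*) [CommRing O] [IsLocalRing O] :
    algebraMap (Polynomial (IsLocalRing.ResidueField O)) (RatFunc (IsLocalRing.ResidueField O))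
        ((lgv_legA O).map (IsLocalRing.residue O))
      / algebraMap (Polynomial (IsLocalRing.ResidueField O))
        (RatFunc (IsLocalRing.ResidueField O)) ((lgv_legB O).map (IsLocalRing.residue O))
      = cv_legj (IsLocalRing.ResidueField O) := by
  unfold lgv_legA lgv_legB cv_legj cv_legJ cv_legN cv_legD
  simp only [Polynomial.map_mul, Polynomial.map_pow, Polynomial.map_add, Polynomial.map_sub,
    Polynomial.map_one, Polynomial.map_X, Polynomial.map_ofNat, map_mul, map_pow, map_add, map_sub,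
    map_one, RatFunc.algebraMap_X, map_ofNat]

end Legendre

section Instance

variable (L : Type*) [Field L] (N : ℕ) [NeZero N]

/-- the twisted modular equation `Φ_d(j(q²), j(q^{2d})) = 0`, for a given `Φ` -/
theorem lgv_modEq_twist {R : Type*} [CommRing R] (d : ℕ) [NeZero d]
    (Φ : Polynomial (Polynomial R))
    (h0 : Φ.eval₂ (Polynomial.eval₂RingHom (HahnSeries.C : R →+* LaurentSeries R) (jqModC R))
      (qExpand R d (jqModC R)) = 0) (ρ : R →+* L) :
    Φ.eval₂ (Polynomial.eval₂RingHom ((HahnSeries.C : L →+* LaurentSeries L).comp ρ) (lg_j2 L))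
      (lg_phi L (qExpand L d (jqModC L))) = 0 := by
  have h0' := lgv_modEq d Φ h0 ρ
  have h1 := Polynomial.hom_eval₂ Φ
    (Polynomial.eval₂RingHom ((HahnSeries.C : L →+* LaurentSeries L).comp ρ) (jqModC L))
    (lg_phi L : LaurentSeries L →+* LaurentSeries L) (qExpand L d (jqModC L))
  rw [h0', map_zero] at h1
  have h2 : (lg_phi L : LaurentSeries L →+* LaurentSeries L).comp
      (Polynomial.eval₂RingHom ((HahnSeries.C : L →+* LaurentSeries L).comp ρ) (jqModC L))
      = Polynomial.eval₂RingHom ((HahnSeries.C : L →+* LaurentSeries L).comp ρ) (lg_j2 L) := by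
    refine Polynomial.ringHom_ext (fun r => ?_) ?_
    · simp only [RingHom.comp_apply, Polynomial.coe_eval₂RingHom, Polynomial.eval₂_C]
      rw [HahnSeries.C_apply, ← algebraMap_laurentSeries_eq_single]
      exact (lg_phi L).commutes _
    · simp only [RingHom.comp_apply, Polynomial.coe_eval₂RingHom, Polynomial.eval₂_X]
      rfl
  rw [h2] at h1
  exact h1.symm

/-- the generator `θ_d = φ(j(q^d)) = j(q^{2d})` of `E` (`0` when `d ∤ N`) -/
def lgv_theta (d : ℕ) : lg_E L N :=
  if h : d ∣ N then
    haveI : NeZero d := ⟨ne_zero_of_dvd_ne_zero (NeZero.ne N) h⟩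
    ⟨lg_phi L (qExpand L d (jqModC L)), lg_phi_mem_E L N (jqModCd_mem_full L N h)⟩
  else 0

theorem lgv_theta_coe {d : ℕ} [NeZero d] (h : d ∣ N) :
    ((lgv_theta L N d : lg_E L N) : LaurentSeries L) = lg_phi L (qExpand L d (jqModC L)) := by
  rw [lgv_theta, dif_pos h]

variable {L N}

/-- the modular equation inside `E`, with coefficients pushed through a ring `O` -/
theorem lgv_modEq_E {O : Type*} [CommRing O] [Algebra O L] [Algebra O (lg_E L N)]
    [IsScalarTower O L (lg_E L N)] {R : Type*} [CommRing R] (d : ℕ) [NeZero d] (hd : d ∣ N)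
    (Φ : Polynomial (Polynomial R))
    (h0 : Φ.eval₂ (Polynomial.eval₂RingHom (HahnSeries.C : R →+* LaurentSeries R) (jqModC R))
      (qExpand R d (jqModC R)) = 0) (ρO : R →+* O) :
    Φ.eval₂ (Polynomial.eval₂RingHom ((algebraMap O (lg_E L N)).comp ρO) (lgf_j2E L N))
      (lgv_theta L N d) = 0 := by
  apply Subtype.ext
  have h1 := Polynomial.hom_eval₂ Φ
    (Polynomial.eval₂RingHom ((algebraMap O (lg_E L N)).comp ρO) (lgf_j2E L N))
    ((lg_E L N).val : lg_E L N →+* LaurentSeries L) (lgv_theta L N d)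
  have h2 : ((lg_E L N).val : lg_E L N →+* LaurentSeries L).comp
      (Polynomial.eval₂RingHom ((algebraMap O (lg_E L N)).comp ρO) (lgf_j2E L N))
      = Polynomial.eval₂RingHom ((HahnSeries.C : L →+* LaurentSeries L).comp
          ((algebraMap O L).comp ρO)) (lg_j2 L) := by
    refine Polynomial.ringHom_ext (fun r => ?_) ?_
    · simp only [RingHom.comp_apply, Polynomial.coe_eval₂RingHom, Polynomial.eval₂_C]
      rw [IsScalarTower.algebraMap_apply O L (lg_E L N), HahnSeries.C_apply,
        ← algebraMap_laurentSeries_eq_single]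
      rfl
    · simp only [RingHom.comp_apply, Polynomial.coe_eval₂RingHom, Polynomial.eval₂_X]
      rfl
  rw [h2] at h1
  have h3 : ((lg_E L N).val : lg_E L N →+* LaurentSeries L) (lgv_theta L N d)
      = lg_phi L (qExpand L d (jqModC L)) := lgv_theta_coe L N hd
  rw [h3, lgv_modEq_twist L d Φ h0 ((algebraMap O L).comp ρO)] at h1
  exact h1

/-- **(V) for the Legendre cover**: over an anharmonic coordinate `x` (`j' = cv_legJ x`), each
`θ_d = j(q^{2d})`, `d ∣ N`, `ℓ ∤ d`, is a good generator of `E`. -/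
theorem lgv_goodGen {O : Type*} [CommRing O] [IsLocalRing O] [Algebra O L] [Algebra O (lg_E L N)]
    [IsScalarTower O L (lg_E L N)] (ℓ : ℕ) [Fact ℓ.Prime]
    [CharP (IsLocalRing.ResidueField O) ℓ] (h2 : (2 : IsLocalRing.ResidueField O) ≠ 0)
    (ρO : ↥(GaloisRep.ratLocalizedAt ℓ) →+* O) (d : ℕ) (hd : d ∣ N) (hℓd : ¬ ℓ ∣ d)
    (x : lg_E L N) (hx : cv_legN x = lgf_j2E L N * cv_legD x) :
    mdl_GoodGen O x (lgv_theta L N d) := by
  have : NeZero d := ⟨ne_zero_of_dvd_ne_zero (NeZero.ne N) hd⟩
  obtain ⟨Φ, hm, h0, hind⟩ := lgv_Phi_exists d ℓ hℓd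
  refine lgv_goodGen_generic ρO Φ hm x (lgv_theta L N d) (lgf_j2E L N) (lgv_legA O) (lgv_legB O)
    (lgv_legB_monic O) ?_ (lgv_modEq_E d hd Φ h0 ρO) ?_ (lgv_separable d ℓ Φ hm h0 hind _)
  · rw [lgv_aeval_legA, lgv_aeval_legB]
    exact hx
  · rw [lgv_leg_quot]
    exact lgv_legj_transcendental _ h2

end Instance

section Generation

variable (L : Type*) [Field L] [CharZero L] (N : ℕ) [NeZero N]

open Classical in
/-- the finite set of generators `θ_d`, `d ∣ N`, of `E` over `L(λ)` -/
def lgv_S : Finset (lg_E L N) := (Nat.divisors N).image (lgv_theta L N)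

omit [CharZero L] in
theorem lgv_mem_S {θ : lg_E L N} : θ ∈ lgv_S L N ↔ ∃ d, d ∣ N ∧ lgv_theta L N d = θ := by
  classical
  rw [lgv_S, Finset.mem_image]
  constructor
  · rintro ⟨d, hd, rfl⟩
    exact ⟨d, (Nat.mem_divisors.mp hd).1, rfl⟩
  · rintro ⟨d, hd, rfl⟩
    exact ⟨d, Nat.mem_divisors.mpr ⟨hd, NeZero.ne N⟩, rfl⟩

/-- `E` is generated over `L` by the `θ_d` and `λ` -/
theorem lgv_adjoin_union :
    IntermediateField.adjoin L ((lgv_S L N : Set (lg_E L N)) ∪ {lg_lamE N}) = ⊤ := by
  apply IntermediateField.map_injective (lg_E L N).val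
  rw [IntermediateField.adjoin_map, ← AlgHom.fieldRange_eq_map, IntermediateField.fieldRange_val]
  conv_rhs => rw [lgf_E_eq_adjoin]
  congr 1
  ext z
  simp only [Set.mem_image, Set.mem_union, Finset.mem_coe, Set.mem_singleton_iff, lgf_gens]
  constructor
  · rintro ⟨w, hw | hw, rfl⟩
    · obtain ⟨d, hd, rfl⟩ := (lgv_mem_S L N).mp hw
      have : NeZero d := ⟨ne_zero_of_dvd_ne_zero (NeZero.ne N) hd⟩
      left
      exact ⟨qExpand L d (jqModC L), mem_divisorExpansionsC L N hd, (lgv_theta_coe L N hd).symm⟩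
    · right
      rw [hw]
      rfl
  · rintro (⟨w, ⟨d, hne, hd, rfl⟩, rfl⟩ | hz)
    · have := hne
      exact ⟨lgv_theta L N d, Or.inl ((lgv_mem_S L N).mpr ⟨d, hd, rfl⟩), lgv_theta_coe L N hd⟩
    · exact ⟨lg_lamE N, Or.inr rfl, hz.symm⟩

/-- **the `θ_d` generate `E` over any field `K` between `L` and `E` containing `λ`** -/
theorem lgv_adjoin_eq_top {K : Type*} [Field K] [Algebra L K] [Algebra K (lg_E L N)]
    [IsScalarTower L K (lg_E L N)] (hlam : lg_lamE N ∈ (algebraMap K (lg_E L N)).range) :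
    IntermediateField.adjoin K (lgv_S L N : Set (lg_E L N)) = ⊤ := by
  rw [eq_top_iff]
  intro z _
  have hz : z ∈ IntermediateField.adjoin L ((lgv_S L N : Set (lg_E L N)) ∪ {lg_lamE N}) := by
    rw [lgv_adjoin_union]
    exact IntermediateField.mem_top
  have hle : IntermediateField.adjoin L ((lgv_S L N : Set (lg_E L N)) ∪ {lg_lamE N})
      ≤ (IntermediateField.adjoin K (lgv_S L N : Set (lg_E L N))).restrictScalars L := by
    rw [IntermediateField.adjoin_le_iff]
    rintro w (hw | hw)
    · exact IntermediateField.subset_adjoin K _ hw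
    · rw [Set.mem_singleton_iff] at hw
      obtain ⟨c, hc⟩ := hlam
      rw [hw, ← hc]
      exact (IntermediateField.adjoin K (lgv_S L N : Set (lg_E L N))).algebraMap_mem c
  exact hle hz

end Generation

section Package

variable {L : Type*} [Field L] [CharZero L] {N : ℕ} [NeZero N]

omit [CharZero L] in
/-- **hypothesis (V) of `mdl_regAt` for the Legendre cover**, for the finite generating set
`lgv_S L N` and any anharmonic coordinate `x`. -/
theorem lgv_V {O : Type*} [CommRing O] [IsLocalRing O] [Algebra O L] [Algebra O (lg_E L N)]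
    [IsScalarTower O L (lg_E L N)] (ℓ : ℕ) [Fact ℓ.Prime]
    [CharP (IsLocalRing.ResidueField O) ℓ] (h2 : (2 : IsLocalRing.ResidueField O) ≠ 0)
    (hℓN : ¬ ℓ ∣ N) (ρO : ↥(GaloisRep.ratLocalizedAt ℓ) →+* O)
    (x : lg_E L N) (hx : cv_legN x = lgf_j2E L N * cv_legD x) :
    ∀ θ ∈ lgv_S L N, mdl_GoodGen O x θ := by
  intro θ hθ
  obtain ⟨d, hd, rfl⟩ := (lgv_mem_S L N).mp hθ
  exact lgv_goodGen ℓ h2 ρO d hd (fun h => hℓN (h.trans hd)) x hx

/-- a ring homomorphism `ℤ_(ℓ) → O` for a local ring `O` of residue characteristic `ℓ` inside a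
field of characteristic zero -/
theorem lgv_exists_rhoO {O : Type*} [CommRing O] [IsLocalRing O] [Algebra O L]
    (hinj : Function.Injective (algebraMap O L)) (ℓ : ℕ) [Fact ℓ.Prime]
    (hℓ : ((ℓ : ℕ) : O) ∈ IsLocalRing.maximalIdeal O) :
    Nonempty (↥(GaloisRep.ratLocalizedAt ℓ) →+* O) := by
  let f : ↥(GaloisRep.ratLocalizedAt ℓ) →+* L :=
    (Rat.castHom L).comp (GaloisRep.ratLocalizedAt ℓ).subtype
  have hmem : ∀ x : ↥(GaloisRep.ratLocalizedAt ℓ), f x ∈ (algebraMap O L).range := by
    intro x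
    have hcop : (x : ℚ).den.Coprime ℓ := x.2
    have hden : IsUnit (((x : ℚ).den : ℕ) : O) := by
      by_contra hnu
      have hdm : (((x : ℚ).den : ℕ) : O) ∈ IsLocalRing.maximalIdeal O :=
        (IsLocalRing.mem_maximalIdeal _).mpr hnu
      obtain ⟨u, v, huv⟩ := Nat.isCoprime_iff_coprime.mpr hcop
      have h1 : (1 : O) ∈ IsLocalRing.maximalIdeal O := by
        have : (1 : O) = (u : O) * (((x : ℚ).den : ℕ) : O) + (v : O) * ((ℓ : ℕ) : O) := by
          have := congrArg (Int.cast : ℤ → O) huv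
          push_cast at this
          exact this.symm
        rw [this]
        exact Ideal.add_mem _ (Ideal.mul_mem_left _ _ hdm) (Ideal.mul_mem_left _ _ hℓ)
      exact (Ideal.ne_top_iff_one _).mp (IsLocalRing.maximalIdeal.isMaximal O).ne_top h1
    obtain ⟨b, hb⟩ := hden.exists_right_inv
    refine ⟨(((x : ℚ).num : ℤ) : O) * b, ?_⟩
    have hd0 : (((x : ℚ).den : ℕ) : L) ≠ 0 := by exact_mod_cast (x : ℚ).den_ne_zero
    have hb' : (((x : ℚ).den : ℕ) : L) * algebraMap O L b = 1 := by
      have := congrArg (algebraMap O L) hb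
      rwa [map_mul, map_natCast, map_one] at this
    have hfx : f x = (((x : ℚ).num : ℤ) : L) / (((x : ℚ).den : ℕ) : L) := by
      show ((x : ℚ) : L) = _
      exact Rat.cast_def _
    rw [map_mul, map_intCast, hfx, eq_div_iff hd0, mul_assoc, mul_comm (algebraMap O L b), hb',
      mul_one]
  let e : O ≃+* (algebraMap O L).range := RingEquiv.ofLeftInverse
    (g := fun y => (Function.invFun (algebraMap O L)) y) (Function.leftInverse_invFun hinj)
  exact ⟨(e.symm : (algebraMap O L).range →+* O).comp (f.codRestrict (algebraMap O L).range hmem)⟩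

end Package

end Fermat.Agent.JT3
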