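/-
JT3 / Route R (S18), instance layer: the regularity (`jt_RegAt`) of the two standard charts of the
Legendre model, from the generic model theorem `mdl_regAt` (helper15) applied with
`(K, E, x, C) = (L(λ), φ(F_N)(λ), λ resp. λ⁻¹, {0, 1})`, the vertical hypothesis (V) from
`Inst/Vert.lean` (helper16), and the ramification hypotheses (H), (T) in the explicit form
`lg_RamHyp`.
-/
import Mathlib
import Fermat.Agent.JT3.Model.Generic
import Fermat.Agent.JT3.Inst.Reg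
import Fermat.Agent.JT3.Inst.Vert
import Fermat.Agent.JT3.Inst.Final

set_option autoImplicit false

noncomputable section

open Polynomial IntermediateField ModularCurve

namespace Fermat.Agent.JT3

section Inst

theorem lg_charP_residue {O : Type*} [CommRing O] [IsLocalRing O] {ℓ : ℕ} [hℓ : Fact ℓ.Prime]
    (h : ((ℓ : ℕ) : O) ∈ IsLocalRing.maximalIdeal O) : CharP (IsLocalRing.ResidueField O) ℓ := by
  have h0 : ((ℓ : ℕ) : IsLocalRing.ResidueField O) = 0 := by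
    have h3 := (IsLocalRing.residue_eq_zero_iff ((ℓ : ℕ) : O)).mpr h
    rwa [map_natCast] at h3
  obtain ⟨c, hc⟩ := CharP.exists (IsLocalRing.ResidueField O)
  have hdvd : c ∣ ℓ := (CharP.cast_eq_zero_iff (IsLocalRing.ResidueField O) c ℓ).mp h0
  rcases (Nat.dvd_prime hℓ.out).mp hdvd with h1 | h1
  · exact absurd h1 (CharP.char_ne_one (IsLocalRing.ResidueField O) c)
  · rwa [h1] at hc

variable {L : Type*} [Field L] [CharZero L] (O : ValuationSubring L) [IsDiscreteValuationRing O]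
  (N : ℕ) [NeZero N]

attribute [local instance] lgh_algKE

/-- the hypotheses `hH`, `hT` of `mdl_regAt` for `(K, E, x, C) = (L(λ), E, x, {0, 1})`, in
explicit form. -/
structure lg_RamHyp (x : lg_K L) : Prop where
  hH : ∀ (V2 : Subring (lg_K L)) [IsDiscreteValuationRing V2] [IsFractionRing V2 (lg_K L)],
      (∀ a : L, algebraMap L (lg_K L) a ∈ V2) → x ∈ V2 → x⁻¹ ∈ V2 → (x - 1)⁻¹ ∈ V2 →
      jt_UnramAt V2 (lg_E L N)
  hT0 : ∀ (V2 : Subring (lg_K L)) [IsDiscreteValuationRing V2] [IsFractionRing V2 (lg_K L)],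
      (∀ a : L, algebraMap L (lg_K L) a ∈ V2) → x ∈ V2 → x⁻¹ ∉ V2 →
      ∀ (P : Ideal (integralClosure V2 (lg_E L N))) [P.IsPrime], P ≠ ⊥ →
        P.ramificationIdx V2 ∣ N
  hT1 : ∀ (V2 : Subring (lg_K L)) [IsDiscreteValuationRing V2] [IsFractionRing V2 (lg_K L)],
      (∀ a : L, algebraMap L (lg_K L) a ∈ V2) → x ∈ V2 → (x - 1)⁻¹ ∉ V2 →
      ∀ (P : Ideal (integralClosure V2 (lg_E L N))) [P.IsPrime], P ≠ ⊥ →
        P.ramificationIdx V2 ∣ N

theorem lg_regAt_apply {π : O} (hπ : Irreducible π) (ℓ : ℕ) [Fact ℓ.Prime]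
    (hℓ : ((ℓ : ℕ) : O) ∈ IsLocalRing.maximalIdeal O) (hℓ2 : ℓ ≠ 2) (hℓN : ¬ ℓ ∣ N)
    (ζ : L) (hζ : IsPrimitiveRoot ζ N)
    (x : lg_K L) (hx : Transcendental L x) (hgenK : IntermediateField.adjoin L {x} = ⊤)
    (hrel : cv_legN (algebraMap (lg_K L) (lg_E L N) x)
      = lgf_j2E L N * cv_legD (algebraMap (lg_K L) (lg_E L N) x))
    (hram : lg_RamHyp N x) :
    jt_RegAt (fc_chart O ({algebraMap (lg_K L) (lg_E L N) x} : Set (lg_E L N)))
      (algebraMap O (fc_chart O ({algebraMap (lg_K L) (lg_E L N) x} : Set (lg_E L N))) π) := by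
  classical
  have hℓp : ℓ.Prime := Fact.out
  have hN : IsUnit ((N : ℕ) : O) :=
    lg_isUnit_natCast hℓ ((Nat.Coprime.symm ((Nat.Prime.coprime_iff_not_dvd hℓp).2 hℓN)))
  have h2 : IsUnit ((2 : ℕ) : O) :=
    lg_isUnit_natCast hℓ ((Nat.coprime_primes Nat.prime_two hℓp).2 (Ne.symm hℓ2))
  haveI : CharP (IsLocalRing.ResidueField O) ℓ := lg_charP_residue hℓ
  have h2k : (2 : IsLocalRing.ResidueField O) ≠ 0 := by
    have := ((IsLocalRing.residue O).isUnit_map h2).ne_zero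
    rwa [map_natCast, Nat.cast_ofNat] at this
  obtain ⟨ρO⟩ := lgv_exists_rhoO (L := L) (O := O) (fun a b hab => Subtype.ext hab) ℓ hℓ
  have hC : ∀ c ∈ ({0, 1} : Finset O), ∀ c' ∈ ({0, 1} : Finset O), c ≠ c' → IsUnit (c - c') := by
    intro c hc c' hc' hne
    simp only [Finset.mem_insert, Finset.mem_singleton] at hc hc'
    rcases hc with rfl | rfl <;> rcases hc' with rfl | rfl
    · exact absurd rfl hne
    · simp
    · simp
    · exact absurd rfl hne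
  refine mdl_regAt hπ x hx hgenK N hN ζ hζ {0, 1} hC (lgv_S L N) ?_ ?_ ?_ ?_
  · exact lgv_adjoin_eq_top L N ⟨lgh_lamK L, rfl⟩
  · exact lgv_V ℓ h2k hℓN ρO _ hrel
  · intro V2 _ _ hL hxV hc
    refine hram.hH V2 hL hxV ?_ ?_
    · have := hc 0 (by simp)
      rwa [map_zero, sub_zero] at this
    · have := hc 1 (by simp)
      rwa [map_one] at this
  · intro c hc V2 _ _ hL hxV hcV
    simp only [Finset.mem_insert, Finset.mem_singleton] at hc
    rcases hc with rfl | rfl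
    · rw [map_zero, sub_zero] at hcV
      exact hram.hT0 V2 hL hxV hcV
    · rw [map_one] at hcV
      exact hram.hT1 V2 hL hxV hcV


theorem lg_rel_lamE : cv_legN (lg_lamE N : lg_E L N) = lgf_j2E L N * cv_legD (lg_lamE N) := by
  have h := lgf_legendreE L N
  unfold cv_legN cv_legD
  rw [h]; ring

theorem lg_regAt_lam {π : O} (hπ : Irreducible π) (ℓ : ℕ) [Fact ℓ.Prime]
    (hℓ : ((ℓ : ℕ) : O) ∈ IsLocalRing.maximalIdeal O) (hℓ2 : ℓ ≠ 2) (hℓN : ¬ ℓ ∣ N)
    (ζ : L) (hζ : IsPrimitiveRoot ζ N) (hram : lg_RamHyp N (lgh_lamK L)) :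
    jt_RegAt (fc_chart O ({lg_lamE N} : Set (lg_E L N)))
      (algebraMap O (fc_chart O ({lg_lamE N} : Set (lg_E L N))) π) :=
  lg_regAt_apply O N hπ ℓ hℓ hℓ2 hℓN ζ hζ (lgh_lamK L) (lg_lamK_transcendental L)
    (lgh_adjoin_lamK L) (lg_rel_lamE N) hram

theorem lg_regAt_lam_inv {π : O} (hπ : Irreducible π) (ℓ : ℕ) [Fact ℓ.Prime]
    (hℓ : ((ℓ : ℕ) : O) ∈ IsLocalRing.maximalIdeal O) (hℓ2 : ℓ ≠ 2) (hℓN : ¬ ℓ ∣ N)
    (ζ : L) (hζ : IsPrimitiveRoot ζ N) (hram : lg_RamHyp N (lgh_lamK L)⁻¹) :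
    jt_RegAt (fc_chart O ({(lg_lamE N)⁻¹} : Set (lg_E L N)))
      (algebraMap O (fc_chart O ({(lg_lamE N)⁻¹} : Set (lg_E L N))) π) := by
  have h0 : (lg_lamE N : lg_E L N) ≠ 0 := fun h =>
    lgf_lam_transcendental L N two_ne_zero (h ▸ isAlgebraic_zero)
  have hrel : cv_legN (algebraMap (lg_K L) (lg_E L N) (lgh_lamK L)⁻¹)
      = lgf_j2E L N * cv_legD (algebraMap (lg_K L) (lg_E L N) (lgh_lamK L)⁻¹) := by
    rw [lg_algebraMap_lamK_inv]
    exact cv_leg_rel_inv h0 (lg_rel_lamE N)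
  have := lg_regAt_apply O N hπ ℓ hℓ hℓ2 hℓN ζ hζ (lgh_lamK L)⁻¹ (lg_lamK_inv_transcendental L)
    (lg_adjoin_lamK_inv L) hrel hram
  rwa [lg_algebraMap_lamK_inv] at this

end Inst

end Fermat.Agent.JT3
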