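/-
JT3 / Route R (S18), instance layer, Hesse cover: the regularity (`jt_RegAt`) of the two standard
charts of the Hesse model, from the generic model theorem `mdl_regAt` (helper15) applied with
`(K, E, x, C) = (L(μ), φ(F_N)(μ), μ, {1, ω, ω²})` resp. `(…, μ⁻¹, {0, 1, ω, ω²})`, with the
ramification hypotheses (H), (T) in the explicit forms `hs_RamHyp3`, `hs_RamHyp4`.
-/
import Mathlib
import Fermat.Agent.JT3.Inst.RegApply
import Fermat.Agent.JT3.Inst.HesseReg
import Fermat.Agent.JT3.Inst.HesseFinal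

set_option autoImplicit false

noncomputable section

open Polynomial IntermediateField ModularCurve

namespace Fermat.Agent.JT3

section HInst

variable {L : Type*} [Field L] [CharZero L] (h3 : (3 : L) ≠ 0) (O : ValuationSubring L)
  [IsDiscreteValuationRing O] (N : ℕ) [NeZero N]

attribute [local instance] hsh_algKE

/-- the hypotheses `hH`, `hT` of `mdl_regAt` for `(K, E, x, C) = (L(μ), E, x, {1, ω, ω²})`, in
explicit form. -/
structure hs_RamHyp3 (x : hs_K L h3) (ω : L) : Prop where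
  hH : ∀ (V2 : Subring (hs_K L h3)) [IsDiscreteValuationRing V2] [IsFractionRing V2 (hs_K L h3)],
      (∀ a : L, algebraMap L (hs_K L h3) a ∈ V2) → x ∈ V2 → (x - 1)⁻¹ ∈ V2 →
      (x - algebraMap L (hs_K L h3) ω)⁻¹ ∈ V2 → (x - algebraMap L (hs_K L h3) (ω ^ 2))⁻¹ ∈ V2 →
      jt_UnramAt V2 (hs_E L h3 N)
  hT : ∀ c : L, c ^ 3 = 1 → ∀ (V2 : Subring (hs_K L h3)) [IsDiscreteValuationRing V2]
      [IsFractionRing V2 (hs_K L h3)],
      (∀ a : L, algebraMap L (hs_K L h3) a ∈ V2) → x ∈ V2 →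
      (x - algebraMap L (hs_K L h3) c)⁻¹ ∉ V2 →
      ∀ (P : Ideal (integralClosure V2 (hs_E L h3 N))) [P.IsPrime], P ≠ ⊥ →
        P.ramificationIdx V2 ∣ N

/-- the same at the chart at infinity: `C = {0, 1, ω, ω²}`. -/
structure hs_RamHyp4 (x : hs_K L h3) (ω : L) : Prop where
  hH : ∀ (V2 : Subring (hs_K L h3)) [IsDiscreteValuationRing V2] [IsFractionRing V2 (hs_K L h3)],
      (∀ a : L, algebraMap L (hs_K L h3) a ∈ V2) → x ∈ V2 → x⁻¹ ∈ V2 → (x - 1)⁻¹ ∈ V2 →
      (x - algebraMap L (hs_K L h3) ω)⁻¹ ∈ V2 → (x - algebraMap L (hs_K L h3) (ω ^ 2))⁻¹ ∈ V2 →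
      jt_UnramAt V2 (hs_E L h3 N)
  hT0 : ∀ (V2 : Subring (hs_K L h3)) [IsDiscreteValuationRing V2]
      [IsFractionRing V2 (hs_K L h3)],
      (∀ a : L, algebraMap L (hs_K L h3) a ∈ V2) → x ∈ V2 → x⁻¹ ∉ V2 →
      ∀ (P : Ideal (integralClosure V2 (hs_E L h3 N))) [P.IsPrime], P ≠ ⊥ →
        P.ramificationIdx V2 ∣ N
  hT : ∀ c : L, c ^ 3 = 1 → ∀ (V2 : Subring (hs_K L h3)) [IsDiscreteValuationRing V2]
      [IsFractionRing V2 (hs_K L h3)],
      (∀ a : L, algebraMap L (hs_K L h3) a ∈ V2) → x ∈ V2 →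
      (x - algebraMap L (hs_K L h3) c)⁻¹ ∉ V2 →
      ∀ (P : Ideal (integralClosure V2 (hs_E L h3 N))) [P.IsPrime], P ≠ ⊥ →
        P.ramificationIdx V2 ∣ N

variable {O}

/-- a cube root of unity `ω ≠ 1` and its square have unit differences when `3` is a unit. -/
theorem hs_cube_units (h3O : IsUnit (3 : O)) (ω : O) (hω : ω ^ 2 + ω + 1 = 0) :
    IsUnit (1 - ω) ∧ IsUnit (1 - ω ^ 2) ∧ IsUnit (ω - ω ^ 2) ∧ IsUnit ω := by
  have h1 : (1 - ω) * (1 - ω ^ 2) = 3 := by
    have : ω ^ 3 = 1 := by linear_combination (ω - 1) * hω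
    linear_combination (-1 : ↥O) * hω + this
  have hu : IsUnit ((1 - ω) * (1 - ω ^ 2)) := by rw [h1]; exact h3O
  have hω1 : IsUnit ω := by
    refine IsUnit.of_mul_eq_one (-(ω + 1)) ?_
    linear_combination -hω
  refine ⟨(IsUnit.mul_iff.1 hu).1, (IsUnit.mul_iff.1 hu).2, ?_, hω1⟩
  have : ω - ω ^ 2 = ω * (1 - ω) := by ring
  rw [this]
  exact hω1.mul (IsUnit.mul_iff.1 hu).1


theorem hs_isUnit_sub_comm {R : Type*} [Ring R] {a b : R} (h : IsUnit (a - b)) : IsUnit (b - a) := by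
  have : b - a = -(a - b) := by abel
  rw [this]; exact h.neg

variable (O) in
theorem hs_algebraMap_O_K (c : O) :
    algebraMap O (hs_K L h3) c = algebraMap L (hs_K L h3) (c : L) := rfl

theorem hs_regAt_apply3 {π : O} (hπ : Irreducible π) (ℓ : ℕ) [Fact ℓ.Prime]
    (hℓ : ((ℓ : ℕ) : O) ∈ IsLocalRing.maximalIdeal O) (hℓ3 : ℓ ≠ 3) (hℓN : ¬ ℓ ∣ N)
    (ζ : L) (hζ : IsPrimitiveRoot ζ N) (ω : O) (hω : ω ^ 2 + ω + 1 = 0)
    (x : hs_K L h3) (hx : Transcendental L x) (hgenK : IntermediateField.adjoin L {x} = ⊤)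
    (S : Finset (hs_E L h3 N))
    (hS : IntermediateField.adjoin (hs_K L h3) (S : Set (hs_E L h3 N)) = ⊤)
    (hV : ∀ θ ∈ S, mdl_GoodGen O (algebraMap (hs_K L h3) (hs_E L h3 N) x) θ)
    (hram : hs_RamHyp3 h3 N x (ω : L)) :
    jt_RegAt (fc_chart O ({algebraMap (hs_K L h3) (hs_E L h3 N) x} : Set (hs_E L h3 N)))
      (algebraMap O (fc_chart O ({algebraMap (hs_K L h3) (hs_E L h3 N) x} : Set (hs_E L h3 N)))
        π) := by
  classical
  have hℓp : ℓ.Prime := Fact.out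
  have hN : IsUnit ((N : ℕ) : O) :=
    lg_isUnit_natCast hℓ ((Nat.Coprime.symm ((Nat.Prime.coprime_iff_not_dvd hℓp).2 hℓN)))
  have h3O : IsUnit (3 : O) := by
    have := lg_isUnit_natCast hℓ (m := 3)
      ((Nat.coprime_primes Nat.prime_three hℓp).2 (Ne.symm hℓ3))
    simpa using this
  obtain ⟨u1, u2, u3, -⟩ := hs_cube_units h3O ω hω
  have hω3 : ω ^ 3 = 1 := by linear_combination (ω - 1) * hω
  have hC : ∀ c ∈ ({1, ω, ω ^ 2} : Finset O), ∀ c' ∈ ({1, ω, ω ^ 2} : Finset O), c ≠ c' →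
      IsUnit (c - c') := by
    intro c hc c' hc' hne
    simp only [Finset.mem_insert, Finset.mem_singleton] at hc hc'
    rcases hc with rfl | rfl | rfl <;> rcases hc' with rfl | rfl | rfl
    · exact absurd rfl hne
    · exact u1
    · exact u2
    · exact hs_isUnit_sub_comm u1
    · exact absurd rfl hne
    · exact u3
    · exact hs_isUnit_sub_comm u2
    · exact hs_isUnit_sub_comm u3
    · exact absurd rfl hne
  refine mdl_regAt hπ x hx hgenK N hN ζ hζ {1, ω, ω ^ 2} hC S hS hV ?_ ?_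
  · intro V2 _ _ hL hxV hc
    refine hram.hH V2 hL hxV ?_ ?_ ?_
    · have := hc 1 (by simp)
      rwa [map_one] at this
    · exact hc ω (by simp)
    · have := hc (ω ^ 2) (by simp)
      rwa [hs_algebraMap_O_K] at this
  · intro c hc V2 _ _ hL hxV hcV
    refine hram.hT (c : L) ?_ V2 hL hxV hcV
    simp only [Finset.mem_insert, Finset.mem_singleton] at hc
    rcases hc with rfl | rfl | rfl
    · simp
    · exact_mod_cast congrArg (fun z : O => (z : L)) hω3
    · have : (ω ^ 2) ^ 3 = (ω ^ 3) ^ 2 := by ring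
      have h2 : (ω ^ 2) ^ 3 = (1 : O) := by rw [this, hω3]; ring
      exact_mod_cast congrArg (fun z : O => (z : L)) h2

theorem hs_regAt_apply4 {π : O} (hπ : Irreducible π) (ℓ : ℕ) [Fact ℓ.Prime]
    (hℓ : ((ℓ : ℕ) : O) ∈ IsLocalRing.maximalIdeal O) (hℓ3 : ℓ ≠ 3) (hℓN : ¬ ℓ ∣ N)
    (ζ : L) (hζ : IsPrimitiveRoot ζ N) (ω : O) (hω : ω ^ 2 + ω + 1 = 0)
    (x : hs_K L h3) (hx : Transcendental L x) (hgenK : IntermediateField.adjoin L {x} = ⊤)
    (S : Finset (hs_E L h3 N))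
    (hS : IntermediateField.adjoin (hs_K L h3) (S : Set (hs_E L h3 N)) = ⊤)
    (hV : ∀ θ ∈ S, mdl_GoodGen O (algebraMap (hs_K L h3) (hs_E L h3 N) x) θ)
    (hram : hs_RamHyp4 h3 N x (ω : L)) :
    jt_RegAt (fc_chart O ({algebraMap (hs_K L h3) (hs_E L h3 N) x} : Set (hs_E L h3 N)))
      (algebraMap O (fc_chart O ({algebraMap (hs_K L h3) (hs_E L h3 N) x} : Set (hs_E L h3 N)))
        π) := by
  classical
  have hℓp : ℓ.Prime := Fact.out
  have hN : IsUnit ((N : ℕ) : O) :=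
    lg_isUnit_natCast hℓ ((Nat.Coprime.symm ((Nat.Prime.coprime_iff_not_dvd hℓp).2 hℓN)))
  have h3O : IsUnit (3 : O) := by
    have := lg_isUnit_natCast hℓ (m := 3)
      ((Nat.coprime_primes Nat.prime_three hℓp).2 (Ne.symm hℓ3))
    simpa using this
  obtain ⟨u1, u2, u3, u4⟩ := hs_cube_units h3O ω hω
  have hω3 : ω ^ 3 = 1 := by linear_combination (ω - 1) * hω
  have u5 : IsUnit (ω ^ 2) := u4.pow 2
  have hC : ∀ c ∈ ({0, 1, ω, ω ^ 2} : Finset O), ∀ c' ∈ ({0, 1, ω, ω ^ 2} : Finset O), c ≠ c' →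
      IsUnit (c - c') := by
    intro c hc c' hc' hne
    simp only [Finset.mem_insert, Finset.mem_singleton] at hc hc'
    rcases hc with rfl | rfl | rfl | rfl <;> rcases hc' with rfl | rfl | rfl | rfl
    · exact absurd rfl hne
    · simp
    · rw [zero_sub]; exact u4.neg
    · rw [zero_sub]; exact u5.neg
    · simp
    · exact absurd rfl hne
    · exact u1
    · exact u2
    · rw [sub_zero]; exact u4
    · exact hs_isUnit_sub_comm u1
    · exact absurd rfl hne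
    · exact u3
    · rw [sub_zero]; exact u5
    · exact hs_isUnit_sub_comm u2
    · exact hs_isUnit_sub_comm u3
    · exact absurd rfl hne
  refine mdl_regAt hπ x hx hgenK N hN ζ hζ {0, 1, ω, ω ^ 2} hC S hS hV ?_ ?_
  · intro V2 _ _ hL hxV hc
    refine hram.hH V2 hL hxV ?_ ?_ ?_ ?_
    · have := hc 0 (by simp)
      rwa [map_zero, sub_zero] at this
    · have := hc 1 (by simp)
      rwa [map_one] at this
    · exact hc ω (by simp)
    · have := hc (ω ^ 2) (by simp)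
      rwa [hs_algebraMap_O_K] at this
  · intro c hc V2 _ _ hL hxV hcV
    simp only [Finset.mem_insert, Finset.mem_singleton] at hc
    rcases hc with rfl | hc
    · rw [map_zero, sub_zero] at hcV
      exact hram.hT0 V2 hL hxV hcV
    refine hram.hT (c : L) ?_ V2 hL hxV hcV
    rcases hc with rfl | rfl | rfl
    · simp
    · exact_mod_cast congrArg (fun z : O => (z : L)) hω3
    · have : (ω ^ 2) ^ 3 = (ω ^ 3) ^ 2 := by ring
      have h2 : (ω ^ 2) ^ 3 = (1 : O) := by rw [this, hω3]; ring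
      exact_mod_cast congrArg (fun z : O => (z : L)) h2

end HInst

end Fermat.Agent.JT3
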