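/-
JT3 / Route R (S18), instance layer, Hesse cover, leaf [HES-RAM], WRAPPER half (prefix `hsrw_`).

The two explicit ramification packages `hs_RamHyp3 h3 N μ ω` (chart `μ`, cusps `1, ω, ω²`) and
`hs_RamHyp4 h3 N μ⁻¹ ω` (chart `μ⁻¹`, cusps `0, 1, ω, ω²`) consumed by `hs_S18_of_ram`, deduced
from three CORE statements in `μ`-vocabulary:

* `(cH)`    `μ ∈ V2`, `(μ³ - 1)⁻¹ ∈ V2`   ⟹ `E / L(μ)` unramified at `V2`;
* `(cT)`    `μ ∈ V2`, `(μ³ - 1)⁻¹ ∉ V2`   ⟹ ramification indices over `V2` divide `N`;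
* `(cTinf)` `μ ∉ V2`                       ⟹ ramification indices over `V2` divide `N`.

Everything here is bookkeeping in a valuation ring `V2` of a field.
-/
import Mathlib
import Fermat.Agent.JT3.Inst.HesseRegApply

set_option autoImplicit false

noncomputable section

open Polynomial IntermediateField

namespace Fermat.Agent.JT3

section Generic

variable {K : Type*} [Field K] (V : Subring K)

/-- a discrete valuation subring with fraction field `K` is a valuation ring of `K`. -/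
theorem hsrw_hval [IsDiscreteValuationRing V] [IsFractionRing V K] (y : K) :
    y ∈ V ∨ y⁻¹ ∈ V := by
  rcases ValuationRing.isInteger_or_isInteger V y with ⟨b, hb⟩ | ⟨b, hb⟩
  · left; rw [← hb]; exact b.2
  · right; rw [← hb]; exact b.2

variable {V}

theorem hsrw_ne_zero_of_inv_not_mem {y : K} (h : y⁻¹ ∉ V) : y ≠ 0 := by
  rintro rfl
  apply h
  rw [inv_zero]
  exact V.zero_mem

/-- `y ∈ 𝔪 ∖ {0}`, `z ∈ V ∖ {0}` ⟹ `y z ∈ 𝔪 ∖ {0}`. -/
theorem hsrw_mul_inv_not_mem {y z : K} (hy : y⁻¹ ∉ V) (hz : z ∈ V) (hz0 : z ≠ 0) :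
    (y * z)⁻¹ ∉ V := by
  intro h
  apply hy
  have : y⁻¹ = (y * z)⁻¹ * z := by
    rw [mul_inv, mul_assoc, inv_mul_cancel₀ hz0, mul_one]
  rw [this]
  exact V.mul_mem h hz

theorem hsrw_neg_inv_not_mem {y : K} (hy : y⁻¹ ∉ V) : (-y)⁻¹ ∉ V := by
  intro h
  apply hy
  have : y⁻¹ = -(-y)⁻¹ := by rw [inv_neg, neg_neg]
  rw [this]
  exact V.neg_mem h

/-- the (nonzero) difference of two elements of `𝔪 ∖ {0}` is in `𝔪 ∖ {0}`. -/
theorem hsrw_sub_inv_not_mem (hval : ∀ y : K, y ∈ V ∨ y⁻¹ ∈ V) {a b : K} (ha : a⁻¹ ∉ V)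
    (hb : b⁻¹ ∉ V) (hab : a - b ≠ 0) : (a - b)⁻¹ ∉ V := by
  have ha0 : a ≠ 0 := hsrw_ne_zero_of_inv_not_mem ha
  have hb0 : b ≠ 0 := hsrw_ne_zero_of_inv_not_mem hb
  intro h
  rcases hval (b / a) with h1 | h1
  · apply ha
    have h2 : 1 - b / a = (a - b) / a := by field_simp
    have : a⁻¹ = (a - b)⁻¹ * (1 - b / a) := by
      rw [h2, ← mul_div_assoc, inv_mul_cancel₀ hab, one_div]
    rw [this]
    exact V.mul_mem h (V.sub_mem V.one_mem h1)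
  · apply hb
    have h1' : a / b ∈ V := by
      have : a / b = (b / a)⁻¹ := by rw [inv_div]
      rw [this]; exact h1
    have h2 : a / b - 1 = (a - b) / b := by field_simp
    have : b⁻¹ = (a - b)⁻¹ * (a / b - 1) := by
      rw [h2, ← mul_div_assoc, inv_mul_cancel₀ hab, one_div]
    rw [this]
    exact V.mul_mem h (V.sub_mem h1' V.one_mem)

/-- `x ≠ 1, w, w²` (as places) ⟹ `x³ - 1` is a unit. -/
theorem hsrw_cube_inv_mem {x w : K} (hw : w ^ 2 + w + 1 = 0) (h1 : (x - 1)⁻¹ ∈ V)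
    (h2 : (x - w)⁻¹ ∈ V) (h3 : (x - w ^ 2)⁻¹ ∈ V) : (x ^ 3 - 1)⁻¹ ∈ V := by
  have hfac : x ^ 3 - 1 = (x - 1) * ((x - w) * (x - w ^ 2)) := by
    linear_combination ((x - 1) * (x + 1 - w)) * hw
  rw [hfac, mul_inv, mul_inv]
  exact V.mul_mem h1 (V.mul_mem h2 h3)

/-- `x = c` (as a place), `c³ = 1` ⟹ `x³ - 1 ∈ 𝔪 ∖ {0}`. -/
theorem hsrw_cube_inv_not_mem {x c : K} (hx : x ∈ V) (hc : c ∈ V) (hc3 : c ^ 3 = 1)
    (hx3 : x ^ 3 ≠ 1) (h : (x - c)⁻¹ ∉ V) : (x ^ 3 - 1)⁻¹ ∉ V := by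
  have hfac : x ^ 3 - 1 = (x - c) * (x ^ 2 + x * c + c ^ 2) := by
    linear_combination hc3
  have hz : x ^ 2 + x * c + c ^ 2 ∈ V :=
    V.add_mem (V.add_mem (V.pow_mem hx 2) (V.mul_mem hx hc)) (V.pow_mem hc 2)
  have hz0 : x ^ 2 + x * c + c ^ 2 ≠ 0 := by
    intro h0
    apply hx3
    have : x ^ 3 - 1 = 0 := by rw [hfac, h0, mul_zero]
    exact sub_eq_zero.1 this
  rw [hfac]
  exact hsrw_mul_inv_not_mem h hz hz0

theorem hsrw_inv_cube_eq {m : K} (hm0 : m ≠ 0) :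
    m ^ 3 - 1 = -(((m⁻¹) ^ 3 - 1) * m ^ 3) := by
  field_simp
  ring

/-- from the chart `ν = m⁻¹` to the chart `m`: units. -/
theorem hsrw_inv_cube_inv_mem {m : K} (hm0 : m ≠ 0) (hn : m⁻¹ ∈ V)
    (h : ((m⁻¹) ^ 3 - 1)⁻¹ ∈ V) : (m ^ 3 - 1)⁻¹ ∈ V := by
  rw [hsrw_inv_cube_eq hm0, inv_neg, mul_inv, ← inv_pow]
  exact V.neg_mem (V.mul_mem h (V.pow_mem hn 3))

/-- from the chart `ν = m⁻¹` to the chart `m`: non-units. -/
theorem hsrw_inv_cube_inv_not_mem {m : K} (hm0 : m ≠ 0) (hm : m ∈ V)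
    (h : ((m⁻¹) ^ 3 - 1)⁻¹ ∉ V) : (m ^ 3 - 1)⁻¹ ∉ V := by
  rw [hsrw_inv_cube_eq hm0]
  exact hsrw_neg_inv_not_mem (hsrw_mul_inv_not_mem h (V.pow_mem hm 3) (pow_ne_zero 3 hm0))

end Generic

section Inst

variable {L : Type*} [Field L] [CharZero L] (h3 : (3 : L) ≠ 0) (N : ℕ) [NeZero N]

attribute [local instance] hsh_algKE

theorem hsrw_mu_ne_zero : hsh_muK L h3 ≠ 0 := by
  intro h
  apply hs_muK_transcendental L h3
  rw [h]
  exact isAlgebraic_zero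

theorem hsrw_mu_cube_ne_one : (hsh_muK L h3) ^ 3 ≠ 1 := by
  intro h
  apply hs_muK_transcendental L h3
  refine ⟨X ^ 3 - C 1, (monic_X_pow_sub_C (1 : L) (by norm_num)).ne_zero, ?_⟩
  simp [h]

theorem hsrw_nu_cube_ne_one : ((hsh_muK L h3)⁻¹) ^ 3 ≠ 1 := by
  rw [inv_pow, Ne, inv_eq_one]
  exact hsrw_mu_cube_ne_one h3

/-- **chart `μ`**: `hs_RamHyp3` from the cores `(cH)`, `(cT)`. -/
theorem hsrw_ramHyp3 (ω : L) (hω : ω ^ 2 + ω + 1 = 0)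
    (cH : ∀ (V2 : Subring (hs_K L h3)) [IsDiscreteValuationRing V2]
      [IsFractionRing V2 (hs_K L h3)], (∀ a : L, algebraMap L (hs_K L h3) a ∈ V2) →
      hsh_muK L h3 ∈ V2 → ((hsh_muK L h3) ^ 3 - 1)⁻¹ ∈ V2 → jt_UnramAt V2 (hs_E L h3 N))
    (cT : ∀ (V2 : Subring (hs_K L h3)) [IsDiscreteValuationRing V2]
      [IsFractionRing V2 (hs_K L h3)], (∀ a : L, algebraMap L (hs_K L h3) a ∈ V2) →
      hsh_muK L h3 ∈ V2 → ((hsh_muK L h3) ^ 3 - 1)⁻¹ ∉ V2 →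
      ∀ (P : Ideal (integralClosure V2 (hs_E L h3 N))) [P.IsPrime], P ≠ ⊥ →
        P.ramificationIdx V2 ∣ N) :
    hs_RamHyp3 h3 N (hsh_muK L h3) ω := by
  have hω' : (algebraMap L (hs_K L h3) ω) ^ 2 + algebraMap L (hs_K L h3) ω + 1 = 0 := by
    rw [← map_pow, ← map_add, ← map_one (algebraMap L (hs_K L h3)), ← map_add, hω, map_zero]
  constructor
  · intro V2 _ _ hL hx h1 h2 h3'
    refine cH V2 hL hx ?_
    refine hsrw_cube_inv_mem hω' h1 h2 ?_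
    rwa [map_pow] at h3'
  · intro c hc V2 _ _ hL hx hxc P _ hP
    refine cT V2 hL hx ?_ P hP
    refine hsrw_cube_inv_not_mem hx (hL c) ?_ (hsrw_mu_cube_ne_one h3) hxc
    rw [← map_pow, hc, map_one]

/-- **chart `μ⁻¹`**: `hs_RamHyp4` from the cores `(cH)`, `(cT)`, `(cTinf)`. -/
theorem hsrw_ramHyp4 (ω : L) (hω : ω ^ 2 + ω + 1 = 0)
    (cH : ∀ (V2 : Subring (hs_K L h3)) [IsDiscreteValuationRing V2]
      [IsFractionRing V2 (hs_K L h3)], (∀ a : L, algebraMap L (hs_K L h3) a ∈ V2) →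
      hsh_muK L h3 ∈ V2 → ((hsh_muK L h3) ^ 3 - 1)⁻¹ ∈ V2 → jt_UnramAt V2 (hs_E L h3 N))
    (cT : ∀ (V2 : Subring (hs_K L h3)) [IsDiscreteValuationRing V2]
      [IsFractionRing V2 (hs_K L h3)], (∀ a : L, algebraMap L (hs_K L h3) a ∈ V2) →
      hsh_muK L h3 ∈ V2 → ((hsh_muK L h3) ^ 3 - 1)⁻¹ ∉ V2 →
      ∀ (P : Ideal (integralClosure V2 (hs_E L h3 N))) [P.IsPrime], P ≠ ⊥ →
        P.ramificationIdx V2 ∣ N)
    (cTinf : ∀ (V2 : Subring (hs_K L h3)) [IsDiscreteValuationRing V2]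
      [IsFractionRing V2 (hs_K L h3)], (∀ a : L, algebraMap L (hs_K L h3) a ∈ V2) →
      hsh_muK L h3 ∉ V2 →
      ∀ (P : Ideal (integralClosure V2 (hs_E L h3 N))) [P.IsPrime], P ≠ ⊥ →
        P.ramificationIdx V2 ∣ N) :
    hs_RamHyp4 h3 N (hsh_muK L h3)⁻¹ ω := by
  have hω' : (algebraMap L (hs_K L h3) ω) ^ 2 + algebraMap L (hs_K L h3) ω + 1 = 0 := by
    rw [← map_pow, ← map_add, ← map_one (algebraMap L (hs_K L h3)), ← map_add, hω, map_zero]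
  have hm0 := hsrw_mu_ne_zero h3
  refine ⟨?_, ?_, ?_⟩
  · intro V2 _ _ hL hx hx' h1 h2 h3'
    rw [inv_inv] at hx'
    refine cH V2 hL hx' (hsrw_inv_cube_inv_mem hm0 hx ?_)
    refine hsrw_cube_inv_mem hω' h1 h2 ?_
    rwa [map_pow] at h3'
  · intro V2 _ _ hL _ hx' P _ hP
    rw [inv_inv] at hx'
    exact cTinf V2 hL hx' P hP
  · intro c hc V2 _ _ hL hx hxc P _ hP
    have hval := hsrw_hval V2
    have hc3 : (algebraMap L (hs_K L h3) c) ^ 3 = 1 := by rw [← map_pow, hc, map_one]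
    -- `μ ∈ V2`
    have hmu : hsh_muK L h3 ∈ V2 := by
      by_contra hmu
      have ha : ((hsh_muK L h3)⁻¹)⁻¹ ∉ V2 := by rwa [inv_inv]
      have hab : (hsh_muK L h3)⁻¹ - ((hsh_muK L h3)⁻¹ - algebraMap L (hs_K L h3) c) ≠ 0 := by
        rw [sub_sub_cancel]
        intro h0
        rw [h0] at hc3
        simp at hc3
      have := hsrw_sub_inv_not_mem hval ha hxc hab
      rw [sub_sub_cancel] at this
      apply this
      have hinv : (algebraMap L (hs_K L h3) c)⁻¹ = algebraMap L (hs_K L h3) (c ^ 2) := by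
        rw [map_pow]
        apply inv_eq_of_mul_eq_one_right
        rw [← pow_succ', hc3]
      rw [hinv]
      exact hL _
    refine cT V2 hL hmu (hsrw_inv_cube_inv_not_mem hm0 hmu ?_) P hP
    exact hsrw_cube_inv_not_mem hx (hL c) hc3 (hsrw_nu_cube_ne_one h3) hxc

end Inst

end Fermat.Agent.JT3
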