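import Mathlib
import Fermat.Agent.JT3.Inst.HesseStatements
import Fermat.Agent.JT3.Bridge.GaussCenter
import Fermat.Agent.S28.Formal.PolyOrder

/-!
# JT3 / Route R, Hesse instance (`ℓ = 2`): the hypothesis (h4a) of the F-core

Twin of `Inst/H4a.lean`: for a discrete valuation ring `O` of a field `L` in which `3` is a unit,
and `f = ι y1 / ι y2 ∈ F_N` with `q`-integral `y1, y2` of equal nonzero reductions, the twist
`φ(f) ∈ E = φ(F_N)(μ)` (`φ = (q ↦ q³)`) is congruent to `1` modulo `π` in the Gauss ring of the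
chart `B₁₂ = fc_chart O {μ, μ⁻¹}`, provided `π B₁₂` is prime (`hsa_h4a`).
-/

set_option autoImplicit false
set_option linter.style.haveILetI false

open IsLocalRing Polynomial ModularCurve

namespace Fermat.Agent.JT3

section Scalar

variable {L : Type*} [Field L] (h3 : (3 : L) ≠ 0) (O : ValuationSubring L) (N : ℕ) [NeZero N]

omit [NeZero N] in
theorem hsa_isScalarTower : IsScalarTower ↥O L ↥(hs_E L h3 N) :=
  IsScalarTower.of_algebraMap_eq fun _ => rfl

/-- `μ` over `L` is the image of `μ` over `O`. -/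
theorem hsa_mu_eq_iota (h3O : IsUnit (3 : ↥O)) :
    hs_mu L h3 = coeffMap (algebraMap ↥O L) (hm_mu ↥O h3O) :=
  (hm_coeffMap_mu (algebraMap ↥O L) h3O (IsUnit.mk0 _ h3)).symm

omit [NeZero N] in
/-- `E = φ(F_N)(μ)` consists of quotients of `q`-integral series. -/
theorem hsa_E_le_quotField (h3O : IsUnit (3 : ↥O)) : hs_E L h3 N ≤ gq_quotField ↥O L := by
  rw [hs_E, sup_le_iff]
  constructor
  · rw [hs_F3, lg_F, modularFunctionFieldFullC, IntermediateField.adjoin_map,
      IntermediateField.adjoin_le_iff]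
    rintro _ ⟨_, ⟨d, hd, -, rfl⟩, rfl⟩
    haveI := hd
    have h : hs_phi L (qExpand L d (jqModC L)) =
        coeffMap (algebraMap ↥O L) (qExpand ↥O 3 (qExpand ↥O d (jqModC ↥O))) := by
      rw [hs_phi_apply, coeffMap_qExpand, coeffMap_qExpand, coeffMap_jqModC]
    rw [h]
    exact gq_iota_mem_quotField _
  · rw [hs_K, IntermediateField.adjoin_le_iff]
    intro x hx
    rw [Set.mem_singleton_iff] at hx
    rw [hx, hsa_mu_eq_iota h3 O h3O]
    exact gq_iota_mem_quotField _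

end Scalar

section Transc

variable (k : Type*) [Field k]

/-- `μ = (1/3) q⁻¹ + ⋯` is transcendental over the constants. -/
theorem hsa_mu_transc (h3 : IsUnit (3 : k)) (p : k[X]) (hp : aeval (hm_mu k h3) p = 0) :
    p = 0 := by
  have hord : (hm_mu k h3).order < 0 := by
    rw [hm_mu_order k h3]
    norm_num
  have htr : Transcendental k (hm_mu k h3) :=
    Fermat.Agent.S28.fs_transcendental_of_order_neg hord
  by_contra hp0
  exact htr ⟨p, hp0, hp⟩

end Transc

section Main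

variable {L : Type*} [Field L] (h3 : (3 : L) ≠ 0) (O : ValuationSubring L)
  [IsDiscreteValuationRing ↥O] (N : ℕ) [NeZero N]

/-- **(h4a) for the Hesse instance.** Hypotheses: those of `hs_Key0`; conclusion: the
hypothesis `h4a` of `fc_final` / `fc_main` for `(A0, F0, x) = (O, E, μ)` and the function `φ(f)`. -/
theorem hsa_h4a (π : ↥O) (hπ : Irreducible π) (h3O : IsUnit (3 : ↥O))
    [Algebra.IsAlgebraic
      (Algebra.adjoin ↥O ({hs_muE h3 N, (hs_muE h3 N)⁻¹} : Set ↥(hs_E L h3 N))) ↥(hs_E L h3 N)]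
    (hπ12 : Prime
      (algebraMap ↥O ↥(fc_chart ↥O ({hs_muE h3 N, (hs_muE h3 N)⁻¹} : Set ↥(hs_E L h3 N))) π))
    (y1 y2 : LaurentSeries ↥O)
    (h1 : coeffMap O.subtype y1 ∈ lg_F L N) (h2' : coeffMap O.subtype y2 ∈ lg_F L N)
    (hred : coeffMap (residue ↥O) y1 = coeffMap (residue ↥O) y2)
    (hy2 : coeffMap (residue ↥O) y2 ≠ 0)
    (f : ↥(lg_F L N))
    (hf : f * (⟨coeffMap O.subtype y2, h2'⟩ : ↥(lg_F L N)) = ⟨coeffMap O.subtype y1, h1⟩) :
    (⟨hs_phi L (f : LaurentSeries L), hs_phi_mem_E L h3 N f.2⟩ : ↥(hs_E L h3 N)) - 1 ∈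
      fc_piO (F := ↥(hs_E L h3 N)) hπ12 := by
  haveI := hsa_isScalarTower h3 O N
  have hπ0 : π ≠ 0 := hπ.ne_zero
  have hπm : maximalIdeal ↥O = Ideal.span {π} := hπ.maximalIdeal_eq
  have h3k : IsUnit (3 : ResidueField ↥O) := by
    have := h3O.map (residue ↥O)
    rwa [map_ofNat] at this
  refine gq_h4a_fc_of_iota π hπ0 hπm (hs_E L h3 N) (hsa_E_le_quotField h3 O N h3O) (hs_muE h3 N)
    (hm_mu ↥O h3O) (hsa_mu_eq_iota h3 O h3O) ?_ hπ12 (qExpand ↥O 3 y1) (qExpand ↥O 3 y2)
    ?_ ?_ _ ?_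
  · intro p hp
    rw [hm_coeffMap_mu (residue ↥O) h3O h3k] at hp
    exact hsa_mu_transc _ h3k p hp
  · rw [coeffMap_qExpand, coeffMap_qExpand, hred]
  · rw [coeffMap_qExpand]
    intro h0
    apply hy2
    exact (qExpand (ResidueField ↥O) 3).injective (by rw [h0, map_zero])
  · change hs_phi L (f : LaurentSeries L) * coeffMap (algebraMap ↥O L) (qExpand ↥O 3 y2) =
      coeffMap (algebraMap ↥O L) (qExpand ↥O 3 y1)
    rw [coeffMap_qExpand, coeffMap_qExpand, ← hs_phi_apply, ← hs_phi_apply, ← map_mul]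
    congr 1
    exact congrArg Subtype.val hf

end Main

end Fermat.Agent.JT3
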