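/-
JT3 / Route R (S18), instance layer, Hesse cover (`ℓ = 2`): `hs_Key0 L h3 O N p` from the F-core
theorem `fc_funField`, applied with `A0 = O` (a discrete valuation ring with fraction field `L`),
`F0 = E = φ(F_N)(μ)`, `φ = (q ↦ q³)`, `x = μ`, and from the model hypotheses, bundled in
`hs_ModelHyp`.  Line-by-line twin of `Inst/Key0.lean` (helper2), written by helper7.
-/
import Mathlib
import Fermat.Agent.JT3.Inst.HesseStatements
import Fermat.Agent.JT3.Inst.Key0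
import Fermat.Agent.JT3.Inst.H4
import Fermat.Agent.JT3.FCore.FunField

set_option autoImplicit false

noncomputable section

open ModularCurve IntermediateField AlgebraicCurve

namespace Fermat.Agent.JT3

section HesseKey0

variable {L : Type*} [Field L] (h3 : (3 : L) ≠ 0) (O : ValuationSubring L) (N : ℕ) [NeZero N]

/-- The model hypotheses of the F-core for the two standard charts of the `μ`-line, over `(L, O)`,
with `π : O` (a uniformiser): `π` is a prime element of the three charts, and the two standard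
charts are regular along `π = 0`. -/
structure hs_ModelHyp (π : O) : Prop where
  prime1 : Prime (algebraMap O (fc_chart O ({hs_muE h3 N} : Set (hs_E L h3 N))) π)
  prime2 : Prime (algebraMap O (fc_chart O ({(hs_muE h3 N)⁻¹} : Set (hs_E L h3 N))) π)
  prime12 : Prime (algebraMap O (fc_chart O ({hs_muE h3 N, (hs_muE h3 N)⁻¹} : Set (hs_E L h3 N))) π)
  reg1 : ∀ 𝔫 : Ideal (fc_chart O ({hs_muE h3 N} : Set (hs_E L h3 N))), 𝔫.IsMaximal →
      algebraMap O (fc_chart O ({hs_muE h3 N} : Set (hs_E L h3 N))) π ∈ 𝔫 →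
      ∃ u ∈ 𝔫, ∀ z ∈ 𝔫, ∃ s, s ∉ 𝔫 ∧
        s * z ∈ Ideal.span {algebraMap O (fc_chart O ({hs_muE h3 N} : Set (hs_E L h3 N))) π, u}
  reg2 : ∀ 𝔫 : Ideal (fc_chart O ({(hs_muE h3 N)⁻¹} : Set (hs_E L h3 N))), 𝔫.IsMaximal →
      algebraMap O (fc_chart O ({(hs_muE h3 N)⁻¹} : Set (hs_E L h3 N))) π ∈ 𝔫 →
      ∃ u ∈ 𝔫, ∀ z ∈ 𝔫, ∃ s, s ∉ 𝔫 ∧
        s * z ∈ Ideal.span {algebraMap O (fc_chart O ({(hs_muE h3 N)⁻¹} : Set (hs_E L h3 N))) π, u}

variable {O N}

/-- the regularity hypotheses of the F-core from the local regularity seam `jt_RegAt`. -/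
theorem hs_modelHyp_of_regAt {π : O}
    (hp1 : Prime (algebraMap O (fc_chart O ({hs_muE h3 N} : Set (hs_E L h3 N))) π))
    (hp2 : Prime (algebraMap O (fc_chart O ({(hs_muE h3 N)⁻¹} : Set (hs_E L h3 N))) π))
    (hp12 : Prime (algebraMap O (fc_chart O ({hs_muE h3 N, (hs_muE h3 N)⁻¹} : Set (hs_E L h3 N))) π))
    (hr1 : jt_RegAt (fc_chart O ({hs_muE h3 N} : Set (hs_E L h3 N)))
      (algebraMap O (fc_chart O ({hs_muE h3 N} : Set (hs_E L h3 N))) π))
    (hr2 : jt_RegAt (fc_chart O ({(hs_muE h3 N)⁻¹} : Set (hs_E L h3 N)))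
      (algebraMap O (fc_chart O ({(hs_muE h3 N)⁻¹} : Set (hs_E L h3 N))) π)) :
    hs_ModelHyp h3 O N π where
  prime1 := hp1
  prime2 := hp2
  prime12 := hp12
  reg1 := fun 𝔫 hmax hπ => by
    obtain ⟨⟨u, -, hu, hgen⟩, -⟩ := hr1 𝔫 hmax hπ
    exact ⟨u, hu, hgen⟩
  reg2 := fun 𝔫 hmax hπ => by
    obtain ⟨⟨u, -, hu, hgen⟩, -⟩ := hr2 𝔫 hmax hπ
    exact ⟨u, hu, hgen⟩

/-- the restriction of `φ` to the level-`N` field, with values in `E`. -/
def hs_phiE : lg_F L N →ₐ[L] hs_E L h3 N :=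
  ((hs_phi L).comp (lg_F L N).val).codRestrict (hs_E L h3 N).toSubalgebra
    (fun x => hs_phi_mem_E L h3 N x.2)

theorem hs_phiE_coe (x : lg_F L N) :
    ((hs_phiE h3 (N := N) x : hs_E L h3 N) : LaurentSeries L) = hs_phi L (x : LaurentSeries L) :=
  rfl

set_option synthInstance.maxHeartbeats 400000 in
/-- **`hs_Key0` from the F-core.** -/
theorem hs_Key0_of_model [CharZero L] [IsDiscreteValuationRing O] {π : O} (hπ : Irreducible π)
    (hM : hs_ModelHyp h3 O N π)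
    (hx : Transcendental L (hs_muE h3 N))
    [FiniteDimensional L⟮hs_muE h3 N⟯ (hs_E L h3 N)]
    (hconst : ∀ z : hs_E L h3 N, IsAlgebraic L z → z ∈ (algebraMap L (hs_E L h3 N)).range)
    (p : ℕ) (hp : IsUnit ((p : ℕ) : O))
    (h4a : ∀ (y1 y2 : LaurentSeries O)
      (h1 : coeffMap O.subtype y1 ∈ lg_F L N) (h2 : coeffMap O.subtype y2 ∈ lg_F L N),
      coeffMap (IsLocalRing.residue O) y1 = coeffMap (IsLocalRing.residue O) y2 →
      coeffMap (IsLocalRing.residue O) y2 ≠ 0 →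
      ∀ f : lg_F L N,
        f * (⟨coeffMap O.subtype y2, h2⟩ : lg_F L N) = (⟨coeffMap O.subtype y1, h1⟩ : lg_F L N) →
        hs_phiE h3 f - 1 ∈ fc_piO hM.prime12) :
    hs_Key0 L h3 O N p := by
  intro y1 y2 h1 h2 hred hred0 f hf hord
  by_cases hf0 : f = 0
  · refine ⟨0, 0, zero_mem _, ?_⟩
    rw [hf0]
    simp
  have hfE : hs_phiE h3 f ≠ 0 := fun h => hf0 ((map_eq_zero (hs_phiE h3 (N := N))).1 h)
  obtain ⟨c, g, -, hcg⟩ := fc_funField (L := L) hπ hx hconst p hp (hs_phiE h3 f) hfE hM.prime1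
    hM.prime2 hM.prime12 hM.reg1 hM.reg2 (h4a y1 y2 h1 h2 hred hred0 f hf)
    (fun P => lg_dvd_ord_of_embedding (hs_phiE h3) (p : ℤ) f hord P)
  refine ⟨algebraMap O L c, (g : LaurentSeries L), g.2, ?_⟩
  have hcg3 := congrArg (fun z : hs_E L h3 N => (z : LaurentSeries L)) hcg
  have hcg4 : ((algebraMap O (hs_E L h3 N) c : hs_E L h3 N) : LaurentSeries L)
      = algebraMap L (LaurentSeries L) (algebraMap O L c) := rfl
  simp only [MulMemClass.coe_mul, SubmonoidClass.coe_pow, hs_phiE_coe, hcg4] at hcg3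
  exact hcg3

end HesseKey0

end Fermat.Agent.JT3
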