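/-
JT3 / Route R (S18), instance layer, Hesse cover (`ℓ = 2`): `hs_Key0 L h3 O N p` from the
regularity of the two standard charts of the `μ`-line (`jt_RegAt`), for a discrete valuation ring
`O` with fraction field `L` of characteristic zero in which `3` is a unit.  Twin of
`Inst/Assemble.lean`.  Everything else is discharged here:
* `π` prime in the three charts: `cn_prime_funField` (helper27);
* the function-field facts: `Inst/HesseFunFieldFacts.lean` (helper4);
* (h4a): `hsa_h4a` (helper8).
-/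
import Mathlib
import Fermat.Agent.JT3.Inst.HesseKey0
import Fermat.Agent.JT3.Inst.HesseFunFieldFacts
import Fermat.Agent.JT3.Inst.HesseH4a
import Fermat.Agent.JT3.Model.Connected
import Fermat.Agent.JT3.Bridge.GaussCenter

set_option autoImplicit false

noncomputable section

open ModularCurve IntermediateField AlgebraicCurve

namespace Fermat.Agent.JT3

section HesseAssemble

variable {L : Type*} [Field L] (h3 : (3 : L) ≠ 0) {O : ValuationSubring L} {N : ℕ} [NeZero N]

/-- **`hs_Key0` from the regularity of the two standard charts.** -/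
theorem hs_Key0_of_regAt [CharZero L] [IsDiscreteValuationRing O] {π : O} (hπ : Irreducible π)
    (h3O : IsUnit (3 : O))
    (hr1 : jt_RegAt (fc_chart O ({hs_muE h3 N} : Set (hs_E L h3 N)))
      (algebraMap O (fc_chart O ({hs_muE h3 N} : Set (hs_E L h3 N))) π))
    (hr2 : jt_RegAt (fc_chart O ({(hs_muE h3 N)⁻¹} : Set (hs_E L h3 N)))
      (algebraMap O (fc_chart O ({(hs_muE h3 N)⁻¹} : Set (hs_E L h3 N))) π))
    (p : ℕ) (hp : IsUnit ((p : ℕ) : O)) : hs_Key0 L h3 O N p := by
  have hx : Transcendental L (hs_muE (L := L) h3 N) := hsf_mu_transcendental L h3 N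
  haveI := hsf_finite L h3 N
  have hconst : ∀ z : hs_E L h3 N, IsAlgebraic L z → z ∈ (algebraMap L (hs_E L h3 N)).range :=
    fun z hz => lgf_hconst (hs_E L h3 N) z hz
  obtain ⟨hp1, hp2, hp12⟩ := cn_prime_funField (K0 := L) hπ hx hconst
    (fun n hn hπn => (hr1 n hn hπn).2) (fun n hn hπn => (hr2 n hn hπn).2)
  have hM : hs_ModelHyp h3 O N π := hs_modelHyp_of_regAt h3 hp1 hp2 hp12 hr1 hr2
  refine hs_Key0_of_model h3 hπ hM hx hconst p hp ?_
  intro y1 y2 h1 h2' hred hred0 f hf
  haveI : Algebra.IsAlgebraic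
      (Algebra.adjoin O ({hs_muE h3 N, (hs_muE h3 N)⁻¹} : Set (hs_E L h3 N))) (hs_E L h3 N) :=
    fc_ff_isAlgebraic_mono (S := {hs_muE h3 N}) (T := {hs_muE h3 N, (hs_muE h3 N)⁻¹}) (by simp)
      (fc_ff_isAlgebraic (L := L) (hs_muE h3 N))
  exact hsa_h4a h3 O N π hπ h3O hp12 y1 y2 h1 h2' hred hred0 f hf

end HesseAssemble

end Fermat.Agent.JT3
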