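/-
JT3 / Route R (S18), instance layer: S18 for odd `ℓ ∤ N` from the regularity (`jt_RegAt`) of the two
standard charts of the Legendre model over the number fields `L1 ⊆ Q̄` containing a primitive `M`-th
root of unity, with `O = A ∩ L1`.
-/
import Mathlib
import Fermat.Agent.JT3.Inst.Final
import Fermat.Agent.JT3.Inst.Assemble

set_option autoImplicit false

noncomputable section

open ModularCurve IntermediateField AlgebraicCurve

namespace Fermat.Agent.JT3

section FinalReg

/-- **S18 for odd `ℓ` from the regularity of the Legendre charts.** -/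
theorem lg_S18_of_regAt (N : ℕ) [NeZero N] {ℓ : ℕ} [Fact ℓ.Prime] (hℓN : ¬ ℓ ∣ N) (hℓ2 : ℓ ≠ 2)
    (A : ValuationSubring (AlgebraicClosure ℚ)) (hA : A.LiesOverPrime ℓ)
    (h : ReductionInputsModL A N) (m : ℕ) (hm : ¬ ℓ ∣ m) (M : ℕ) [NeZero M]
    (hreg : ∀ (L1 : Type) [Field L1] [NumberField L1] [Algebra L1 (AlgebraicClosure ℚ)]
      (ζ : L1), IsPrimitiveRoot ζ M →
      ∀ [IsDiscreteValuationRing ↥(A.comap (algebraMap L1 (AlgebraicClosure ℚ)))]
        (π : ↥(A.comap (algebraMap L1 (AlgebraicClosure ℚ)))), Irreducible π →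
        jt_RegAt (fc_chart ↥(A.comap (algebraMap L1 (AlgebraicClosure ℚ)))
            ({lg_lamE N} : Set (lg_E L1 N)))
          (algebraMap ↥(A.comap (algebraMap L1 (AlgebraicClosure ℚ)))
            (fc_chart ↥(A.comap (algebraMap L1 (AlgebraicClosure ℚ)))
              ({lg_lamE N} : Set (lg_E L1 N))) π) ∧
        jt_RegAt (fc_chart ↥(A.comap (algebraMap L1 (AlgebraicClosure ℚ)))
            ({(lg_lamE N)⁻¹} : Set (lg_E L1 N)))
          (algebraMap ↥(A.comap (algebraMap L1 (AlgebraicClosure ℚ)))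
            (fc_chart ↥(A.comap (algebraMap L1 (AlgebraicClosure ℚ)))
              ({(lg_lamE N)⁻¹} : Set (lg_E L1 N))) π))
    (z : JZero N) (hmz : m • z = 0) (hz : reductionModL A N z = 0) : z = 0 := by
  have hℓp : ℓ.Prime := Fact.out
  refine lg_S18_of_key0 N hℓN A hA h m hm M (fun p hp hpℓ L1 _ _ _ ζ hζ => ?_) z hmz hz
  haveI hdvr : IsDiscreteValuationRing ↥(A.comap (algebraMap L1 (AlgebraicClosure ℚ))) :=
    dsc_isDVR_comap_numberField A ℓ hA hℓp.ne_zero L1
  obtain ⟨π, hπ⟩ := IsDiscreteValuationRing.exists_irreducible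
    ↥(A.comap (algebraMap L1 (AlgebraicClosure ℚ)))
  obtain ⟨hr1, hr2⟩ := hreg L1 ζ hζ π hπ
  have hmem := lg_natCast_mem_maximalIdeal A hA L1
  have h2 : IsUnit (2 : ↥(A.comap (algebraMap L1 (AlgebraicClosure ℚ)))) := by
    have := lg_isUnit_natCast hmem (m := 2)
      ((Nat.coprime_primes Nat.prime_two hℓp).2 (Ne.symm hℓ2))
    simpa using this
  have hpu : IsUnit ((p : ℕ) : ↥(A.comap (algebraMap L1 (AlgebraicClosure ℚ)))) :=
    lg_isUnit_natCast hmem ((Nat.coprime_primes hp hℓp).2 hpℓ)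
  exact lg_Key0_of_regAt hπ h2 hr1 hr2 p hpu

end FinalReg

end Fermat.Agent.JT3
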