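/-
JT3 / Route R (S18), instance layer, final assembly for the Hesse cover (`ℓ = 2`, or any
`ℓ ∤ 3 N`): `jt_Key A N p` and S18 from `hs_Key0` over the number fields `L1 ⊆ Q̄` containing a
primitive `M`-th root of unity, `3 ∣ M`, with the discrete valuation ring `A ∩ L1`.
-/
import Mathlib
import Fermat.Agent.JT3.Inst.Final
import Fermat.Agent.JT3.KDescent.HesseKey

set_option autoImplicit false

noncomputable section

open ModularCurve IntermediateField AlgebraicCurve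

namespace Fermat.Agent.JT3

section HesseFinal

/-- **`jt_Key` from `hs_Key0` over number fields** containing a primitive `M`-th root of unity,
`3 ∣ M`. -/
theorem hs_key_of_key0 (A : ValuationSubring (AlgebraicClosure ℚ)) (N : ℕ) [NeZero N] {p : ℕ}
    (hp : p ≠ 0) (M : ℕ) [NeZero M] (h3M : 3 ∣ M)
    (h : ∀ (L1 : Type) [Field L1] [NumberField L1] [Algebra L1 (AlgebraicClosure ℚ)]
      (h3 : (3 : L1) ≠ 0) (ζ : L1),
      IsPrimitiveRoot ζ M → hs_Key0 L1 h3 (A.comap (algebraMap L1 (AlgebraicClosure ℚ))) N p) :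
    jt_Key A N p := by
  classical
  have _ : Algebra.IsAlgebraic ℚ (AlgebraicClosure ℚ) := AlgebraicClosure.isAlgebraic ℚ
  apply dsc_key_of_keyAt
  intro s
  obtain ⟨ζ, hζ⟩ : ∃ ζ : AlgebraicClosure ℚ, IsPrimitiveRoot ζ M :=
    HasEnoughRootsOfUnity.exists_primitiveRoot (AlgebraicClosure ℚ) M
  let L1 : IntermediateField ℚ (AlgebraicClosure ℚ) :=
    IntermediateField.adjoin ℚ ((↑s : Set (AlgebraicClosure ℚ)) ∪ {ζ})
  have hs : (↑s : Set (AlgebraicClosure ℚ)) ⊆ L1 := fun a ha =>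
    IntermediateField.subset_adjoin ℚ _ (Set.mem_union_left _ ha)
  have hζ1 : ζ ∈ L1 := IntermediateField.subset_adjoin ℚ _ (Set.mem_union_right _ rfl)
  have hfin : FiniteDimensional ℚ L1 := by
    have hfinset : ((↑s : Set (AlgebraicClosure ℚ)) ∪ {ζ}).Finite :=
      s.finite_toSet.union (Set.finite_singleton ζ)
    exact IntermediateField.finiteDimensional_adjoin
      (fun x _ => Algebra.IsIntegral.isIntegral x)
  haveI : NumberField L1 := ⟨⟩
  have hζ' : IsPrimitiveRoot (L1.val (⟨ζ, hζ1⟩ : L1)) M := hζ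
  have hζ'' : IsPrimitiveRoot (⟨ζ, hζ1⟩ : L1) M :=
    IsPrimitiveRoot.of_map_of_injective hζ' Subtype.val_injective
  obtain ⟨k, rfl⟩ := h3M
  have hk0 : k ≠ 0 := by
    rintro rfl
    exact NeZero.ne (3 * 0) rfl
  have hζ3 : IsPrimitiveRoot ((⟨ζ, hζ1⟩ : L1) ^ k) 3 :=
    hζ''.pow (Nat.pos_of_ne_zero (NeZero.ne (3 * k))) (by ring)
  have h3 : (3 : ↥L1) ≠ 0 := by norm_num
  exact ⟨L1, hs, kd_hsk_keyAt A N hp ↥L1 h3 hζ3 (h ↥L1 h3 ⟨ζ, hζ1⟩ hζ'')⟩

/-- **S18 from `hs_Key0` over number fields** (any `ℓ ∤ N`; the hypothesis `hkey` is provable by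
the Hesse model when `ℓ ≠ 3`, in particular for `ℓ = 2`). -/
theorem hs_S18_of_key0 (N : ℕ) [NeZero N] {ℓ : ℕ} [Fact ℓ.Prime] (hℓN : ¬ ℓ ∣ N)
    (A : ValuationSubring (AlgebraicClosure ℚ)) (hA : A.LiesOverPrime ℓ)
    (h : ReductionInputsModL A N) (m : ℕ) (hm : ¬ ℓ ∣ m) (M : ℕ) [NeZero M] (h3M : 3 ∣ M)
    (hkey : ∀ p : ℕ, p.Prime → p ≠ ℓ →
      ∀ (L1 : Type) [Field L1] [NumberField L1] [Algebra L1 (AlgebraicClosure ℚ)]
        (h3 : (3 : L1) ≠ 0) (ζ : L1),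
        IsPrimitiveRoot ζ M → hs_Key0 L1 h3 (A.comap (algebraMap L1 (AlgebraicClosure ℚ))) N p)
    (z : JZero N) (hmz : m • z = 0) (hz : reductionModL A N z = 0) : z = 0 := by
  have hm0 : m ≠ 0 := by
    rintro rfl
    exact hm (dvd_zero ℓ)
  refine jt_S18_of_Key h m hm0 (fun p hp hpm => ?_) (jcr_constRed N A hℓN hA) z hmz hz
  have hpℓ : p ≠ ℓ := by
    rintro rfl
    exact hm hpm
  exact hs_key_of_key0 A N hp.ne_zero M h3M (hkey p hp hpℓ)

end HesseFinal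

end Fermat.Agent.JT3
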