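/-
JT3 / Route R (S18), instance layer, Hesse cover: S18 for `ℓ ≠ 3`, `ℓ ∤ N` (in particular for
`ℓ = 2`) from the regularity (`jt_RegAt`) of the two standard charts of the Hesse model over the
number fields `L1 ⊆ Q̄` containing a primitive `M`-th root of unity (`3 ∣ M`), with `O = A ∩ L1`.
Twin of `Inst/FinalReg.lean`.
-/
import Mathlib
import Fermat.Agent.JT3.Inst.HesseFinal
import Fermat.Agent.JT3.Inst.HesseAssemble

set_option autoImplicit false

noncomputable section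

open ModularCurve IntermediateField AlgebraicCurve

namespace Fermat.Agent.JT3

section HesseFinalReg

/-- **S18 for `ℓ ≠ 3` from the regularity of the Hesse charts.** -/
theorem hs_S18_of_regAt (N : ℕ) [NeZero N] {ℓ : ℕ} [Fact ℓ.Prime] (hℓN : ¬ ℓ ∣ N) (hℓ3 : ℓ ≠ 3)
    (A : ValuationSubring (AlgebraicClosure ℚ)) (hA : A.LiesOverPrime ℓ)
    (h : ReductionInputsModL A N) (m : ℕ) (hm : ¬ ℓ ∣ m) (M : ℕ) [NeZero M] (h3M : 3 ∣ M)
    (hreg : ∀ (L1 : Type) [Field L1] [NumberField L1] [Algebra L1 (AlgebraicClosure ℚ)]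
      (h3 : (3 : L1) ≠ 0) (ζ : L1), IsPrimitiveRoot ζ M →
      ∀ [IsDiscreteValuationRing ↥(A.comap (algebraMap L1 (AlgebraicClosure ℚ)))]
        (π : ↥(A.comap (algebraMap L1 (AlgebraicClosure ℚ)))), Irreducible π →
        jt_RegAt (fc_chart ↥(A.comap (algebraMap L1 (AlgebraicClosure ℚ)))
            ({hs_muE h3 N} : Set (hs_E L1 h3 N)))
          (algebraMap ↥(A.comap (algebraMap L1 (AlgebraicClosure ℚ)))
            (fc_chart ↥(A.comap (algebraMap L1 (AlgebraicClosure ℚ)))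
              ({hs_muE h3 N} : Set (hs_E L1 h3 N))) π) ∧
        jt_RegAt (fc_chart ↥(A.comap (algebraMap L1 (AlgebraicClosure ℚ)))
            ({(hs_muE h3 N)⁻¹} : Set (hs_E L1 h3 N)))
          (algebraMap ↥(A.comap (algebraMap L1 (AlgebraicClosure ℚ)))
            (fc_chart ↥(A.comap (algebraMap L1 (AlgebraicClosure ℚ)))
              ({(hs_muE h3 N)⁻¹} : Set (hs_E L1 h3 N))) π))
    (z : JZero N) (hmz : m • z = 0) (hz : reductionModL A N z = 0) : z = 0 := by
  have hℓp : ℓ.Prime := Fact.out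
  refine hs_S18_of_key0 N hℓN A hA h m hm M h3M (fun p hp hpℓ L1 _ _ _ h3 ζ hζ => ?_) z hmz hz
  haveI hdvr : IsDiscreteValuationRing ↥(A.comap (algebraMap L1 (AlgebraicClosure ℚ))) :=
    dsc_isDVR_comap_numberField A ℓ hA hℓp.ne_zero L1
  obtain ⟨π, hπ⟩ := IsDiscreteValuationRing.exists_irreducible
    ↥(A.comap (algebraMap L1 (AlgebraicClosure ℚ)))
  obtain ⟨hr1, hr2⟩ := hreg L1 h3 ζ hζ π hπ
  have hmem := lg_natCast_mem_maximalIdeal A hA L1
  have h3O : IsUnit (3 : ↥(A.comap (algebraMap L1 (AlgebraicClosure ℚ)))) := by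
    have := lg_isUnit_natCast hmem (m := 3)
      ((Nat.coprime_primes Nat.prime_three hℓp).2 (Ne.symm hℓ3))
    simpa using this
  have hpu : IsUnit ((p : ℕ) : ↥(A.comap (algebraMap L1 (AlgebraicClosure ℚ)))) :=
    lg_isUnit_natCast hmem ((Nat.coprime_primes hp hℓp).2 hpℓ)
  exact hs_Key0_of_regAt h3 hπ h3O hr1 hr2 p hpu

end HesseFinalReg

end Fermat.Agent.JT3
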