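/-
JT3 / Route R (S18), instance layer, Hesse cover (`ℓ = 2`), leaf [HES-V] (helper26): the VERTICAL
hypothesis (V) of the generic model theorem `mdl_regAt` for the Hesse cover.  Twin of
`Inst/Vert.lean` (Legendre cover), with a cover-independent core.

GENERIC (any rational cover `j = N(x) / D(x)`):
* `hsv_homog`, `hsv_H`      : `H(X, T) = D(X)^m · Φ(T, N(X) / D(X)) ∈ O[X][T]`;
* `hsv_H_map`, `hsv_H_eval₂`, `hsv_H_leadingCoeff` : its specialisations and leading coefficient;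
* `hsv_transcendental_div`  : `a / b ∈ k(X)` is transcendental when `b(c) = 0 ≠ a(c)`;
* `hsv_goodGen_of_rel`      : a root `θ` of `Φ_d(·, j)` with `N(x) = j · D(x)` is a good generator
                              (`mdl_GoodGen O x θ`), for every local ring `O` of residue
                              characteristic `ℓ ∤ d`.

HESSE INSTANCE (`O` a valuation subring of `L`, `ℓ ∈ 𝔪_O`, `ℓ ≠ 3`, `ℓ ∤ N`):
* `hsv_S L h3 N`            : the finite set `{φ(j(q^d)) : d ∣ N} ⊆ E = φ(F_N)(μ)`;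
* `hsv_adjoin_eq_top`       : it generates `E` over `L(μ)`;
* `hsv_goodGen_mu`          : `mdl_GoodGen O μ θ` for `θ ∈ S`;
* `hsv_goodGen_mu_inv`      : `mdl_GoodGen O μ⁻¹ θ` for `θ ∈ S`.
-/
import Mathlib
import Fermat.Agent.JT3.Inst.HesseTower
import Fermat.Agent.JT3.Inst.HesseStatements
import Fermat.Agent.JT3.Inst.HesseFunFieldFacts
import Fermat.Agent.JT3.Model.GenDefs
import Fermat.Agent.JT3.Export.S28Sep

set_option autoImplicit false
set_option linter.unusedSectionVars false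
set_option linter.style.haveILetI false

noncomputable section

namespace Fermat.Agent.JT3

open Polynomial ModularCurve IntermediateField
open Fermat.Agent.S28

/-! ### homogenisation -/

section Homog

variable {R S : Type*} [CommRing R] [CommRing S]

/-- homogenisation: `D^m · c(N/D)` for `deg c ≤ m`. -/
def hsv_homog (c Nn Dd : R[X]) (m : ℕ) : R[X] :=
  ∑ k ∈ Finset.range (m + 1), C (c.coeff k) * Nn ^ k * Dd ^ (m - k)

theorem hsv_homog_zero (Nn Dd : R[X]) (m : ℕ) : hsv_homog 0 Nn Dd m = 0 := by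
  simp [hsv_homog]

theorem hsv_homog_one (Nn Dd : R[X]) (m : ℕ) : hsv_homog 1 Nn Dd m = Dd ^ m := by
  unfold hsv_homog
  rw [Finset.sum_eq_single 0]
  · simp
  · intro k _ hk
    rw [coeff_one, if_neg hk]
    simp
  · intro h
    exact absurd (Finset.mem_range.mpr (Nat.succ_pos m)) h

theorem hsv_homog_map (g : R[X] →+* S) (j : S) (c Nn Dd : R[X]) (m : ℕ)
    (hm : c.natDegree ≤ m) (hj : g Nn = j * g Dd) :
    g (hsv_homog c Nn Dd m) = g Dd ^ m * c.eval₂ (g.comp C) j := by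
  unfold hsv_homog
  rw [map_sum, eval₂_eq_sum_range' (g.comp C) (Nat.lt_succ_of_le hm), Finset.mul_sum]
  refine Finset.sum_congr rfl fun k hk => ?_
  have hk' : k ≤ m := Nat.lt_succ_iff.mp (Finset.mem_range.mp hk)
  rw [map_mul, map_mul, map_pow, map_pow, hj, mul_pow, RingHom.comp_apply]
  have : g Dd ^ m = g Dd ^ k * g Dd ^ (m - k) := by
    rw [← pow_add, Nat.add_sub_cancel' hk']
  rw [this]
  ring

/-- the polynomial `H(X, T) = D(X)^m · Φ(T, N(X)/D(X))`. -/
def hsv_H (Φ : R[X][X]) (Nn Dd : R[X]) (m : ℕ) : R[X][X] :=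
  ∑ i ∈ Finset.range (Φ.natDegree + 1), C (hsv_homog (Φ.coeff i) Nn Dd m) * X ^ i

theorem hsv_H_coeff (Φ : R[X][X]) (Nn Dd : R[X]) (m i : ℕ) :
    (hsv_H Φ Nn Dd m).coeff i = hsv_homog (Φ.coeff i) Nn Dd m := by
  unfold hsv_H
  rw [finsetSum_coeff]
  simp only [coeff_C_mul_X_pow]
  by_cases hi : i < Φ.natDegree + 1
  · rw [Finset.sum_eq_single i]
    · simp
    · intro b _ hb
      rw [if_neg (Ne.symm hb)]
    · intro h
      exact absurd (Finset.mem_range.mpr hi) h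
  · rw [Finset.sum_eq_zero]
    · rw [coeff_eq_zero_of_natDegree_lt (by omega), hsv_homog_zero]
    · intro b hb
      have := Finset.mem_range.mp hb
      rw [if_neg (by omega)]

theorem hsv_H_map (g : R[X] →+* S) (j : S) (Φ : R[X][X]) (Nn Dd : R[X]) (m : ℕ)
    (hm : ∀ i, (Φ.coeff i).natDegree ≤ m) (hj : g Nn = j * g Dd) :
    (hsv_H Φ Nn Dd m).map g = C (g Dd ^ m) * Φ.map (eval₂RingHom (g.comp C) j) := by
  ext i
  rw [coeff_map, hsv_H_coeff, coeff_C_mul, coeff_map, hsv_homog_map g j _ _ _ _ (hm i) hj]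
  rfl

theorem hsv_H_eval₂ (g : R[X] →+* S) (j θ : S) (Φ : R[X][X]) (Nn Dd : R[X]) (m : ℕ)
    (hm : ∀ i, (Φ.coeff i).natDegree ≤ m) (hj : g Nn = j * g Dd) :
    (hsv_H Φ Nn Dd m).eval₂ g θ = g Dd ^ m * Φ.eval₂ (eval₂RingHom (g.comp C) j) θ := by
  rw [← eval_map, hsv_H_map g j Φ Nn Dd m hm hj, eval_mul, eval_C, eval_map]

theorem hsv_H_natDegree_le (Φ : R[X][X]) (Nn Dd : R[X]) (m : ℕ) :
    (hsv_H Φ Nn Dd m).natDegree ≤ Φ.natDegree := by
  rw [natDegree_le_iff_coeff_eq_zero]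
  intro i hi
  rw [hsv_H_coeff, coeff_eq_zero_of_natDegree_lt hi, hsv_homog_zero]

theorem hsv_H_leadingCoeff (Φ : R[X][X]) (hΦ : Φ.Monic) (Nn Dd : R[X]) (m : ℕ)
    (hD : Dd ^ m ≠ 0) : (hsv_H Φ Nn Dd m).leadingCoeff = Dd ^ m := by
  have h1 : (hsv_H Φ Nn Dd m).coeff Φ.natDegree = Dd ^ m := by
    rw [hsv_H_coeff, hΦ.coeff_natDegree, hsv_homog_one]
  have h2 : (hsv_H Φ Nn Dd m).natDegree = Φ.natDegree := by
    refine le_antisymm (hsv_H_natDegree_le Φ Nn Dd m) ?_
    apply le_natDegree_of_ne_zero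
    rw [h1]
    exact hD
  rw [leadingCoeff, h2, h1]

/-- a uniform bound for the degrees of the coefficients -/
def hsv_deg (Φ : R[X][X]) : ℕ := Φ.support.sup fun i => (Φ.coeff i).natDegree

theorem hsv_deg_le (Φ : R[X][X]) (i : ℕ) : (Φ.coeff i).natDegree ≤ hsv_deg Φ := by
  by_cases hi : i ∈ Φ.support
  · exact Finset.le_sup (f := fun i => (Φ.coeff i).natDegree) hi
  · rw [notMem_support_iff.mp hi, natDegree_zero]
    exact Nat.zero_le _

end Homog

/-! ### transcendence of a rational function -/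

section Transc

variable {k : Type*} [Field k]

/-- `a / b ∈ k(X)` is transcendental over `k` as soon as `b` vanishes at a point where `a` does
not (it is not even a polynomial). -/
theorem hsv_transcendental_div (a b : k[X]) (c : k) (hb : b.eval c = 0) (ha : a.eval c ≠ 0)
    (hb0 : b ≠ 0) :
    Transcendental k (algebraMap k[X] (RatFunc k) a / algebraMap k[X] (RatFunc k) b) := by
  intro halg
  have hint : IsIntegral k[X] (algebraMap k[X] (RatFunc k) a / algebraMap k[X] (RatFunc k) b) :=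
    (halg.isIntegral).tower_top
  obtain ⟨p, hp⟩ := IsIntegrallyClosed.algebraMap_eq_of_integral hint
  have hb' : algebraMap k[X] (RatFunc k) b ≠ 0 := by
    rw [Ne, map_eq_zero_iff _ (IsFractionRing.injective k[X] (RatFunc k))]
    exact hb0
  have h1 : a = p * b := by
    apply IsFractionRing.injective k[X] (RatFunc k)
    rw [map_mul, hp, div_mul_cancel₀ _ hb']
  apply ha
  rw [h1, eval_mul, hb, mul_zero]

end Transc

/-! ### the generic good generator -/

section GoodGen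

variable {O : Type*} [CommRing O] [IsLocalRing O] {E : Type*} [Field E] [Algebra O E]

/-- **(V), generic form.**  Let `O` be a local ring of residue characteristic `ℓ ∤ d`, and let
`x, j, θ ∈ E` with `N(x) = j · D(x)` (`N, D ∈ O[X]`) and `Φ_d(j, θ) = 0`.  If `D̄ ≠ 0` and `N̄ / D̄` is
transcendental over the residue field, then `θ` is a good generator over the coordinate `x`, with
`H = D^m · Φ_d(N / D, T)`. -/
theorem hsv_goodGen_of_rel {ℓ : ℕ} [Fact ℓ.Prime] [CharP (IsLocalRing.ResidueField O) ℓ]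
    {d : ℕ} [NeZero d] (hℓd : ¬ ℓ ∣ d) (ρ : ↥(GaloisRep.ratLocalizedAt ℓ) →+* O)
    (Nn Dd : O[X]) (x θ j : E)
    (hrel : aeval x Nn = j * aeval x Dd)
    (hΦ : (vx_Phi d ℓ hℓd).eval₂ (eval₂RingHom ((algebraMap O E).comp ρ) j) θ = 0)
    (hD : Dd.map (IsLocalRing.residue O) ≠ 0)
    (htr : Transcendental (IsLocalRing.ResidueField O)
      (algebraMap (IsLocalRing.ResidueField O)[X] (RatFunc (IsLocalRing.ResidueField O))
          (Nn.map (IsLocalRing.residue O)) /
        algebraMap (IsLocalRing.ResidueField O)[X] (RatFunc (IsLocalRing.ResidueField O))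
          (Dd.map (IsLocalRing.residue O)))) :
    mdl_GoodGen O x θ := by
  set Φ : O[X][X] := (vx_Phi d ℓ hℓd).map (mapRingHom ρ) with hΦdef
  have hΦm : Φ.Monic := (vx_Phi_monic d ℓ hℓd).map _
  refine ⟨hsv_H Φ Nn Dd (hsv_deg Φ), ?_, ?_, ?_⟩
  · -- the leading coefficient is `D^m`
    have hDm : Dd ^ hsv_deg Φ ≠ 0 := by
      intro h
      have h1 := congrArg (Polynomial.map (IsLocalRing.residue O)) h
      rw [Polynomial.map_pow, Polynomial.map_zero] at h1
      exact pow_ne_zero _ hD h1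
    rw [hsv_H_leadingCoeff Φ hΦm Nn Dd _ hDm, Polynomial.map_pow]
    exact pow_ne_zero _ hD
  · -- `H(x, θ) = D(x)^m Φ(j, θ) = 0`
    have hrel' : ((aeval x : O[X] →ₐ[O] E) : O[X] →+* E) Nn
        = j * ((aeval x : O[X] →ₐ[O] E) : O[X] →+* E) Dd := hrel
    rw [hsv_H_eval₂ _ j θ Φ Nn Dd _ (hsv_deg_le Φ) hrel', hΦdef, eval₂_map]
    have e : (eval₂RingHom ((((aeval x : O[X] →ₐ[O] E) : O[X] →+* E)).comp C) j).comp
        (mapRingHom ρ) = eval₂RingHom ((algebraMap O E).comp ρ) j := by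
      refine ringHom_ext (fun r => ?_) ?_
      · simp
      · simp
    rw [e, hΦ, mul_zero]
  · -- separability
    set k := IsLocalRing.ResidueField O with hk
    set g : O[X] →+* RatFunc k :=
      (algebraMap k[X] (RatFunc k)).comp (mapRingHom (IsLocalRing.residue O)) with hg
    set t : RatFunc k := g Nn / g Dd with ht
    have hgD : g Dd ≠ 0 := by
      rw [hg, RingHom.comp_apply, Ne, map_eq_zero_iff _ (IsFractionRing.injective k[X] (RatFunc k))]
      exact hD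
    have hj : g Nn = t * g Dd := by rw [ht, div_mul_cancel₀ _ hgD]
    rw [Polynomial.map_map, hsv_H_map g t Φ Nn Dd _ (hsv_deg_le Φ) hj, hΦdef, Polynomial.map_map]
    refine Polynomial.Separable.unit_mul ?_ ?_
    · exact (Polynomial.isUnit_C).mpr (IsUnit.mk0 _ (pow_ne_zero _ hgD))
    · have e : (eval₂RingHom (g.comp C) t).comp (mapRingHom ρ)
          = eval₂RingHom ((g.comp C).comp ρ) t := by
        refine ringHom_ext (fun r => ?_) ?_
        · simp
        · simp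
      rw [e]
      exact vx_separable_of_transcendental d ℓ hℓd (k := k) ((g.comp C).comp ρ) t htr

end GoodGen

/-! ### the local ring `O`: the map `ℤ_(ℓ) → O` and the residue characteristic -/

section LocalRing

/-- in a local ring whose maximal ideal contains `ℓ`, every integer prime to `ℓ` is a unit. -/
theorem hsv_isUnit_natCast {O : Type*} [CommRing O] [IsLocalRing O] {ℓ : ℕ}
    (hℓ : ((ℓ : ℕ) : O) ∈ IsLocalRing.maximalIdeal O) {m : ℕ} (hm : Nat.Coprime m ℓ) :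
    IsUnit ((m : ℕ) : O) := by
  by_contra hnu
  have hmem : ((m : ℕ) : O) ∈ IsLocalRing.maximalIdeal O :=
    (IsLocalRing.mem_maximalIdeal _).2 hnu
  have h1 : ((Nat.gcd m ℓ : ℕ) : ℤ) = (m : ℤ) * Nat.gcdA m ℓ + (ℓ : ℤ) * Nat.gcdB m ℓ :=
    Nat.gcd_eq_gcd_ab m ℓ
  rw [hm] at h1
  have h2 : (1 : O) = (m : O) * ((Nat.gcdA m ℓ : ℤ) : O) + (ℓ : O) * ((Nat.gcdB m ℓ : ℤ) : O) := by
    have := congrArg (fun z : ℤ => (z : O)) h1
    simpa using this
  have h3 : (1 : O) ∈ IsLocalRing.maximalIdeal O := by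
    rw [h2]
    exact Ideal.add_mem _ (Ideal.mul_mem_right _ _ hmem) (Ideal.mul_mem_right _ _ hℓ)
  exact (Ideal.ne_top_iff_one _).1 (IsLocalRing.maximalIdeal.isMaximal O).ne_top h3

/-- the residue field of a local ring whose maximal ideal contains the prime `ℓ` has
characteristic `ℓ`. -/
theorem hsv_charP {O : Type*} [CommRing O] [IsLocalRing O] {ℓ : ℕ} [Fact ℓ.Prime]
    (hℓ : ((ℓ : ℕ) : O) ∈ IsLocalRing.maximalIdeal O) : CharP (IsLocalRing.ResidueField O) ℓ := by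
  rw [CharP.charP_iff_prime_eq_zero (Fact.out : ℓ.Prime)]
  have h : IsLocalRing.residue O ((ℓ : ℕ) : O) = 0 := (IsLocalRing.residue_eq_zero_iff _).mpr hℓ
  rwa [map_natCast] at h

variable {L : Type*} [Field L] [CharZero L] (O : ValuationSubring L) {ℓ : ℕ}

theorem hsv_rat_mem (hℓ : ((ℓ : ℕ) : O) ∈ IsLocalRing.maximalIdeal O)
    (x : ↥(GaloisRep.ratLocalizedAt ℓ)) : algebraMap ℚ L (x : ℚ) ∈ O := by
  have hu : IsUnit ((((x : ℚ).den : ℕ)) : O) := hsv_isUnit_natCast hℓ x.2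
  obtain ⟨u, hu⟩ := hu.exists_right_inv
  have hden : (((x : ℚ).den : ℕ) : L) * (u : L) = 1 := by
    have := congrArg (fun z : O => (z : L)) hu
    simpa using this
  have hx : algebraMap ℚ L (x : ℚ) * (((x : ℚ).den : ℕ) : L) = (((x : ℚ).num : ℤ) : L) := by
    have := congrArg (fun q : ℚ => (q : L)) (Rat.mul_den_eq_num (x : ℚ))
    rw [eq_ratCast]
    push_cast at this
    exact this
  have h1 : algebraMap ℚ L (x : ℚ) = (((x : ℚ).num : ℤ) : L) * (u : L) := by
    rw [← hx, mul_assoc, hden, mul_one]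
  rw [h1]
  exact O.mul_mem _ _ (intCast_mem O _) u.2

/-- the canonical ring homomorphism `ℤ_(ℓ) → O` for a valuation ring `O` of a field of
characteristic zero whose maximal ideal contains `ℓ`. -/
def hsv_rho (hℓ : ((ℓ : ℕ) : O) ∈ IsLocalRing.maximalIdeal O) :
    ↥(GaloisRep.ratLocalizedAt ℓ) →+* ↥O :=
  ((algebraMap ℚ L).comp (GaloisRep.ratLocalizedAt ℓ).subtype).codRestrict O
    (fun x => hsv_rat_mem O hℓ x)

theorem hsv_rho_coe (hℓ : ((ℓ : ℕ) : O) ∈ IsLocalRing.maximalIdeal O)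
    (x : ↥(GaloisRep.ratLocalizedAt ℓ)) :
    ((hsv_rho O hℓ x : O) : L) = algebraMap ℚ L (x : ℚ) := rfl

end LocalRing

/-! ### the generators `θ_d = φ(j(q^d))`, `d ∣ N` -/

section Gens

variable (L : Type*) [Field L] [CharZero L] (h3 : (3 : L) ≠ 0) (N : ℕ) [NeZero N]

/-- the set `{φ(j(q^d)) : d ∣ N}` inside `E = φ(F_N)(μ)` -/
def hsv_gens : Set ↥(hs_E L h3 N) :=
  (Subtype.val : ↥(hs_E L h3 N) → LaurentSeries L) ⁻¹' ((hs_phi L) '' (divisorExpansionsC L N))

theorem hsv_gens_finite : (hsv_gens L h3 N).Finite :=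
  Set.Finite.preimage (Subtype.val_injective.injOn)
    ((jcr_finite_gens (k := L) N).image (hs_phi L))

/-- the finite set `S = {φ(j(q^d)) : d ∣ N} ⊆ E` -/
def hsv_S : Finset ↥(hs_E L h3 N) := (hsv_gens_finite L h3 N).toFinset

theorem hsv_mem_S {θ : hs_E L h3 N} :
    θ ∈ hsv_S L h3 N ↔ ∃ (d : ℕ) (_ : NeZero d), d ∣ N ∧
      (θ : LaurentSeries L) = hs_phi L (qExpand L d (jqModC L)) := by
  rw [hsv_S, Set.Finite.mem_toFinset, hsv_gens, Set.mem_preimage]
  constructor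
  · rintro ⟨_, ⟨d, hd, hdN, rfl⟩, h⟩
    exact ⟨d, hd, hdN, h.symm⟩
  · rintro ⟨d, hd, hdN, h⟩
    exact ⟨_, ⟨d, hd, hdN, rfl⟩, h.symm⟩

/-- `φ(j(q^d))` as an element of `E`. -/
def hsv_theta (d : ℕ) [NeZero d] (hd : d ∣ N) : hs_E L h3 N :=
  ⟨hs_phi L (qExpand L d (jqModC L)), hs_phi_mem_E L h3 N (jqModCd_mem_full L N hd)⟩

theorem hsv_theta_mem (d : ℕ) [NeZero d] (hd : d ∣ N) : hsv_theta L h3 N d hd ∈ hsv_S L h3 N :=
  (hsv_mem_S L h3 N).mpr ⟨d, inferInstance, hd, rfl⟩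

attribute [local instance] hsh_algKE

/-- **`S` generates `E = φ(F_N)(μ)` over `L(μ)`.** -/
theorem hsv_adjoin_eq_top :
    IntermediateField.adjoin (hs_K L h3) ((hsv_S L h3 N : Finset ↥(hs_E L h3 N)) : Set ↥(hs_E L h3 N))
      = ⊤ := by
  haveI : IsScalarTower L (hs_K L h3) (hs_E L h3 N) :=
    lgh_isScalarTower_base (hs_K_le_E L h3 N)
  set M : IntermediateField (hs_K L h3) (hs_E L h3 N) :=
    IntermediateField.adjoin (hs_K L h3)
      ((hsv_S L h3 N : Finset ↥(hs_E L h3 N)) : Set ↥(hs_E L h3 N)) with hM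
  rw [eq_top_iff]
  rintro z -
  let M' : IntermediateField L (LaurentSeries L) := (M.restrictScalars L).map (hs_E L h3 N).val
  have h1 : hs_F3 L N ≤ M' := by
    have hF3 : hs_F3 L N
        = IntermediateField.adjoin L ((hs_phi L) '' (divisorExpansionsC L N)) := by
      rw [← IntermediateField.adjoin_map]
      rfl
    rw [hF3, IntermediateField.adjoin_le_iff]
    rintro _ ⟨y, hy, rfl⟩
    have hyE : hs_phi L y ∈ hs_E L h3 N :=
      hs_phi_mem_E L h3 N (IntermediateField.subset_adjoin L _ hy)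
    refine ⟨⟨hs_phi L y, hyE⟩, ?_, rfl⟩
    show (⟨hs_phi L y, hyE⟩ : hs_E L h3 N) ∈ M
    apply IntermediateField.subset_adjoin
    rw [Finset.mem_coe, hsv_S, Set.Finite.mem_toFinset]
    exact ⟨y, hy, rfl⟩
  have h2 : hs_K L h3 ≤ M' := by
    intro x hx
    refine ⟨⟨x, hs_K_le_E L h3 N hx⟩, ?_, rfl⟩
    show (⟨x, hs_K_le_E L h3 N hx⟩ : hs_E L h3 N) ∈ M
    exact M.algebraMap_mem ⟨x, hx⟩
  have h3' : hs_E L h3 N ≤ M' := sup_le h1 h2
  obtain ⟨w, hw, hwz⟩ := h3' z.2
  have : w = z := Subtype.ext hwz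
  rw [← this]
  exact hw

end Gens

/-! ### the inverse chart `y = 1/μ` -/

section InvChart

variable {S T : Type*} [CommRing S] [CommRing T]

/-- numerator of `j` in the coordinate `y = 1/μ`: `27 (1 + 8 y³)³`. -/
def hsv_invN (y : S) : S := 27 * (1 + 8 * y ^ 3) ^ 3

/-- denominator of `j` in the coordinate `y = 1/μ`: `y³ (1 - y³)³`. -/
def hsv_invD (y : S) : S := y ^ 3 * (1 - y ^ 3) ^ 3

theorem hsv_map_invN (f : S →+* T) (y : S) : f (hsv_invN y) = hsv_invN (f y) := by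
  simp only [hsv_invN, map_mul, map_pow, map_add, map_one, map_ofNat]

theorem hsv_map_invD (f : S →+* T) (y : S) : f (hsv_invD y) = hsv_invD (f y) := by
  simp only [hsv_invD, map_mul, map_pow, map_sub, map_one]

theorem hsv_inv_rel {K : Type*} [Field K] {x j : K} (hx : x ≠ 0)
    (h : cv_hesN x = j * cv_hesD x) : hsv_invN x⁻¹ = j * hsv_invD x⁻¹ := by
  unfold cv_hesN cv_hesD at h
  unfold hsv_invN hsv_invD
  have h12 : x ^ 12 ≠ 0 := pow_ne_zero _ hx
  apply mul_right_cancel₀ h12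
  have e1 : 27 * (1 + 8 * x⁻¹ ^ 3) ^ 3 * x ^ 12 = 27 * x ^ 3 * (x ^ 3 + 8) ^ 3 := by
    field_simp
  have e2 : j * (x⁻¹ ^ 3 * (1 - x⁻¹ ^ 3) ^ 3) * x ^ 12 = j * (x ^ 3 - 1) ^ 3 := by
    field_simp
  rw [e1, e2, h]

end InvChart

/-! ### the good generators of the Hesse cover -/

section HesseGoodGen

variable {L : Type*} [Field L] [CharZero L] (h3 : (3 : L) ≠ 0) (O : ValuationSubring L)
  (N : ℕ) [NeZero N] {ℓ : ℕ} [Fact ℓ.Prime]

/-- the Hesse relation in `E`. -/
theorem hsv_hesse_E :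
    cv_hesN (hs_muE h3 N) = hsf_j3E L h3 N * cv_hesD (hs_muE h3 N) := by
  apply Subtype.ext
  have h1 : ((cv_hesN (hs_muE h3 N) : hs_E L h3 N) : LaurentSeries L) = cv_hesN (hs_mu L h3) :=
    cv_map_hesN (hs_E L h3 N).val.toRingHom (hs_muE h3 N)
  have h2 : ((cv_hesD (hs_muE h3 N) : hs_E L h3 N) : LaurentSeries L) = cv_hesD (hs_mu L h3) :=
    cv_map_hesD (hs_E L h3 N).val.toRingHom (hs_muE h3 N)
  rw [h1, MulMemClass.coe_mul, h2]
  exact hs_hesse L h3

theorem hsv_muE_ne_zero : hs_muE h3 N ≠ 0 := by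
  intro h
  exact hs_mu_ne_zero L h3 (congrArg (fun z : hs_E L h3 N => (z : LaurentSeries L)) h)

/-- the modular equation `Φ_d(j(q³), j(q^{3d})) = 0` in `E`, with coefficients through `O`. -/
theorem hsv_Phi_eval (hℓ : ((ℓ : ℕ) : O) ∈ IsLocalRing.maximalIdeal O) {d : ℕ} [NeZero d]
    (hℓd : ¬ ℓ ∣ d) {θ : hs_E L h3 N}
    (hθ : (θ : LaurentSeries L) = hs_phi L (qExpand L d (jqModC L))) :
    (vx_Phi d ℓ hℓd).eval₂ (eval₂RingHom
      ((algebraMap O (hs_E L h3 N)).comp (hsv_rho O hℓ)) (hsf_j3E L h3 N)) θ = 0 := by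
  set ρL : ↥(GaloisRep.ratLocalizedAt ℓ) →+* L :=
    (algebraMap ℚ L).comp (GaloisRep.ratLocalizedAt ℓ).subtype with hρL
  have h := vx_Phi_eval_qExpand d ℓ hℓd (k := L) ρL 3
  apply (hs_E L h3 N).val.toRingHom.injective
  rw [map_zero, Polynomial.hom_eval₂]
  have e : ((hs_E L h3 N).val.toRingHom).comp (eval₂RingHom
      ((algebraMap O (hs_E L h3 N)).comp (hsv_rho O hℓ)) (hsf_j3E L h3 N))
      = eval₂RingHom ((HahnSeries.C : L →+* LaurentSeries L).comp ρL)
          (qExpand L 3 (jqModC L)) := by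
    refine ringHom_ext (fun r => ?_) ?_
    · simp only [RingHom.comp_apply, coe_eval₂RingHom, eval₂_C]
      rw [HahnSeries.C_apply, ← algebraMap_laurentSeries_eq_single]
      rfl
    · simp only [RingHom.comp_apply, coe_eval₂RingHom, eval₂_X]
      rfl
  rw [e]
  have hθ' : (hs_E L h3 N).val.toRingHom θ = qExpand L 3 (qExpand L d (jqModC L)) := hθ
  rw [hθ']
  exact h

variable {N}

theorem hsv_three_ne_zero (hℓ : ((ℓ : ℕ) : O) ∈ IsLocalRing.maximalIdeal O) (hℓ3 : ℓ ≠ 3) :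
    (3 : IsLocalRing.ResidueField O) ≠ 0 := by
  haveI := hsv_charP hℓ
  intro h
  have h1 : ((3 : ℕ) : IsLocalRing.ResidueField O) = 0 := by exact_mod_cast h
  rw [CharP.cast_eq_zero_iff (IsLocalRing.ResidueField O) ℓ] at h1
  exact hℓ3 ((Nat.prime_dvd_prime_iff_eq (Fact.out : ℓ.Prime) Nat.prime_three).mp h1)

theorem hsv_X_cube_sub_one_ne_zero (k : Type*) [Field k] : (X : k[X]) ^ 3 - 1 ≠ 0 := by
  have := X_pow_sub_C_ne_zero (R := k) (by norm_num : 0 < 3) (1 : k)
  rwa [map_one] at this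

/-- **(V) for the chart `μ`**: every `θ ∈ S` is a good generator over the coordinate `μ`. -/
theorem hsv_goodGen_mu (hℓ : ((ℓ : ℕ) : O) ∈ IsLocalRing.maximalIdeal O) (hℓ3 : ℓ ≠ 3)
    (hℓN : ¬ ℓ ∣ N) {θ : hs_E L h3 N} (hθ : θ ∈ hsv_S L h3 N) :
    mdl_GoodGen ↥O (hs_muE h3 N) θ := by
  obtain ⟨d, hd, hdN, hθd⟩ := (hsv_mem_S L h3 N).mp hθ
  haveI := hd
  haveI := hsv_charP hℓ
  have hℓd : ¬ ℓ ∣ d := fun h => hℓN (h.trans hdN)
  have h3k := hsv_three_ne_zero O hℓ hℓ3
  set k := IsLocalRing.ResidueField O with hk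
  have hDmap : (cv_hesD (X : O[X])).map (IsLocalRing.residue O) = cv_hesD (X : k[X]) := by
    have := cv_map_hesD (mapRingHom (IsLocalRing.residue O)) (X : O[X])
    rwa [coe_mapRingHom, map_X] at this
  have hNmap : (cv_hesN (X : O[X])).map (IsLocalRing.residue O) = cv_hesN (X : k[X]) := by
    have := cv_map_hesN (mapRingHom (IsLocalRing.residue O)) (X : O[X])
    rwa [coe_mapRingHom, map_X] at this
  have hD0 : cv_hesD (X : k[X]) ≠ 0 := by
    unfold cv_hesD
    exact pow_ne_zero _ (hsv_X_cube_sub_one_ne_zero k)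
  refine hsv_goodGen_of_rel hℓd (hsv_rho O hℓ) (cv_hesN X) (cv_hesD X) (hs_muE h3 N) θ
    (hsf_j3E L h3 N) ?_ (hsv_Phi_eval h3 O N hℓ hℓd hθd) ?_ ?_
  · have e1 := cv_map_hesN ((aeval (hs_muE h3 N) : O[X] →ₐ[O] hs_E L h3 N) : O[X] →+* hs_E L h3 N)
      (X : O[X])
    have e2 := cv_map_hesD ((aeval (hs_muE h3 N) : O[X] →ₐ[O] hs_E L h3 N) : O[X] →+* hs_E L h3 N)
      (X : O[X])
    simp only [AlgHom.coe_toRingHom, aeval_X] at e1 e2
    rw [e1, e2]
    exact hsv_hesse_E h3 N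
  · rw [hDmap]
    exact hD0
  · rw [hDmap, hNmap]
    refine hsv_transcendental_div _ _ (1 : k) ?_ ?_ hD0
    · have := cv_map_hesD (evalRingHom (1 : k)) (X : k[X])
      rw [coe_evalRingHom, eval_X] at this
      rw [this]
      unfold cv_hesD
      norm_num
    · have := cv_map_hesN (evalRingHom (1 : k)) (X : k[X])
      rw [coe_evalRingHom, eval_X] at this
      rw [this]
      have e : cv_hesN (1 : k) = 3 ^ 9 := by
        unfold cv_hesN
        norm_num
      rw [e]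
      exact pow_ne_zero _ h3k

/-- **(V) for the chart `1/μ`**: every `θ ∈ S` is a good generator over the coordinate `μ⁻¹`. -/
theorem hsv_goodGen_mu_inv (hℓ : ((ℓ : ℕ) : O) ∈ IsLocalRing.maximalIdeal O) (hℓ3 : ℓ ≠ 3)
    (hℓN : ¬ ℓ ∣ N) {θ : hs_E L h3 N} (hθ : θ ∈ hsv_S L h3 N) :
    mdl_GoodGen ↥O (hs_muE h3 N)⁻¹ θ := by
  obtain ⟨d, hd, hdN, hθd⟩ := (hsv_mem_S L h3 N).mp hθ
  haveI := hd
  haveI := hsv_charP hℓ
  have hℓd : ¬ ℓ ∣ d := fun h => hℓN (h.trans hdN)
  have h3k := hsv_three_ne_zero O hℓ hℓ3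
  set k := IsLocalRing.ResidueField O with hk
  have hDmap : (hsv_invD (X : O[X])).map (IsLocalRing.residue O) = hsv_invD (X : k[X]) := by
    have := hsv_map_invD (mapRingHom (IsLocalRing.residue O)) (X : O[X])
    rwa [coe_mapRingHom, map_X] at this
  have hNmap : (hsv_invN (X : O[X])).map (IsLocalRing.residue O) = hsv_invN (X : k[X]) := by
    have := hsv_map_invN (mapRingHom (IsLocalRing.residue O)) (X : O[X])
    rwa [coe_mapRingHom, map_X] at this
  have hD0 : hsv_invD (X : k[X]) ≠ 0 := by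
    unfold hsv_invD
    refine mul_ne_zero (pow_ne_zero _ X_ne_zero) (pow_ne_zero _ ?_)
    intro h
    apply hsv_X_cube_sub_one_ne_zero k
    rw [← neg_eq_zero, neg_sub]
    exact h
  refine hsv_goodGen_of_rel hℓd (hsv_rho O hℓ) (hsv_invN X) (hsv_invD X) (hs_muE h3 N)⁻¹ θ
    (hsf_j3E L h3 N) ?_ (hsv_Phi_eval h3 O N hℓ hℓd hθd) ?_ ?_
  · have e1 := hsv_map_invN
      ((aeval (hs_muE h3 N)⁻¹ : O[X] →ₐ[O] hs_E L h3 N) : O[X] →+* hs_E L h3 N) (X : O[X])
    have e2 := hsv_map_invD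
      ((aeval (hs_muE h3 N)⁻¹ : O[X] →ₐ[O] hs_E L h3 N) : O[X] →+* hs_E L h3 N) (X : O[X])
    simp only [AlgHom.coe_toRingHom, aeval_X] at e1 e2
    rw [e1, e2]
    exact hsv_inv_rel (hsv_muE_ne_zero h3 N) (hsv_hesse_E h3 N)
  · rw [hDmap]
    exact hD0
  · rw [hDmap, hNmap]
    refine hsv_transcendental_div _ _ (0 : k) ?_ ?_ hD0
    · have := hsv_map_invD (evalRingHom (0 : k)) (X : k[X])
      rw [coe_evalRingHom, eval_X] at this
      rw [this]
      unfold hsv_invD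
      norm_num
    · have := hsv_map_invN (evalRingHom (0 : k)) (X : k[X])
      rw [coe_evalRingHom, eval_X] at this
      rw [this]
      have e : hsv_invN (0 : k) = 3 ^ 3 := by
        unfold hsv_invN
        norm_num
      rw [e]
      exact pow_ne_zero _ h3k

end HesseGoodGen

/-! ### the package in the `lgv_` shapes (generic `O`, generic `K`, any Hesse coordinate `x`) -/

section Package

variable {L : Type*} [Field L] [CharZero L] (h3 : (3 : L) ≠ 0) {N : ℕ} [NeZero N]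

/-- `E` is generated over `L` by the `θ_d` and `μ`. -/
theorem hsv_adjoin_union :
    IntermediateField.adjoin L
      ((hsv_S L h3 N : Set (hs_E L h3 N)) ∪ {hs_muE h3 N}) = ⊤ := by
  apply IntermediateField.map_injective (hs_E L h3 N).val
  rw [IntermediateField.adjoin_map, ← AlgHom.fieldRange_eq_map, IntermediateField.fieldRange_val]
  conv_rhs => rw [hsf_E_eq_adjoin]
  congr 1
  ext z
  simp only [Set.mem_image, Set.mem_union, Finset.mem_coe, Set.mem_singleton_iff, hsf_gens]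
  constructor
  · rintro ⟨w, hw | hw, rfl⟩
    · obtain ⟨d, hd, hdN, hwd⟩ := (hsv_mem_S L h3 N).mp hw
      left
      exact ⟨qExpand L d (jqModC L), ⟨d, hd, hdN, rfl⟩, hwd.symm⟩
    · right
      rw [hw]
      rfl
  · rintro (⟨w, ⟨d, hne, hd, rfl⟩, rfl⟩ | hz)
    · haveI := hne
      exact ⟨hsv_theta L h3 N d hd, Or.inl (hsv_theta_mem L h3 N d hd), rfl⟩
    · exact ⟨hs_muE h3 N, Or.inr rfl, hz.symm⟩

/-- **the `θ_d` generate `E` over any field `K` between `L` and `E` containing `μ`** (the shape of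
`lgv_adjoin_eq_top`). -/
theorem hsv_adjoin_eq_top' {K : Type*} [Field K] [Algebra L K] [Algebra K (hs_E L h3 N)]
    [IsScalarTower L K (hs_E L h3 N)] (hmu : hs_muE h3 N ∈ (algebraMap K (hs_E L h3 N)).range) :
    IntermediateField.adjoin K (hsv_S L h3 N : Set (hs_E L h3 N)) = ⊤ := by
  rw [eq_top_iff]
  intro z _
  have hz : z ∈ IntermediateField.adjoin L
      ((hsv_S L h3 N : Set (hs_E L h3 N)) ∪ {hs_muE h3 N}) := by
    rw [hsv_adjoin_union]
    exact IntermediateField.mem_top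
  have hle : IntermediateField.adjoin L ((hsv_S L h3 N : Set (hs_E L h3 N)) ∪ {hs_muE h3 N})
      ≤ (IntermediateField.adjoin K (hsv_S L h3 N : Set (hs_E L h3 N))).restrictScalars L := by
    rw [IntermediateField.adjoin_le_iff]
    rintro w (hw | hw)
    · exact IntermediateField.subset_adjoin K _ hw
    · rw [Set.mem_singleton_iff] at hw
      obtain ⟨c, hc⟩ := hmu
      rw [hw, ← hc]
      exact (IntermediateField.adjoin K (hsv_S L h3 N : Set (hs_E L h3 N))).algebraMap_mem c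
  exact hle hz

variable {O : Type*} [CommRing O] [IsLocalRing O] [Algebra O L] [Algebra O (hs_E L h3 N)]
  [IsScalarTower O L (hs_E L h3 N)] (ℓ : ℕ) [Fact ℓ.Prime]

/-- the modular equation `Φ_d(j(q³), j(q^{3d})) = 0` in `E`, with coefficients pushed through any
ring `O` between `ℤ_(ℓ)` and `L`. -/
theorem hsv_Phi_eval_gen {d : ℕ} [NeZero d] (hℓd : ¬ ℓ ∣ d)
    (ρO : ↥(GaloisRep.ratLocalizedAt ℓ) →+* O) {θ : hs_E L h3 N}
    (hθ : (θ : LaurentSeries L) = hs_phi L (qExpand L d (jqModC L))) :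
    (vx_Phi d ℓ hℓd).eval₂ (eval₂RingHom
      ((algebraMap O (hs_E L h3 N)).comp ρO) (hsf_j3E L h3 N)) θ = 0 := by
  have h := vx_Phi_eval_qExpand d ℓ hℓd (k := L) ((algebraMap O L).comp ρO) 3
  apply (hs_E L h3 N).val.toRingHom.injective
  rw [map_zero, Polynomial.hom_eval₂]
  have e : ((hs_E L h3 N).val.toRingHom).comp (eval₂RingHom
      ((algebraMap O (hs_E L h3 N)).comp ρO) (hsf_j3E L h3 N))
      = eval₂RingHom ((HahnSeries.C : L →+* LaurentSeries L).comp ((algebraMap O L).comp ρO))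
          (qExpand L 3 (jqModC L)) := by
    refine ringHom_ext (fun r => ?_) ?_
    · simp only [RingHom.comp_apply, coe_eval₂RingHom, eval₂_C]
      rw [IsScalarTower.algebraMap_apply O L (hs_E L h3 N), HahnSeries.C_apply,
        ← algebraMap_laurentSeries_eq_single]
      rfl
    · simp only [RingHom.comp_apply, coe_eval₂RingHom, eval₂_X]
      rfl
  rw [e]
  have hθ' : (hs_E L h3 N).val.toRingHom θ = qExpand L 3 (qExpand L d (jqModC L)) := hθ
  rw [hθ']
  exact h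

variable [CharP (IsLocalRing.ResidueField O) ℓ]

/-- **hypothesis (V) of `mdl_regAt` for the Hesse cover** (the shape of `lgv_V`), for the finite
generating set `hsv_S L h3 N` and any Hesse coordinate `x` (`N(x) = j₃ · D(x)`). -/
theorem hsv_V (h3k : (3 : IsLocalRing.ResidueField O) ≠ 0) (hℓN : ¬ ℓ ∣ N)
    (ρO : ↥(GaloisRep.ratLocalizedAt ℓ) →+* O) (x : hs_E L h3 N)
    (hx : cv_hesN x = hsf_j3E L h3 N * cv_hesD x) :
    ∀ θ ∈ hsv_S L h3 N, mdl_GoodGen O x θ := by
  intro θ hθ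
  obtain ⟨d, hd, hdN, hθd⟩ := (hsv_mem_S L h3 N).mp hθ
  haveI := hd
  have hℓd : ¬ ℓ ∣ d := fun h => hℓN (h.trans hdN)
  set k := IsLocalRing.ResidueField O with hk
  have hDmap : (cv_hesD (X : O[X])).map (IsLocalRing.residue O) = cv_hesD (X : k[X]) := by
    have := cv_map_hesD (mapRingHom (IsLocalRing.residue O)) (X : O[X])
    rwa [coe_mapRingHom, map_X] at this
  have hNmap : (cv_hesN (X : O[X])).map (IsLocalRing.residue O) = cv_hesN (X : k[X]) := by
    have := cv_map_hesN (mapRingHom (IsLocalRing.residue O)) (X : O[X])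
    rwa [coe_mapRingHom, map_X] at this
  have hD0 : cv_hesD (X : k[X]) ≠ 0 := by
    unfold cv_hesD
    exact pow_ne_zero _ (hsv_X_cube_sub_one_ne_zero k)
  refine hsv_goodGen_of_rel hℓd ρO (cv_hesN X) (cv_hesD X) x θ
    (hsf_j3E L h3 N) ?_ (hsv_Phi_eval_gen h3 ℓ hℓd ρO hθd) ?_ ?_
  · have e1 := cv_map_hesN ((aeval x : O[X] →ₐ[O] hs_E L h3 N) : O[X] →+* hs_E L h3 N)
      (X : O[X])
    have e2 := cv_map_hesD ((aeval x : O[X] →ₐ[O] hs_E L h3 N) : O[X] →+* hs_E L h3 N)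
      (X : O[X])
    simp only [AlgHom.coe_toRingHom, aeval_X] at e1 e2
    rw [e1, e2]
    exact hx
  · rw [hDmap]
    exact hD0
  · rw [hDmap, hNmap]
    refine hsv_transcendental_div _ _ (1 : k) ?_ ?_ hD0
    · have := cv_map_hesD (evalRingHom (1 : k)) (X : k[X])
      rw [coe_evalRingHom, eval_X] at this
      rw [this]
      unfold cv_hesD
      norm_num
    · have := cv_map_hesN (evalRingHom (1 : k)) (X : k[X])
      rw [coe_evalRingHom, eval_X] at this
      rw [this]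
      have e : cv_hesN (1 : k) = 3 ^ 9 := by
        unfold cv_hesN
        norm_num
      rw [e]
      exact pow_ne_zero _ h3k

/-- **hypothesis (V) for the chart at `μ = ∞`**: the same over the coordinate `x⁻¹`
(`j₃ = 27 (1 + 8 y³)³ / (y³ (1 - y³)³)` for `y = 1/x`). -/
theorem hsv_V_inv (h3k : (3 : IsLocalRing.ResidueField O) ≠ 0) (hℓN : ¬ ℓ ∣ N)
    (ρO : ↥(GaloisRep.ratLocalizedAt ℓ) →+* O) (x : hs_E L h3 N) (hx0 : x ≠ 0)
    (hx : cv_hesN x = hsf_j3E L h3 N * cv_hesD x) :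
    ∀ θ ∈ hsv_S L h3 N, mdl_GoodGen O x⁻¹ θ := by
  intro θ hθ
  obtain ⟨d, hd, hdN, hθd⟩ := (hsv_mem_S L h3 N).mp hθ
  haveI := hd
  have hℓd : ¬ ℓ ∣ d := fun h => hℓN (h.trans hdN)
  set k := IsLocalRing.ResidueField O with hk
  have hDmap : (hsv_invD (X : O[X])).map (IsLocalRing.residue O) = hsv_invD (X : k[X]) := by
    have := hsv_map_invD (mapRingHom (IsLocalRing.residue O)) (X : O[X])
    rwa [coe_mapRingHom, map_X] at this
  have hNmap : (hsv_invN (X : O[X])).map (IsLocalRing.residue O) = hsv_invN (X : k[X]) := by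
    have := hsv_map_invN (mapRingHom (IsLocalRing.residue O)) (X : O[X])
    rwa [coe_mapRingHom, map_X] at this
  have hD0 : hsv_invD (X : k[X]) ≠ 0 := by
    unfold hsv_invD
    refine mul_ne_zero (pow_ne_zero _ X_ne_zero) (pow_ne_zero _ ?_)
    intro h
    apply hsv_X_cube_sub_one_ne_zero k
    rw [← neg_eq_zero, neg_sub]
    exact h
  refine hsv_goodGen_of_rel hℓd ρO (hsv_invN X) (hsv_invD X) x⁻¹ θ
    (hsf_j3E L h3 N) ?_ (hsv_Phi_eval_gen h3 ℓ hℓd ρO hθd) ?_ ?_
  · have e1 := hsv_map_invN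
      ((aeval x⁻¹ : O[X] →ₐ[O] hs_E L h3 N) : O[X] →+* hs_E L h3 N) (X : O[X])
    have e2 := hsv_map_invD
      ((aeval x⁻¹ : O[X] →ₐ[O] hs_E L h3 N) : O[X] →+* hs_E L h3 N) (X : O[X])
    simp only [AlgHom.coe_toRingHom, aeval_X] at e1 e2
    rw [e1, e2]
    exact hsv_inv_rel hx0 hx
  · rw [hDmap]
    exact hD0
  · rw [hDmap, hNmap]
    refine hsv_transcendental_div _ _ (0 : k) ?_ ?_ hD0
    · have := hsv_map_invD (evalRingHom (0 : k)) (X : k[X])
      rw [coe_evalRingHom, eval_X] at this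
      rw [this]
      unfold hsv_invD
      norm_num
    · have := hsv_map_invN (evalRingHom (0 : k)) (X : k[X])
      rw [coe_evalRingHom, eval_X] at this
      rw [this]
      have e : hsv_invN (0 : k) = 3 ^ 3 := by
        unfold hsv_invN
        norm_num
      rw [e]
      exact pow_ne_zero _ h3k

end Package

end Fermat.Agent.JT3
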