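/-
JT3 / Route R (S18), instance layer, last reduction: S18 from the ramification hypotheses
(H), (T) of the two covers over number fields `L1 ⊆ Q̄`:
* `lg_S18_of_ram`: `ℓ` odd, Legendre cover, from `lg_RamHyp N λ` and `lg_RamHyp N λ⁻¹`;
* `hs_S18_of_ram`: `ℓ ≠ 3` (in particular `ℓ = 2`), Hesse cover, from `hs_RamHyp3 h3 N μ ω` and
  `hs_RamHyp4 h3 N μ⁻¹ ω`.
Everything else (the generic model theorem `mdl_regAt`, the vertical hypotheses, the F-core, the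
descent to number fields) is plugged in here.
-/
import Mathlib
import Fermat.Agent.JT3.Inst.FinalReg
import Fermat.Agent.JT3.Inst.HesseFinalReg
import Fermat.Agent.JT3.Inst.RegApply
import Fermat.Agent.JT3.Inst.HesseRegApply
import Fermat.Agent.JT3.Inst.HesseVert

set_option autoImplicit false

noncomputable section

open ModularCurve IntermediateField AlgebraicCurve

namespace Fermat.Agent.JT3

section S18Ram

/-- a cube root of unity lies in every valuation subring. -/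
theorem hs_root_mem {L : Type*} [Field L] (O : ValuationSubring L) (ω : L) (h : ω ^ 3 = 1) :
    ω ∈ O := by
  rcases O.mem_or_inv_mem ω with h1 | h1
  · exact h1
  · have h2 : ω = (ω⁻¹) ^ 2 := by
      have hω0 : ω ≠ 0 := by
        rintro rfl
        norm_num at h
      field_simp
      exact h
    rw [h2]
    exact pow_mem h1 2

attribute [local instance] lgh_algKE hsh_algKE

/-- **S18 for odd `ℓ` from the ramification hypotheses of the Legendre cover.** -/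
theorem lg_S18_of_ram (N : ℕ) [NeZero N] {ℓ : ℕ} [Fact ℓ.Prime] (hℓN : ¬ ℓ ∣ N) (hℓ2 : ℓ ≠ 2)
    (A : ValuationSubring (AlgebraicClosure ℚ)) (hA : A.LiesOverPrime ℓ)
    (h : ReductionInputsModL A N) (m : ℕ) (hm : ¬ ℓ ∣ m)
    (hram : ∀ (L1 : Type) [Field L1] [NumberField L1] [Algebra L1 (AlgebraicClosure ℚ)],
      lg_RamHyp N (lgh_lamK L1) ∧ lg_RamHyp N (lgh_lamK L1)⁻¹)
    (z : JZero N) (hmz : m • z = 0) (hz : reductionModL A N z = 0) : z = 0 := by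
  refine lg_S18_of_regAt N hℓN hℓ2 A hA h m hm N ?_ z hmz hz
  intro L1 _ _ _ ζ hζ _ π hπ
  have hℓmem := lg_natCast_mem_maximalIdeal A hA L1
  exact ⟨lg_regAt_lam _ N hπ ℓ hℓmem hℓ2 hℓN ζ hζ (hram L1).1,
    lg_regAt_lam_inv _ N hπ ℓ hℓmem hℓ2 hℓN ζ hζ (hram L1).2⟩

/-- **S18 for `ℓ ≠ 3` from the ramification hypotheses of the Hesse cover.** -/
theorem hs_S18_of_ram (N : ℕ) [NeZero N] {ℓ : ℕ} [Fact ℓ.Prime] (hℓN : ¬ ℓ ∣ N) (hℓ3 : ℓ ≠ 3)
    (A : ValuationSubring (AlgebraicClosure ℚ)) (hA : A.LiesOverPrime ℓ)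
    (h : ReductionInputsModL A N) (m : ℕ) (hm : ¬ ℓ ∣ m)
    (hram : ∀ (L1 : Type) [Field L1] [NumberField L1] [Algebra L1 (AlgebraicClosure ℚ)]
      (h3 : (3 : L1) ≠ 0) (ω : L1), ω ^ 2 + ω + 1 = 0 →
      hs_RamHyp3 h3 N (hsh_muK L1 h3) ω ∧ hs_RamHyp4 h3 N (hsh_muK L1 h3)⁻¹ ω)
    (z : JZero N) (hmz : m • z = 0) (hz : reductionModL A N z = 0) : z = 0 := by
  haveI : NeZero (3 * N) := ⟨Nat.mul_ne_zero (by norm_num) (NeZero.ne N)⟩
  refine hs_S18_of_regAt N hℓN hℓ3 A hA h m hm (3 * N) (dvd_mul_right 3 N) ?_ z hmz hz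
  intro L1 _ _ _ h3 ζ hζ _ π hπ
  have hℓmem := lg_natCast_mem_maximalIdeal A hA L1
  have hN0 : 0 < 3 * N := Nat.pos_of_ne_zero (NeZero.ne (3 * N))
  have hζN : IsPrimitiveRoot (ζ ^ 3) N := hζ.pow hN0 rfl
  have hω : IsPrimitiveRoot (ζ ^ N) 3 := hζ.pow hN0 (mul_comm 3 N)
  have hω3 : (ζ ^ N) ^ 3 = 1 := hω.pow_eq_one
  have hωsum : (ζ ^ N) ^ 2 + ζ ^ N + 1 = 0 := by
    have := hω.geom_sum_eq_zero (by norm_num)
    simp only [Finset.sum_range_succ, Finset.sum_range_zero, pow_zero, pow_one, zero_add] at this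
    linear_combination this
  let ωO : ↥(A.comap (algebraMap L1 (AlgebraicClosure ℚ))) := ⟨ζ ^ N, hs_root_mem _ _ hω3⟩
  have hωO : ωO ^ 2 + ωO + 1 = 0 := Subtype.ext hωsum
  obtain ⟨hr3, hr4⟩ := hram L1 h3 (ζ ^ N) hωsum
  constructor
  · exact hs_regAt_apply3 h3 N hπ ℓ hℓmem hℓ3 hℓN (ζ ^ 3) hζN ωO hωO (hsh_muK L1 h3)
      (hs_muK_transcendental L1 h3) (hsh_adjoin_muK L1 h3) (hsv_S L1 h3 N)
      (hsv_adjoin_eq_top L1 h3 N) (fun θ hθ => hsv_goodGen_mu h3 _ hℓmem hℓ3 hℓN hθ) hr3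
  · have := hs_regAt_apply4 h3 N hπ ℓ hℓmem hℓ3 hℓN (ζ ^ 3) hζN ωO hωO (hsh_muK L1 h3)⁻¹
      (hs_muK_inv_transcendental L1 h3) (hs_adjoin_muK_inv L1 h3) (hsv_S L1 h3 N)
      (hsv_adjoin_eq_top L1 h3 N)
      (fun θ hθ => by
        rw [hs_algebraMap_muK_inv]
        exact hsv_goodGen_mu_inv h3 _ hℓmem hℓ3 hℓN hθ) hr4
    rwa [hs_algebraMap_muK_inv] at this

end S18Ram

end Fermat.Agent.JT3
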