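/-
JT3 / node E (geometric input) + Route R: the regularity (`jt_RegAt`) of the two standard charts
of the Legendre model over an ARBITRARY discretely valued field `(L, O)` of characteristic zero
inside `Q̄` (no `NumberField` hypothesis): `lg_regAt_lam` / `lg_regAt_lam_inv` (Inst/RegApply.lean)
with the ramification hypotheses discharged by `Inst/Ram.lean` (`lg_ramHyp_of_rel`).
This is the statement node E consumes at the base level `(K₀, O₀)`.
-/
import Mathlib
import Fermat.Agent.JT3.Inst.S18Odd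

set_option autoImplicit false

noncomputable section

open ModularCurve IntermediateField AlgebraicCurve

namespace Fermat.Agent.JT3

section RegPair

attribute [local instance] lgh_algKjK lgh_algKjF2 lgh_algKjE lgh_algF2E lgh_algKE

/-- **Regularity of the two `λ`-charts of the Legendre model** over any DVR level `(L, O)`,
`L ⊆ Q̄` of characteristic zero containing a primitive `N`-th root of unity, `ℓ` odd, `ℓ ∤ N`. -/
theorem lg_regAt_pair (L : Type*) [Field L] [CharZero L] [Algebra ℚ L]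
    [Algebra L (AlgebraicClosure ℚ)] [IsScalarTower ℚ L (AlgebraicClosure ℚ)]
    (O : ValuationSubring L) [IsDiscreteValuationRing O] (N : ℕ) [NeZero N]
    {π : O} (hπ : Irreducible π) (ℓ : ℕ) [Fact ℓ.Prime]
    (hℓ : ((ℓ : ℕ) : O) ∈ IsLocalRing.maximalIdeal O) (hℓ2 : ℓ ≠ 2) (hℓN : ¬ ℓ ∣ N)
    (ζ : L) (hζ : IsPrimitiveRoot ζ N) :
    jt_RegAt (fc_chart O ({lg_lamE N} : Set (lg_E L N)))
        (algebraMap O (fc_chart O ({lg_lamE N} : Set (lg_E L N))) π) ∧
      jt_RegAt (fc_chart O ({(lg_lamE N)⁻¹} : Set (lg_E L N)))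
        (algebraMap O (fc_chart O ({(lg_lamE N)⁻¹} : Set (lg_E L N))) π) :=
  ⟨lg_regAt_lam O N hπ ℓ hℓ hℓ2 hℓN ζ hζ (lg_ramHyp_of_rel L N (lgh_legendre_K L)),
    lg_regAt_lam_inv O N hπ ℓ hℓ hℓ2 hℓN ζ hζ (lg_ramHyp_of_rel L N (lgr_legendre_K_inv L))⟩

end RegPair

end Fermat.Agent.JT3
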