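import Mathlib
import Fermat.Agent.JT3.Inst.FunFieldFacts
import Fermat.Agent.JT3.Export.RamLInst
import Fermat.Agent.S24.Hurwitz.FunctionField

/-!
# JT3 / node E: the level-`N` modular function field is finite over `L(j)` and `L(1/j)`

For an arbitrary field `L` of characteristic zero: `lg_F L N = L(j(q^d) : d ∣ N)` is a finite
extension of `L(j)` and of `L(j⁻¹)` (prefix `lgf_level_`).
-/

set_option autoImplicit false
set_option linter.unusedSectionVars false
set_option linter.style.haveILetI false

namespace Fermat.Agent.JT3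

open Polynomial IntermediateField ModularCurve

section LevelFinite

variable (L : Type*) [Field L] [CharZero L] (N : ℕ) [NeZero N]

/-- `j` is transcendental over `L`. -/
theorem lgf_level_jq_transcendental : Transcendental L (jqModC L) := by
  refine lgf_transcendental_of_coeff (n := -1) (by norm_num) ?_
  rw [coeff_jqModC_neg_one]
  exact one_ne_zero

theorem lgf_level_j_transcendental : Transcendental L (rml_jF L N) := fun h =>
  lgf_level_jq_transcendental L (IntermediateField.isAlgebraic_iff.1 h)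

theorem lgf_level_j_inv_transcendental : Transcendental L (rml_jF L N)⁻¹ := fun h =>
  lgf_level_j_transcendental L N (IsAlgebraic.inv_iff.1 h)

/-- **`F_N` is finite over `L(j)`.** -/
theorem lgf_level_finite : FiniteDimensional L⟮rml_jF L N⟯ ↥(lg_F L N) := by
  refine lgf_finite_of_gens (lg_F L N) (divisorExpansionsC L N) (jcr_finite_gens (k := L) N)
    rfl (rml_jF L N) ?_
  rintro y ⟨d, hd, hdN, hy⟩
  haveI := hd
  obtain ⟨ℓ, hℓN, hℓ⟩ := Nat.exists_infinite_primes (N + 1)
  haveI : Fact ℓ.Prime := ⟨hℓ⟩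
  have hℓd : ¬ ℓ ∣ d := fun h => by
    have := Nat.le_of_dvd (Nat.pos_of_ne_zero (NeZero.ne N)) (h.trans hdN)
    omega
  let ρ : ↥(GaloisRep.ratLocalizedAt ℓ) →+* L :=
    (algebraMap ℚ L).comp (GaloisRep.ratLocalizedAt ℓ).subtype
  obtain ⟨Φ, hm, h0⟩ := jcr_modEq d ℓ hℓd ρ
  refine (lgf_isIntegral_of_modEq (lg_F L N).val ρ L⟮rml_jF L N⟯
    (x := rml_jF L N) (y := y) (mem_adjoin_simple_self L _) Φ hm ?_).isAlgebraic
  have hy' : (lg_F L N).val y = qExpand L d (jqModC L) := hy
  rw [hy']
  exact h0

/-- **`F_N` is finite over `L(1/j)`.** -/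
theorem lgf_level_finite_inv : FiniteDimensional L⟮(rml_jF L N)⁻¹⟯ ↥(lg_F L N) :=
  haveI := lgf_level_finite L N
  Fermat.Agent.S24.hw_finiteDimensional_adjoin (rml_jF L N) (lgf_level_j_inv_transcendental L N)

end LevelFinite

end Fermat.Agent.JT3
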