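import Fermat.Agent.JT3.Inst.HesseRamCore
import Fermat.Agent.JT3.Inst.HesseRamWrap

/-!
# JT3 / Route R (S18): the ramification hypotheses of the Hesse cover (prefix `hsrc_`)
-/

set_option autoImplicit false

open IntermediateField

namespace Fermat.Agent.JT3

open Fermat.Agent.S24

section

attribute [local instance] hsh_algKjK hsh_algKjF3 hsh_algKjE hsh_algF3E hsh_algKE

/-- **the hypothesis `hram` of `hs_S18_of_ram`**. -/
theorem hsrc_hram (N : ℕ) [NeZero N] (L1 : Type) [Field L1] [NumberField L1]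
    [Algebra L1 (AlgebraicClosure ℚ)] (h3 : (3 : L1) ≠ 0) (ω : L1) (hω : ω ^ 2 + ω + 1 = 0) :
    hs_RamHyp3 h3 N (hsh_muK L1 h3) ω ∧ hs_RamHyp4 h3 N (hsh_muK L1 h3)⁻¹ ω := by
  obtain ⟨cH, cT, cTinf⟩ := hsrc_cores (L := L1) h3 N
  exact ⟨hsrw_ramHyp3 h3 N ω hω cH cT, hsrw_ramHyp4 h3 N ω hω cH cT cTinf⟩

end

end Fermat.Agent.JT3
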