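/-
JT3 / Route R (S18): **S18 for odd `ℓ`** (Legendre cover), unconditionally:
`lg_S18_of_ram` (Inst/S18Ram.lean) + the ramification hypotheses `lg_RamHyp` from helper29's
`Inst/Ram.lean` (`lgr_hH`, `lgr_hT0`, `lgr_hT1`).
-/
import Mathlib
import Fermat.Agent.JT3.Inst.S18Ram
import Fermat.Agent.JT3.Inst.Ram

set_option autoImplicit false

noncomputable section

open ModularCurve IntermediateField AlgebraicCurve

namespace Fermat.Agent.JT3

section S18Odd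

attribute [local instance] lgh_algKjK lgh_algKjF2 lgh_algKjE lgh_algF2E lgh_algKE

/-- the ramification hypotheses of the Legendre cover over a field `L ⊆ Q̄`. -/
theorem lg_ramHyp_of_rel (L : Type*) [Field L] [CharZero L] [Algebra ℚ L]
    [Algebra L (AlgebraicClosure ℚ)] [IsScalarTower ℚ L (AlgebraicClosure ℚ)] (N : ℕ) [NeZero N]
    {x : lg_K L}
    (hrel : cv_legN x = algebraMap (lgh_Kj L) (lg_K L) (lgh_j L) * cv_legD x) :
    lg_RamHyp N x where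
  hH := fun V2 _ _ hL hx hx0 hx1 => lgr_hH N hrel V2 hL hx hx0 hx1
  hT0 := fun V2 _ _ hL hx hx0 P _ hP => lgr_hT0 N hrel V2 hL hx hx0 P hP
  hT1 := fun V2 _ _ hL hx hx1 P _ hP => lgr_hT1 N hrel V2 hL hx hx1 P hP

/-- **S18 for odd `ℓ`.** -/
theorem lg_S18_odd (N : ℕ) [NeZero N] {ℓ : ℕ} [Fact ℓ.Prime] (hℓN : ¬ ℓ ∣ N) (hℓ2 : ℓ ≠ 2)
    (A : ValuationSubring (AlgebraicClosure ℚ)) (hA : A.LiesOverPrime ℓ)
    (h : ReductionInputsModL A N) (m : ℕ) (hm : ¬ ℓ ∣ m)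
    (z : JZero N) (hmz : m • z = 0) (hz : reductionModL A N z = 0) : z = 0 := by
  refine lg_S18_of_ram N hℓN hℓ2 A hA h m hm ?_ z hmz hz
  intro L1 _ _ _
  exact ⟨lg_ramHyp_of_rel L1 N (lgh_legendre_K L1), lg_ramHyp_of_rel L1 N (lgr_legendre_K_inv L1)⟩

end S18Odd

end Fermat.Agent.JT3
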