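import Mathlib
import Fermat.Agent.JT3.Inst.Statements
import Fermat.Agent.JT3.Inst.Key0
import Fermat.Agent.JT3.Bridge.GaussCenter
import Fermat.Agent.S28.Formal.PolyOrder

/-!
# JT3 / Route R, Legendre instance: the hypothesis (h4a) of the F-core

For a discrete valuation ring `O` of a field `L` with residue characteristic `≠ 2`, and
`f = ι y1 / ι y2 ∈ F_N` with `q`-integral `y1, y2` of equal nonzero reductions, the twist
`φ(f) ∈ E = φ(F_N)(λ)` is congruent to `1` modulo `π` in the Gauss ring of the chart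
`B₁₂ = fc_chart O {λ, λ⁻¹}`, provided `π B₁₂` is prime (`lga_h4a`).
-/

set_option autoImplicit false
set_option linter.style.haveILetI false

open IsLocalRing Polynomial ModularCurve

namespace Fermat.Agent.JT3

section Scalar

variable {L : Type*} [Field L] (O : ValuationSubring L) (N : ℕ) [NeZero N]

omit [NeZero N] in
theorem lga_isScalarTower : IsScalarTower ↥O L ↥(lg_E L N) :=
  IsScalarTower.of_algebraMap_eq fun _ => rfl

/-- `λ` over `L` is the image of `λ` over `O`. -/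
theorem lga_lam_eq_iota : lg_lam L = coeffMap (algebraMap ↥O L) (hm_lam ↥O) :=
  (hm_coeffMap_lam (algebraMap ↥O L)).symm

omit [NeZero N] in
/-- `E = φ(F_N)(λ)` consists of quotients of `q`-integral series. -/
theorem lga_E_le_quotField : lg_E L N ≤ gq_quotField ↥O L := by
  rw [lg_E, sup_le_iff]
  constructor
  · rw [lg_F2, lg_F, modularFunctionFieldFullC, IntermediateField.adjoin_map,
      IntermediateField.adjoin_le_iff]
    rintro _ ⟨_, ⟨d, hd, -, rfl⟩, rfl⟩
    haveI := hd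
    have h : lg_phi L (qExpand L d (jqModC L)) =
        coeffMap (algebraMap ↥O L) (qExpand ↥O 2 (qExpand ↥O d (jqModC ↥O))) := by
      rw [lg_phi_apply, coeffMap_qExpand, coeffMap_qExpand, coeffMap_jqModC]
    rw [h]
    exact gq_iota_mem_quotField _
  · rw [lg_K, IntermediateField.adjoin_le_iff]
    intro x hx
    rw [Set.mem_singleton_iff] at hx
    rw [hx, lga_lam_eq_iota O]
    exact gq_iota_mem_quotField _

end Scalar

section Transc

variable (k : Type*) [Field k]

/-- `λ = 16 q + ⋯` is transcendental over the constants when `2 ≠ 0`. -/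
theorem lga_lam_transc (h2 : (2 : k) ≠ 0) (p : k[X]) (hp : aeval (hm_lam k) p = 0) : p = 0 := by
  have h16 : (16 : k) ≠ 0 := by
    have : (16 : k) = 2 ^ 4 := by norm_num
    rw [this]
    exact pow_ne_zero 4 h2
  have hord : (hm_lam k).order = 1 := hm_lam_order k h16
  have h0 : hm_lam k ≠ 0 := by
    intro h
    rw [h, HahnSeries.order_zero] at hord
    exact zero_ne_one hord
  have hinv : ((hm_lam k)⁻¹).order < 0 := by
    have h1 : (hm_lam k * (hm_lam k)⁻¹).order = (hm_lam k).order + ((hm_lam k)⁻¹).order :=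
      HahnSeries.order_mul h0 (inv_ne_zero h0)
    rw [mul_inv_cancel₀ h0, HahnSeries.order_one, hord] at h1
    omega
  have htr : Transcendental k (hm_lam k)⁻¹ := Fermat.Agent.S28.fs_transcendental_of_order_neg hinv
  have htr' : Transcendental k (hm_lam k) := by
    intro halg
    exact htr (IsAlgebraic.inv_iff.mpr halg)
  by_contra hp0
  exact htr' ⟨p, hp0, hp⟩

end Transc

section Main

variable {L : Type*} [Field L] (O : ValuationSubring L) [IsDiscreteValuationRing ↥O]
  (N : ℕ) [NeZero N]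

/-- **(h4a) for the Legendre instance.** Hypotheses: those of `lg_Key0`; conclusion: the
hypothesis `h4a` of `fc_final` / `fc_main` for `(A0, F0, x) = (O, E, λ)` and the function `φ(f)`. -/
theorem lga_h4a (π : ↥O) (hπ : Irreducible π) (h2 : (2 : ResidueField ↥O) ≠ 0)
    [Algebra.IsAlgebraic
      (Algebra.adjoin ↥O ({lg_lamE N, (lg_lamE N)⁻¹} : Set ↥(lg_E L N))) ↥(lg_E L N)]
    (hπ12 : Prime
      (algebraMap ↥O ↥(fc_chart ↥O ({lg_lamE N, (lg_lamE N)⁻¹} : Set ↥(lg_E L N))) π))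
    (y1 y2 : LaurentSeries ↥O)
    (h1 : coeffMap O.subtype y1 ∈ lg_F L N) (h2' : coeffMap O.subtype y2 ∈ lg_F L N)
    (hred : coeffMap (residue ↥O) y1 = coeffMap (residue ↥O) y2)
    (hy2 : coeffMap (residue ↥O) y2 ≠ 0)
    (f : ↥(lg_F L N))
    (hf : f * (⟨coeffMap O.subtype y2, h2'⟩ : ↥(lg_F L N)) = ⟨coeffMap O.subtype y1, h1⟩) :
    (⟨lg_phi L (f : LaurentSeries L), lg_phi_mem_E L N f.2⟩ : ↥(lg_E L N)) - 1 ∈
      fc_piO (F := ↥(lg_E L N)) hπ12 := by
  haveI := lga_isScalarTower O N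
  have hπ0 : π ≠ 0 := hπ.ne_zero
  have hπm : maximalIdeal ↥O = Ideal.span {π} := hπ.maximalIdeal_eq
  refine gq_h4a_fc_of_iota π hπ0 hπm (lg_E L N) (lga_E_le_quotField O N) (lg_lamE N)
    (hm_lam ↥O) (lga_lam_eq_iota O) ?_ hπ12 (qExpand ↥O 2 y1) (qExpand ↥O 2 y2) ?_ ?_ _ ?_
  · intro p hp
    rw [hm_coeffMap_lam] at hp
    exact lga_lam_transc _ h2 p hp
  · rw [coeffMap_qExpand, coeffMap_qExpand, hred]
  · rw [coeffMap_qExpand]
    intro h0
    apply hy2
    exact (qExpand (ResidueField ↥O) 2).injective (by rw [h0, map_zero])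
  · change lg_phi L (f : LaurentSeries L) * coeffMap (algebraMap ↥O L) (qExpand ↥O 2 y2) =
      coeffMap (algebraMap ↥O L) (qExpand ↥O 2 y1)
    rw [coeffMap_qExpand, coeffMap_qExpand, ← lg_phi_apply, ← lg_phi_apply, ← map_mul]
    congr 1
    exact congrArg Subtype.val hf

end Main

section Key0

variable {L : Type*} [Field L] {O : ValuationSubring L} [IsDiscreteValuationRing ↥O]
  {N : ℕ} [NeZero N]

/-- **(h4a) in the shape of `lg_Key0_of_model`.** -/
theorem lga_h4a_model [CharZero L] {π : ↥O} (hπ : Irreducible π)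
    (h2 : (2 : ResidueField ↥O) ≠ 0) (hM : lg_ModelHyp O N π)
    [FiniteDimensional (IntermediateField.adjoin L {lg_lamE (L := L) N}) ↥(lg_E L N)]
    (y1 y2 : LaurentSeries ↥O)
    (h1 : coeffMap O.subtype y1 ∈ lg_F L N) (h2' : coeffMap O.subtype y2 ∈ lg_F L N)
    (hred : coeffMap (residue ↥O) y1 = coeffMap (residue ↥O) y2)
    (hy2 : coeffMap (residue ↥O) y2 ≠ 0)
    (f : ↥(lg_F L N))
    (hf : f * (⟨coeffMap O.subtype y2, h2'⟩ : ↥(lg_F L N)) = ⟨coeffMap O.subtype y1, h1⟩) :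
    lg_phiE (L := L) (N := N) f - 1 ∈ fc_piO (F := ↥(lg_E L N)) hM.prime12 := by
  haveI := lga_isScalarTower O N
  haveI i1 : Algebra.IsAlgebraic
      (Algebra.adjoin ↥O ({lg_lamE (L := L) N} : Set ↥(lg_E L N))) ↥(lg_E L N) :=
    fc_ff_isAlgebraic (L := L) (lg_lamE (L := L) N)
  haveI i3 : Algebra.IsAlgebraic
      (Algebra.adjoin ↥O ({lg_lamE (L := L) N, (lg_lamE (L := L) N)⁻¹} : Set ↥(lg_E L N)))
      ↥(lg_E L N) :=
    fc_ff_isAlgebraic_mono (S := {lg_lamE (L := L) N})
      (T := {lg_lamE (L := L) N, (lg_lamE (L := L) N)⁻¹}) (by simp) i1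
  exact lga_h4a O N π hπ h2 hM.prime12 y1 y2 h1 h2' hred hy2 f hf

/-- **`lg_Key0` from the model hypotheses alone**: `lg_Key0_of_model` with (h4a) discharged by
the `q`-Gauss bridge. -/
theorem lga_Key0_of_model [CharZero L] {π : ↥O} (hπ : Irreducible π)
    (h2 : (2 : ResidueField ↥O) ≠ 0) (hM : lg_ModelHyp O N π)
    (hx : Transcendental L (lg_lamE (L := L) N))
    [FiniteDimensional (IntermediateField.adjoin L {lg_lamE (L := L) N}) ↥(lg_E L N)]
    (hconst : ∀ z : ↥(lg_E L N), IsAlgebraic L z → z ∈ (algebraMap L ↥(lg_E L N)).range)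
    (p : ℕ) (hp : IsUnit ((p : ℕ) : ↥O)) :
    lg_Key0 L O N p :=
  lg_Key0_of_model hπ hM hx hconst p hp
    (fun y1 y2 h1 h2' hred hy2 f hf => lga_h4a_model hπ h2 hM y1 y2 h1 h2' hred hy2 f hf)

end Key0

end Fermat.Agent.JT3
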