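/-
JT3 / Route R (S18), instance layer, Hesse cover (`ℓ = 2`): `hs_Key0` from the model hypotheses
alone — `hs_Key0_of_model` (Inst/HesseKey0.lean) with (h4a) discharged by helper8's `hsa_h4a`
(Inst/HesseH4a.lean).  Twin of `lga_h4a_model` / `lga_Key0_of_model` (Inst/H4a.lean).
Written by helper7; prefix `hsm_`.
-/
import Mathlib
import Fermat.Agent.JT3.Inst.HesseKey0
import Fermat.Agent.JT3.Inst.HesseH4a

set_option autoImplicit false
set_option linter.style.haveILetI false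

noncomputable section

open IsLocalRing Polynomial ModularCurve IntermediateField

namespace Fermat.Agent.JT3

section HesseKey0Model

variable {L : Type*} [Field L] (h3 : (3 : L) ≠ 0) {O : ValuationSubring L}
  [IsDiscreteValuationRing ↥O] {N : ℕ} [NeZero N]

set_option synthInstance.maxHeartbeats 400000 in
/-- **(h4a) in the shape of `hs_Key0_of_model`.** -/
theorem hsm_h4a_model [CharZero L] {π : ↥O} (hπ : Irreducible π)
    (h3O : IsUnit (3 : ↥O)) (hM : hs_ModelHyp h3 O N π)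
    [FiniteDimensional (IntermediateField.adjoin L {hs_muE h3 N}) ↥(hs_E L h3 N)]
    (y1 y2 : LaurentSeries ↥O)
    (h1 : coeffMap O.subtype y1 ∈ lg_F L N) (h2' : coeffMap O.subtype y2 ∈ lg_F L N)
    (hred : coeffMap (residue ↥O) y1 = coeffMap (residue ↥O) y2)
    (hy2 : coeffMap (residue ↥O) y2 ≠ 0)
    (f : ↥(lg_F L N))
    (hf : f * (⟨coeffMap O.subtype y2, h2'⟩ : ↥(lg_F L N)) = ⟨coeffMap O.subtype y1, h1⟩) :
    hs_phiE h3 (N := N) f - 1 ∈ fc_piO (F := ↥(hs_E L h3 N)) hM.prime12 := by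
  haveI := hsa_isScalarTower h3 O N
  haveI i1 : Algebra.IsAlgebraic
      (Algebra.adjoin ↥O ({hs_muE h3 N} : Set ↥(hs_E L h3 N))) ↥(hs_E L h3 N) :=
    fc_ff_isAlgebraic (L := L) (hs_muE h3 N)
  haveI i3 : Algebra.IsAlgebraic
      (Algebra.adjoin ↥O ({hs_muE h3 N, (hs_muE h3 N)⁻¹} : Set ↥(hs_E L h3 N)))
      ↥(hs_E L h3 N) :=
    fc_ff_isAlgebraic_mono (S := {hs_muE h3 N})
      (T := {hs_muE h3 N, (hs_muE h3 N)⁻¹}) (by simp) i1
  exact hsa_h4a h3 O N π hπ h3O hM.prime12 y1 y2 h1 h2' hred hy2 f hf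

set_option synthInstance.maxHeartbeats 400000 in
/-- **`hs_Key0` from the model hypotheses alone**: `hs_Key0_of_model` with (h4a) discharged by
the `q`-Gauss bridge. -/
theorem hsm_Key0_of_model [CharZero L] {π : ↥O} (hπ : Irreducible π)
    (h3O : IsUnit (3 : ↥O)) (hM : hs_ModelHyp h3 O N π)
    (hx : Transcendental L (hs_muE h3 N))
    [FiniteDimensional (IntermediateField.adjoin L {hs_muE h3 N}) ↥(hs_E L h3 N)]
    (hconst : ∀ z : ↥(hs_E L h3 N), IsAlgebraic L z → z ∈ (algebraMap L ↥(hs_E L h3 N)).range)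
    (p : ℕ) (hp : IsUnit ((p : ℕ) : ↥O)) :
    hs_Key0 L h3 O N p :=
  hs_Key0_of_model h3 hπ hM hx hconst p hp
    (fun y1 y2 h1 h2' hred hy2 f hf => hsm_h4a_model h3 hπ h3O hM y1 y2 h1 h2' hred hy2 f hf)

end HesseKey0Model

end Fermat.Agent.JT3
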