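/-
JT3 / Route R (S18), instance layer, Hesse cover (`ℓ = 2`): the horizontal ramification inputs
`hH`, `hT` of the generic model theorem `mdl_regAt` for `K = L(μ)`, `E = φ₃(F_N)(μ)` and the
coordinates `x = μ` (cusps `C = {1, ω, ω²}`) and `x = μ⁻¹` (cusps `C = {0, 1, ω, ω²}`).

Part 1 (abstract core): fields as types `L ⊆ Kj = L(j) ⊆ F, K ⊆ E = F·K`, the ramification data of
`j` on `F` (`rml_RamData`), the Hesse relation `27 μ³(μ³+8)³ = j (μ³-1)³` in `K`, and a discrete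
valuation ring `V2 ⊇ L` of `K`; `V0 := V2 ∩ Kj`.
* `hsr_core_H`   : `μ ∈ V2`, `(μ³-1)⁻¹ ∈ V2` ⟹ `E` is unramified over `V2`
                   (`j ∈ 𝔪`: both sides `3`; `j - 1728 ∈ 𝔪`: both sides `2`; else `F/Kj` unramified);
* `hsr_core_div` : `j⁻¹ ∈ 𝔪_{V2}` ⟹ `e(P | V2) ∣ N`;
* `hsr_core_T`   : `μ ∈ V2`, `(μ³-1)⁻¹ ∉ V2` ⟹ `e(P | V2) ∣ N`;
* `hsr_core_Tinf`: `μ ∉ V2` ⟹ `e(P | V2) ∣ N`.

Part 2 (`hsr_gen_*`): the same in the `hH` / `hT` shapes of `mdl_regAt`, abstract fields, cusps given by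
`ω : O`, `ω² + ω + 1 = 0`.

Part 3 (`hsr_hH_mu`, `hsr_hT_mu`, `hsr_hH_inv`, `hsr_hT_inv`): the instance `Kj = L(j₃)`, `F = φ₃(F_N)`,
`K = L(μ)`, `E = φ₃(F_N)(μ)` (algebra structures `hsh_alg*` of `Inst/HesseTower.lean`), VERBATIM
the hypotheses `hH`, `hT` of `mdl_regAt`; `hsr_C1_*`, `hsr_C2_*`: the cusp sets `{1, ω, ω²}` and
`{0, 1, ω, ω²}` (cubes, pairwise differences units when `3` is a unit).

Owner: helper13.  Prefix `hsr_`.
-/
import Mathlib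
import Fermat.Agent.JT3.Inst.HesseTower
import Fermat.Agent.JT3.Inst.HesseTowerFinite
import Fermat.Agent.JT3.Export.RamLHesse
import Fermat.Agent.JT3.Cover.RamPlace
import Fermat.Agent.JT3.Cover.RamInfty
import Fermat.Agent.JT3.Algebra.AbhyankarSeamDiv

set_option autoImplicit false
set_option linter.unusedSectionVars false
set_option linter.style.haveILetI false

namespace Fermat.Agent.JT3

section Sub

variable {K : Type*} [Field K] (V2 : Subring K)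

theorem hsr_inv_mem_of_isUnit {x : K} (hx : x ∈ V2) (h : IsUnit (⟨x, hx⟩ : V2)) : x⁻¹ ∈ V2 := by
  obtain ⟨u, hu⟩ := h
  have h1 : (u : V2) * (↑u⁻¹ : V2) = 1 := u.mul_inv
  have h2 : x * ((↑u⁻¹ : V2) : K) = 1 := by
    have := congrArg (Subtype.val) h1
    rw [hu] at this
    exact this
  have h3 : x⁻¹ = ((↑u⁻¹ : V2) : K) := inv_eq_of_mul_eq_one_right h2
  rw [h3]
  exact (↑u⁻¹ : V2).2

theorem hsr_isUnit_of_inv_mem {x : K} (hx : x ∈ V2) (hx0 : x ≠ 0) (h : x⁻¹ ∈ V2) :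
    IsUnit (⟨x, hx⟩ : V2) :=
  IsUnit.of_mul_eq_one (⟨x⁻¹, h⟩ : V2) (Subtype.ext (mul_inv_cancel₀ hx0))

theorem hsr_mem_or_inv_mem [IsDomain V2] [ValuationRing V2] [IsFractionRing V2 K] (x : K) :
    x ∈ V2 ∨ x⁻¹ ∈ V2 := by
  rcases ValuationRing.isInteger_or_isInteger V2 x with ⟨a, ha⟩ | ⟨a, ha⟩
  · left; rw [← ha]; exact a.2
  · right; rw [← ha]; exact a.2

end Sub

section Core

variable {L : Type*} [Field L] [CharZero L]
  {Kj F K E : Type*} [Field Kj] [Field F] [Field K] [Field E]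
  [Algebra L Kj] [Algebra L F] [Algebra L K]
  [Algebra Kj F] [Algebra Kj K] [Algebra Kj E] [Algebra F E] [Algebra K E]
  [IsScalarTower L Kj F] [IsScalarTower L Kj K]
  [IsScalarTower Kj F E] [IsScalarTower Kj K E] [FiniteDimensional Kj E]

/-- the Hesse relation forces `μ³ ≠ 1` in characteristic `0`. -/
theorem hsr_hesD_ne_zero {K : Type*} [Field K] [CharZero K] {μ a : K}
    (hrel : cv_hesN μ = a * cv_hesD μ) : μ ^ 3 - 1 ≠ 0 := by
  intro h
  have h1 : μ ^ 3 = 1 := sub_eq_zero.1 h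
  unfold cv_hesN cv_hesD at hrel
  rw [h1] at hrel
  norm_num at hrel

theorem hsr_core_H
    (hgen : IntermediateField.adjoin Kj
      (Set.range (algebraMap F E) ∪ Set.range (algebraMap K E)) = ⊤)
    (j : Kj) (hj : IntermediateField.adjoin L {j} = ⊤)
    (N : ℕ) (D : rml_RamData L (algebraMap Kj F j) N)
    (μ : K) (hrel : cv_hesN μ = algebraMap Kj K j * cv_hesD μ)
    (V2 : Subring K) [IsDiscreteValuationRing V2] [IsFractionRing V2 K]
    (hL : ∀ a : L, algebraMap L K a ∈ V2)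
    (hμ : μ ∈ V2) (hinv : (μ ^ 3 - 1)⁻¹ ∈ V2) : jt_UnramAt V2 E := by
  haveI : CharZero Kj := charZero_of_injective_algebraMap (algebraMap L Kj).injective
  haveI : CharZero K := charZero_of_injective_algebraMap (algebraMap L K).injective
  haveI : FiniteDimensional Kj K := FiniteDimensional.left Kj K E
  haveI : FiniteDimensional Kj F := FiniteDimensional.left Kj F E
  haveI := ti_charZero_residueField L V2 hL
  haveI : IsDiscreteValuationRing (ti_under Kj V2) := ti_under_isDVR Kj V2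
  haveI : IsFractionRing (ti_under Kj V2) Kj := ti_under_isFractionRing Kj V2
  have hL0 : ∀ a : L, algebraMap L Kj a ∈ ti_under Kj V2 := fun a => by
    show algebraMap Kj K (algebraMap L Kj a) ∈ V2
    rw [← IsScalarTower.algebraMap_apply]; exact hL a
  have h3 : (3 : L) ≠ 0 := three_ne_zero
  have hD0 : μ ^ 3 - 1 ≠ 0 := hsr_hesD_ne_zero hrel
  have hnat : ∀ n : ℕ, (n : K) ∈ V2 := fun n => natCast_mem V2 n
  -- `j ∈ V0`
  have hjeq : algebraMap Kj K j = cv_hesN μ * ((μ ^ 3 - 1)⁻¹) ^ 3 := by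
    have : cv_hesD μ = (μ ^ 3 - 1) ^ 3 := rfl
    rw [hrel, this, mul_assoc, ← mul_pow, mul_inv_cancel₀ hD0, one_pow, mul_one]
  have hjV : j ∈ ti_under Kj V2 := by
    show algebraMap Kj K j ∈ V2
    rw [hjeq]
    refine mul_mem ?_ (pow_mem hinv 3)
    unfold cv_hesN
    exact mul_mem (mul_mem (ofNat_mem V2 27) (pow_mem hμ 3))
      (pow_mem (add_mem (pow_mem hμ 3) (ofNat_mem V2 8)) 3)
  have hj1V : j - 1728 ∈ ti_under Kj V2 := sub_mem hjV (ofNat_mem _ 1728)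
  haveI : IsDedekindDomain (integralClosure (ti_under Kj V2) K) :=
    IsIntegralClosure.isDedekindDomain (ti_under Kj V2) Kj K _
  by_cases hu : IsUnit (⟨j, hjV⟩ : ti_under Kj V2)
  · by_cases hu1 : IsUnit (⟨j - 1728, hj1V⟩ : ti_under Kj V2)
    · -- `n = 1`
      have hunr : jt_UnramAt (ti_under Kj V2) F :=
        rml_unram_subring (ti_under Kj V2) hL0 D hjV hu hj1V hu1
      refine ti_seam_unram_under F K E hgen V2 1 ?_ (fun P _ _ => one_dvd _)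
      intro P _ hP
      haveI : Algebra.IsUnramifiedAt (ti_under Kj V2) P := hunr P hP
      haveI : Module.Finite (ti_under Kj V2) (integralClosure (ti_under Kj V2) F) :=
        IsIntegralClosure.finite (ti_under Kj V2) Kj F _
      rw [Ideal.ramificationIdx_eq_one P (ti_under Kj V2)]
    · -- `n = 2`
      exact ti_seam_unram_under F K E hgen V2 2
        (fun P _ hP => rml_ram_one_subring (ti_under Kj V2) hL0 D hj1V hu1 P hP)
        (fun P _ hP => cv_hes_ram_1728_subring (ti_under Kj V2) h3 hL0 hj hj1V hu1 hrel P hP)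
  · -- `n = 3`
    exact ti_seam_unram_under F K E hgen V2 3
      (fun P _ hP => rml_ram_zero_subring (ti_under Kj V2) hL0 D hjV hu P hP)
      (fun P _ hP => cv_hes_ram_zero_subring (ti_under Kj V2) h3 hL0 hj hjV hu hrel P hP)

/-- `j⁻¹ ∈ 𝔪_{V2}` ⟹ every ramification index over `V2` divides `N`. -/
theorem hsr_core_div
    (hgen : IntermediateField.adjoin Kj
      (Set.range (algebraMap F E) ∪ Set.range (algebraMap K E)) = ⊤)
    (j : Kj) (N : ℕ) (D : rml_RamData L (algebraMap Kj F j) N)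
    (V2 : Subring K) [IsDiscreteValuationRing V2] [IsFractionRing V2 K]
    (hL : ∀ a : L, algebraMap L K a ∈ V2)
    (hjV : (algebraMap Kj K j)⁻¹ ∈ V2) (hjm : ¬ IsUnit (⟨_, hjV⟩ : V2))
    (P : Ideal (integralClosure V2 E)) [P.IsPrime] (hP : P ≠ ⊥) :
    P.ramificationIdx V2 ∣ N := by
  haveI : CharZero Kj := charZero_of_injective_algebraMap (algebraMap L Kj).injective
  haveI : FiniteDimensional Kj K := FiniteDimensional.left Kj K E
  haveI : FiniteDimensional Kj F := FiniteDimensional.left Kj F E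
  haveI := ti_charZero_residueField L V2 hL
  haveI : IsDiscreteValuationRing (ti_under Kj V2) := ti_under_isDVR Kj V2
  haveI : IsFractionRing (ti_under Kj V2) Kj := ti_under_isFractionRing Kj V2
  have hL0 : ∀ a : L, algebraMap L Kj a ∈ ti_under Kj V2 := fun a => by
    show algebraMap Kj K (algebraMap L Kj a) ∈ V2
    rw [← IsScalarTower.algebraMap_apply]; exact hL a
  have hj0 : j⁻¹ ∈ ti_under Kj V2 := by
    show algebraMap Kj K j⁻¹ ∈ V2
    rw [map_inv₀]; exact hjV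
  have hjm0 : ¬ IsUnit (⟨j⁻¹, hj0⟩ : ti_under Kj V2) := by
    intro h
    apply hjm
    have h1 := (ti_under_isUnit_iff Kj V2 _).1 h
    have h2 : ti_underHom Kj V2 ⟨j⁻¹, hj0⟩ = ⟨_, hjV⟩ := Subtype.ext (by
      rw [ti_underHom_coe]; exact map_inv₀ _ _)
    rwa [h2] at h1
  exact ti_seam_div_under F K E hgen V2 N
    (fun P₁ _ hP₁ => rml_ram_infty_subring (ti_under Kj V2) hL0 D hj0 hjm0 P₁ hP₁) P hP

/-- at a cusp `μ³ = 1`: every ramification index over `V2` divides `N`. -/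
theorem hsr_core_T
    (hgen : IntermediateField.adjoin Kj
      (Set.range (algebraMap F E) ∪ Set.range (algebraMap K E)) = ⊤)
    (j : Kj) (N : ℕ) (D : rml_RamData L (algebraMap Kj F j) N)
    (μ : K) (hrel : cv_hesN μ = algebraMap Kj K j * cv_hesD μ)
    (V2 : Subring K) [IsDiscreteValuationRing V2] [IsFractionRing V2 K]
    (hL : ∀ a : L, algebraMap L K a ∈ V2)
    (hμ : μ ∈ V2) (hinv : (μ ^ 3 - 1)⁻¹ ∉ V2)
    (P : Ideal (integralClosure V2 E)) [P.IsPrime] (hP : P ≠ ⊥) :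
    P.ramificationIdx V2 ∣ N := by
  haveI : CharZero K := charZero_of_injective_algebraMap (algebraMap L K).injective
  have hD0 : μ ^ 3 - 1 ≠ 0 := hsr_hesD_ne_zero hrel
  have htV : μ ^ 3 - 1 ∈ V2 := sub_mem (pow_mem hμ 3) (one_mem _)
  have htm : ¬ IsUnit (⟨μ ^ 3 - 1, htV⟩ : V2) := fun h =>
    hinv (hsr_inv_mem_of_isUnit V2 htV h)
  -- `cv_hesN μ = 3⁹ + (μ³ - 1) * (…)` is a unit of `V2`
  have hNV : cv_hesN μ ∈ V2 := by
    unfold cv_hesN
    exact mul_mem (mul_mem (ofNat_mem V2 27) (pow_mem hμ 3))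
      (pow_mem (add_mem (pow_mem hμ 3) (ofNat_mem V2 8)) 3)
  have hcV : (19683 : K) ∈ V2 := ofNat_mem V2 19683
  have hcu : IsUnit (⟨(19683 : K), hcV⟩ : V2) := by
    have h1 : ((19683 : L)) ≠ 0 := by norm_num
    have h2 : (19683 : K)⁻¹ ∈ V2 := by
      have := hL (19683 : L)⁻¹
      rwa [map_inv₀, map_ofNat] at this
    exact hsr_isUnit_of_inv_mem V2 hcV (by norm_num) h2
  have hNu : IsUnit (⟨cv_hesN μ, hNV⟩ : V2) := by
    set q : K := 27 * (972 + 270 * (μ ^ 3 - 1) + 28 * (μ ^ 3 - 1) ^ 2 + (μ ^ 3 - 1) ^ 3) with hq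
    have hqV : q ∈ V2 := by
      rw [hq]
      exact mul_mem (ofNat_mem V2 27) (add_mem (add_mem (add_mem (ofNat_mem V2 972)
        (mul_mem (ofNat_mem V2 270) htV)) (mul_mem (ofNat_mem V2 28) (pow_mem htV 2)))
        (pow_mem htV 3))
    have hsplit : (⟨cv_hesN μ, hNV⟩ : V2) =
        ⟨(19683 : K), hcV⟩ + ⟨μ ^ 3 - 1, htV⟩ * ⟨q, hqV⟩ := by
      apply Subtype.ext
      show cv_hesN μ = 19683 + (μ ^ 3 - 1) * q
      rw [hq]; unfold cv_hesN; ring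
    by_contra hnu
    have h1 : (⟨cv_hesN μ, hNV⟩ : V2) ∈ IsLocalRing.maximalIdeal V2 := hnu
    have h2 : (⟨μ ^ 3 - 1, htV⟩ * ⟨q, hqV⟩ : V2) ∈ IsLocalRing.maximalIdeal V2 :=
      Ideal.mul_mem_right _ _ htm
    have h3 : (⟨(19683 : K), hcV⟩ : V2) ∈ IsLocalRing.maximalIdeal V2 := by
      have := Ideal.sub_mem _ h1 h2
      rwa [hsplit, add_sub_cancel_right] at this
    exact h3 hcu
  have hN0 : cv_hesN μ ≠ 0 := fun h => by
    have : (⟨cv_hesN μ, hNV⟩ : V2) = 0 := Subtype.ext h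
    rw [this] at hNu
    exact not_isUnit_zero hNu
  have hjinv : (algebraMap Kj K j)⁻¹ = (μ ^ 3 - 1) ^ 3 * (cv_hesN μ)⁻¹ := by
    have hD : cv_hesD μ = (μ ^ 3 - 1) ^ 3 := rfl
    have hj0 : algebraMap Kj K j ≠ 0 := by
      intro h
      rw [h, zero_mul] at hrel
      exact hN0 hrel
    rw [hrel, hD, mul_inv, mul_comm _ ((algebraMap Kj K j)⁻¹ * _), mul_assoc,
      inv_mul_cancel₀ (pow_ne_zero 3 hD0), mul_one]
  have hNinv : (cv_hesN μ)⁻¹ ∈ V2 := hsr_inv_mem_of_isUnit V2 hNV hNu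
  have hjV : (algebraMap Kj K j)⁻¹ ∈ V2 := by
    rw [hjinv]; exact mul_mem (pow_mem htV 3) hNinv
  refine hsr_core_div hgen j N D V2 hL hjV ?_ P hP
  intro h
  apply htm
  have h1 : (⟨(algebraMap Kj K j)⁻¹, hjV⟩ : V2) =
      ⟨μ ^ 3 - 1, htV⟩ * (⟨μ ^ 3 - 1, htV⟩ ^ 2 * ⟨(cv_hesN μ)⁻¹, hNinv⟩) := by
    apply Subtype.ext
    show (algebraMap Kj K j)⁻¹ = (μ ^ 3 - 1) * ((μ ^ 3 - 1) ^ 2 * (cv_hesN μ)⁻¹)
    rw [hjinv]; ring
  rw [h1] at h
  exact isUnit_of_mul_isUnit_left h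

/-- at the cusp `μ = ∞`: every ramification index over `V2` divides `N`. -/
theorem hsr_core_Tinf
    (hgen : IntermediateField.adjoin Kj
      (Set.range (algebraMap F E) ∪ Set.range (algebraMap K E)) = ⊤)
    (j : Kj) (N : ℕ) (D : rml_RamData L (algebraMap Kj F j) N)
    (μ : K) (hrel : cv_hesN μ = algebraMap Kj K j * cv_hesD μ)
    (V2 : Subring K) [IsDiscreteValuationRing V2] [IsFractionRing V2 K]
    (hL : ∀ a : L, algebraMap L K a ∈ V2)
    (hμ : μ ∉ V2)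
    (P : Ideal (integralClosure V2 E)) [P.IsPrime] (hP : P ≠ ⊥) :
    P.ramificationIdx V2 ∣ N := by
  haveI : CharZero K := charZero_of_injective_algebraMap (algebraMap L K).injective
  have hμ0 : μ ≠ 0 := fun h => hμ (h ▸ zero_mem V2)
  have hνV : μ⁻¹ ∈ V2 := (hsr_mem_or_inv_mem V2 μ).resolve_left hμ
  have hνm : ¬ IsUnit (⟨μ⁻¹, hνV⟩ : V2) := fun h => by
    have := hsr_inv_mem_of_isUnit V2 hνV h
    rw [inv_inv] at this
    exact hμ this
  set ν : K := μ⁻¹ with hν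
  have hν0 : ν ≠ 0 := inv_ne_zero hμ0
  have hνμ : ν ^ 3 * μ ^ 3 = 1 := by
    rw [← mul_pow, hν, inv_mul_cancel₀ hμ0, one_pow]
  set w : K := 27 * (1 + 8 * ν ^ 3) ^ 3 with hw
  have e1 : ν ^ 12 * cv_hesN μ = w := by
    unfold cv_hesN
    calc ν ^ 12 * (27 * μ ^ 3 * (μ ^ 3 + 8) ^ 3)
        = 27 * (ν ^ 3 * μ ^ 3) * (ν ^ 3 * μ ^ 3 + 8 * ν ^ 3) ^ 3 := by ring
      _ = w := by rw [hνμ, hw]; ring
  have e2 : ν ^ 12 * cv_hesD μ = ν ^ 3 * (1 - ν ^ 3) ^ 3 := by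
    unfold cv_hesD
    calc ν ^ 12 * (μ ^ 3 - 1) ^ 3 = ν ^ 3 * (ν ^ 3 * μ ^ 3 - ν ^ 3) ^ 3 := by ring
      _ = ν ^ 3 * (1 - ν ^ 3) ^ 3 := by rw [hνμ]
  have e3 : w = algebraMap Kj K j * (ν ^ 3 * (1 - ν ^ 3) ^ 3) := by
    rw [← e1, hrel, ← e2]; ring
  -- `w` is a unit of `V2`
  have hν3V : ν ^ 3 ∈ V2 := pow_mem hνV 3
  have hwV : w ∈ V2 := by
    rw [hw]
    exact mul_mem (ofNat_mem V2 27)
      (pow_mem (add_mem (one_mem _) (mul_mem (ofNat_mem V2 8) hν3V)) 3)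
  have hcV : (27 : K) ∈ V2 := ofNat_mem V2 27
  have hcu : IsUnit (⟨(27 : K), hcV⟩ : V2) := by
    have h2 : (27 : K)⁻¹ ∈ V2 := by
      have := hL (27 : L)⁻¹
      rwa [map_inv₀, map_ofNat] at this
    exact hsr_isUnit_of_inv_mem V2 hcV (by norm_num) h2
  have hwu : IsUnit (⟨w, hwV⟩ : V2) := by
    set q : K := 27 * (24 * ν ^ 2 + 192 * ν ^ 5 + 512 * ν ^ 8) with hq
    have hqV : q ∈ V2 := by
      rw [hq]
      exact mul_mem (ofNat_mem V2 27) (add_mem (add_mem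
        (mul_mem (ofNat_mem V2 24) (pow_mem hνV 2))
        (mul_mem (ofNat_mem V2 192) (pow_mem hνV 5)))
        (mul_mem (ofNat_mem V2 512) (pow_mem hνV 8)))
    have hsplit : (⟨w, hwV⟩ : V2) = ⟨(27 : K), hcV⟩ + ⟨ν, hνV⟩ * ⟨q, hqV⟩ := by
      apply Subtype.ext
      show w = 27 + ν * q
      rw [hw, hq]; ring
    by_contra hnu
    have h1 : (⟨w, hwV⟩ : V2) ∈ IsLocalRing.maximalIdeal V2 := hnu
    have h2 : (⟨ν, hνV⟩ * ⟨q, hqV⟩ : V2) ∈ IsLocalRing.maximalIdeal V2 :=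
      Ideal.mul_mem_right _ _ hνm
    have h3 : (⟨(27 : K), hcV⟩ : V2) ∈ IsLocalRing.maximalIdeal V2 := by
      have := Ideal.sub_mem _ h1 h2
      rwa [hsplit, add_sub_cancel_right] at this
    exact h3 hcu
  have hw0 : w ≠ 0 := fun h => by
    have : (⟨w, hwV⟩ : V2) = 0 := Subtype.ext h
    rw [this] at hwu
    exact not_isUnit_zero hwu
  have hwinv : w⁻¹ ∈ V2 := hsr_inv_mem_of_isUnit V2 hwV hwu
  have hJ0 : algebraMap Kj K j ≠ 0 := by
    intro h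
    rw [h, zero_mul] at e3
    exact hw0 e3
  have hjinv : (algebraMap Kj K j)⁻¹ = ν ^ 3 * (1 - ν ^ 3) ^ 3 * w⁻¹ := by
    rw [e3, mul_inv, mul_comm ((algebraMap Kj K j)⁻¹) _, ← mul_assoc, mul_inv_cancel₀, one_mul]
    intro h
    rw [h, mul_zero] at e3
    exact hw0 e3
  have h1V : (1 - ν ^ 3) ^ 3 ∈ V2 := pow_mem (sub_mem (one_mem _) hν3V) 3
  have hjV : (algebraMap Kj K j)⁻¹ ∈ V2 := by
    rw [hjinv]; exact mul_mem (mul_mem hν3V h1V) hwinv
  refine hsr_core_div hgen j N D V2 hL hjV ?_ P hP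
  intro h
  apply hνm
  have h1 : (⟨(algebraMap Kj K j)⁻¹, hjV⟩ : V2) =
      ⟨ν, hνV⟩ * (⟨ν, hνV⟩ ^ 2 * ⟨(1 - ν ^ 3) ^ 3, h1V⟩ * ⟨w⁻¹, hwinv⟩) := by
    apply Subtype.ext
    show (algebraMap Kj K j)⁻¹ = ν * (ν ^ 2 * (1 - ν ^ 3) ^ 3 * w⁻¹)
    rw [hjinv]; ring
  rw [h1] at h
  exact isUnit_of_mul_isUnit_left h

end Core

section FieldIds

variable {K : Type*} [Field K]

theorem hsr_inv_cube {x y : K} (h : x * y = 1) : (x ^ 3 - 1)⁻¹ = -(y ^ 3) * (y ^ 3 - 1)⁻¹ := by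
  have hy0 : y ≠ 0 := right_ne_zero_of_mul_eq_one h
  have hxy : x ^ 3 * y ^ 3 = 1 := by rw [← mul_pow, h, one_pow]
  by_cases hy : y ^ 3 - 1 = 0
  · have hx : x ^ 3 - 1 = 0 := by
      have h1 : y ^ 3 = 1 := sub_eq_zero.1 hy
      rw [h1, mul_one] at hxy
      rw [hxy, sub_self]
    rw [hx, hy, inv_zero, mul_zero]
  · apply inv_eq_of_mul_eq_one_right
    have h1 : (x ^ 3 - 1) * -(y ^ 3) = y ^ 3 - 1 := by
      calc (x ^ 3 - 1) * -(y ^ 3) = -(x ^ 3 * y ^ 3) + y ^ 3 := by ring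
        _ = y ^ 3 - 1 := by rw [hxy]; ring
    rw [← mul_assoc, h1, mul_inv_cancel₀ hy]

theorem hsr_inv_sub_of_cube {x c : K} (hc : c ^ 3 = 1) (hx : x ^ 3 - 1 ≠ 0) :
    (x - c)⁻¹ = (x ^ 2 + c * x + c ^ 2) * (x ^ 3 - 1)⁻¹ := by
  have h1 : x ^ 3 - 1 = (x - c) * (x ^ 2 + c * x + c ^ 2) := by
    calc x ^ 3 - 1 = x ^ 3 - c ^ 3 := by rw [hc]
      _ = _ := by ring
  have hxc : x - c ≠ 0 := fun h => hx (by rw [h1, h, zero_mul])
  have hq : x ^ 2 + c * x + c ^ 2 ≠ 0 := fun h => hx (by rw [h1, h, mul_zero])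
  rw [h1, mul_inv, mul_comm (x - c)⁻¹, ← mul_assoc, mul_inv_cancel₀ hq, one_mul]

theorem hsr_cube_sub_one_eq {μ w : K} (hw : w ^ 2 + w + 1 = 0) :
    μ ^ 3 - 1 = (μ - 1) * (μ - w) * (μ - w ^ 2) := by
  linear_combination (-((μ - 1) * (w - 1 - μ))) * hw

end FieldIds

section Shapes

variable {L : Type*} [Field L] [CharZero L]
  {Kj F K E : Type*} [Field Kj] [Field F] [Field K] [Field E]
  [Algebra L Kj] [Algebra L F] [Algebra L K]
  [Algebra Kj F] [Algebra Kj K] [Algebra Kj E] [Algebra F E] [Algebra K E]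
  [IsScalarTower L Kj F] [IsScalarTower L Kj K]
  [IsScalarTower Kj F E] [IsScalarTower Kj K E] [FiniteDimensional Kj E]
  {O : Type*} [CommRing O] [Algebra O L] [Algebra O K] [IsScalarTower O L K]

omit [CharZero L] in
theorem hsr_algebraMap_mem (V2 : Subring K) (hL : ∀ a : L, algebraMap L K a ∈ V2) (c : O) :
    algebraMap O K c ∈ V2 := by
  rw [IsScalarTower.algebraMap_apply O L K]; exact hL _

/-- **(H) for `x = μ`**, abstract fields, in the shape of `mdl_regAt`. -/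
theorem hsr_gen_H_mu
    (hgen : IntermediateField.adjoin Kj
      (Set.range (algebraMap F E) ∪ Set.range (algebraMap K E)) = ⊤)
    (j : Kj) (hj : IntermediateField.adjoin L {j} = ⊤)
    (N : ℕ) (D : rml_RamData L (algebraMap Kj F j) N)
    (μ : K) (hrel : cv_hesN μ = algebraMap Kj K j * cv_hesD μ)
    (ω : O) (hω : ω ^ 2 + ω + 1 = 0) (C : Finset O) (h1 : (1 : O) ∈ C) (hω1 : ω ∈ C)
    (hω2 : ω ^ 2 ∈ C)
    (V2 : Subring K) [IsDiscreteValuationRing V2] [IsFractionRing V2 K]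
    (hL : ∀ a : L, algebraMap L K a ∈ V2) (hμ : μ ∈ V2)
    (hC : ∀ c ∈ C, (μ - algebraMap O K c)⁻¹ ∈ V2) : jt_UnramAt V2 E := by
  refine hsr_core_H hgen j hj N D μ hrel V2 hL hμ ?_
  have hw : (algebraMap O K ω) ^ 2 + algebraMap O K ω + 1 = 0 := by
    rw [← map_pow, ← map_add, ← map_one (algebraMap O K), ← map_add, hω, map_zero]
  rw [hsr_cube_sub_one_eq hw, mul_inv, mul_inv]
  have e1 := hC 1 h1
  have e2 := hC ω hω1
  have e3 := hC (ω ^ 2) hω2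
  rw [map_one] at e1
  rw [map_pow] at e3
  exact mul_mem (mul_mem e1 e2) e3

/-- **(T) for `x = μ`** at a cusp `c³ = 1`, abstract fields, in the shape of `mdl_regAt`. -/
theorem hsr_gen_T_mu
    (hgen : IntermediateField.adjoin Kj
      (Set.range (algebraMap F E) ∪ Set.range (algebraMap K E)) = ⊤)
    (j : Kj) (N : ℕ) (D : rml_RamData L (algebraMap Kj F j) N)
    (μ : K) (hrel : cv_hesN μ = algebraMap Kj K j * cv_hesD μ)
    (c : O) (hc : c ^ 3 = 1)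
    (V2 : Subring K) [IsDiscreteValuationRing V2] [IsFractionRing V2 K]
    (hL : ∀ a : L, algebraMap L K a ∈ V2) (hμ : μ ∈ V2)
    (hcinv : (μ - algebraMap O K c)⁻¹ ∉ V2)
    (P : Ideal (integralClosure V2 E)) [P.IsPrime] (hP : P ≠ ⊥) :
    P.ramificationIdx V2 ∣ N := by
  haveI : CharZero K := charZero_of_injective_algebraMap (algebraMap L K).injective
  have hcV := hsr_algebraMap_mem V2 hL c
  have hc' : (algebraMap O K c) ^ 3 = 1 := by rw [← map_pow, hc, map_one]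
  refine hsr_core_T hgen j N D μ hrel V2 hL hμ (fun h => hcinv ?_) P hP
  rw [hsr_inv_sub_of_cube hc' (hsr_hesD_ne_zero hrel)]
  exact mul_mem (add_mem (add_mem (pow_mem hμ 2) (mul_mem hcV hμ)) (pow_mem hcV 2)) h

/-- **(H) for `x = μ⁻¹`**, abstract fields, in the shape of `mdl_regAt`. -/
theorem hsr_gen_H_inv
    (hgen : IntermediateField.adjoin Kj
      (Set.range (algebraMap F E) ∪ Set.range (algebraMap K E)) = ⊤)
    (j : Kj) (hj : IntermediateField.adjoin L {j} = ⊤)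
    (N : ℕ) (D : rml_RamData L (algebraMap Kj F j) N)
    (μ : K) (hμ0 : μ ≠ 0) (hrel : cv_hesN μ = algebraMap Kj K j * cv_hesD μ)
    (ω : O) (hω : ω ^ 2 + ω + 1 = 0) (C : Finset O) (h0 : (0 : O) ∈ C) (h1 : (1 : O) ∈ C)
    (hω1 : ω ∈ C) (hω2 : ω ^ 2 ∈ C)
    (V2 : Subring K) [IsDiscreteValuationRing V2] [IsFractionRing V2 K]
    (hL : ∀ a : L, algebraMap L K a ∈ V2) (hν : μ⁻¹ ∈ V2)
    (hC : ∀ c ∈ C, (μ⁻¹ - algebraMap O K c)⁻¹ ∈ V2) : jt_UnramAt V2 E := by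
  have hμ : μ ∈ V2 := by
    have := hC 0 h0
    rwa [map_zero, sub_zero, inv_inv] at this
  refine hsr_core_H hgen j hj N D μ hrel V2 hL hμ ?_
  rw [hsr_inv_cube (mul_inv_cancel₀ hμ0)]
  refine mul_mem (neg_mem (pow_mem hν 3)) ?_
  have hw : (algebraMap O K ω) ^ 2 + algebraMap O K ω + 1 = 0 := by
    rw [← map_pow, ← map_add, ← map_one (algebraMap O K), ← map_add, hω, map_zero]
  rw [hsr_cube_sub_one_eq hw, mul_inv, mul_inv]
  have e1 := hC 1 h1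
  have e2 := hC ω hω1
  have e3 := hC (ω ^ 2) hω2
  rw [map_one] at e1
  rw [map_pow] at e3
  exact mul_mem (mul_mem e1 e2) e3

/-- **(T) for `x = μ⁻¹`** at a cusp `c = 0` or `c³ = 1`, abstract fields, in the shape of
`mdl_regAt`. -/
theorem hsr_gen_T_inv
    (hgen : IntermediateField.adjoin Kj
      (Set.range (algebraMap F E) ∪ Set.range (algebraMap K E)) = ⊤)
    (j : Kj) (N : ℕ) (D : rml_RamData L (algebraMap Kj F j) N)
    (μ : K) (hμ0 : μ ≠ 0) (hrel : cv_hesN μ = algebraMap Kj K j * cv_hesD μ)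
    (c : O) (hc : c = 0 ∨ c ^ 3 = 1)
    (V2 : Subring K) [IsDiscreteValuationRing V2] [IsFractionRing V2 K]
    (hL : ∀ a : L, algebraMap L K a ∈ V2) (hν : μ⁻¹ ∈ V2)
    (hcinv : (μ⁻¹ - algebraMap O K c)⁻¹ ∉ V2)
    (P : Ideal (integralClosure V2 E)) [P.IsPrime] (hP : P ≠ ⊥) :
    P.ramificationIdx V2 ∣ N := by
  haveI : CharZero K := charZero_of_injective_algebraMap (algebraMap L K).injective
  rcases hc with rfl | hc
  · rw [map_zero, sub_zero, inv_inv] at hcinv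
    exact hsr_core_Tinf hgen j N D μ hrel V2 hL hcinv P hP
  · have hcV := hsr_algebraMap_mem V2 hL c
    have hc' : (algebraMap O K c) ^ 3 = 1 := by rw [← map_pow, hc, map_one]
    set a : K := algebraMap O K c with ha
    have hD0 : μ ^ 3 - 1 ≠ 0 := hsr_hesD_ne_zero hrel
    have hνμ : μ⁻¹ * μ = 1 := inv_mul_cancel₀ hμ0
    have hν3 : (μ⁻¹) ^ 3 - 1 ≠ 0 := by
      intro h
      have h2 := hsr_inv_cube (mul_inv_cancel₀ hμ0)
      rw [h, inv_zero, mul_zero, inv_eq_zero] at h2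
      exact hD0 h2
    -- `(ν³ - 1)⁻¹ ∉ V2`
    have hν3inv : ((μ⁻¹) ^ 3 - 1)⁻¹ ∉ V2 := by
      intro h
      apply hcinv
      rw [hsr_inv_sub_of_cube hc' hν3]
      exact mul_mem (add_mem (add_mem (pow_mem hν 2) (mul_mem hcV hν)) (pow_mem hcV 2)) h
    -- `ν` is a unit of `V2`
    have hdV : μ⁻¹ - a ∈ V2 := sub_mem hν hcV
    have hdm : ¬ IsUnit (⟨μ⁻¹ - a, hdV⟩ : V2) := fun h =>
      hcinv (hsr_inv_mem_of_isUnit V2 hdV h)
    have hau : IsUnit (⟨a, hcV⟩ : V2) := by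
      refine IsUnit.of_mul_eq_one (⟨a, hcV⟩ ^ 2 : V2) (Subtype.ext ?_)
      show a * a ^ 2 = 1
      rw [← hc']; ring
    have hνu : IsUnit (⟨μ⁻¹, hν⟩ : V2) := by
      by_contra hnu
      have h1 : (⟨μ⁻¹, hν⟩ : V2) ∈ IsLocalRing.maximalIdeal V2 := hnu
      have h2 : (⟨μ⁻¹ - a, hdV⟩ : V2) ∈ IsLocalRing.maximalIdeal V2 := hdm
      have h3 : (⟨a, hcV⟩ : V2) ∈ IsLocalRing.maximalIdeal V2 := by
        have := Ideal.sub_mem _ h1 h2
        have e : (⟨μ⁻¹, hν⟩ - ⟨μ⁻¹ - a, hdV⟩ : V2) = ⟨a, hcV⟩ := Subtype.ext (by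
          show μ⁻¹ - (μ⁻¹ - a) = a
          ring)
        rwa [e] at this
      exact h3 hau
    have hμ : μ ∈ V2 := by
      have := hsr_inv_mem_of_isUnit V2 hν hνu
      rwa [inv_inv] at this
    refine hsr_core_T hgen j N D μ hrel V2 hL hμ (fun h => hν3inv ?_) P hP
    rw [hsr_inv_cube hνμ]
    exact mul_mem (neg_mem (pow_mem hμ 3)) h

end Shapes

section Concrete

open IntermediateField AlgebraicCurve ModularCurve
open Fermat.Agent.S24

variable (L : Type*) [Field L] [Algebra ℚ L] [Algebra L Kbar] [IsScalarTower ℚ L Kbar]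
  (h3 : (3 : L) ≠ 0) (N : ℕ) [NeZero N]
  {O : Type*} [CommRing O] [Algebra O L] [Algebra O ↥(hs_K L h3)]
  [IsScalarTower O L ↥(hs_K L h3)]

attribute [local instance] hsh_algKjK hsh_algKjF3 hsh_algKjE hsh_algF3E hsh_algKE

theorem hsr_finiteDimensional_Kj_E [CharZero L] :
    FiniteDimensional (hsh_Kj L) (hs_E L h3 N) :=
  hsf_tower_finite_E L h3 N (hsh_Kj L) (mem_adjoin_simple_self L _) (hsh_Kj_le_E L h3 N)

theorem hsr_ramData : rml_RamData L (algebraMap (hsh_Kj L) (hs_F3 L N) (hsh_j L)) N :=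
  rml_ramData3 L N

/-- **`hH` of `mdl_regAt` for the Hesse cover, `x = μ`, `C ⊇ {1, ω, ω²}`.** -/
theorem hsr_hH_mu (ω : O) (hω : ω ^ 2 + ω + 1 = 0) (C : Finset O) (h1 : (1 : O) ∈ C)
    (hω1 : ω ∈ C) (hω2 : ω ^ 2 ∈ C) :
    ∀ (V2 : Subring ↥(hs_K L h3)) [IsDiscreteValuationRing V2]
      [IsFractionRing V2 ↥(hs_K L h3)],
      (∀ a : L, algebraMap L ↥(hs_K L h3) a ∈ V2) → hsh_muK L h3 ∈ V2 →
      (∀ c ∈ C, (hsh_muK L h3 - algebraMap O ↥(hs_K L h3) c)⁻¹ ∈ V2) →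
      jt_UnramAt V2 ↥(hs_E L h3 N) := by
  intro V2 _ _ hL hμ hC
  haveI : CharZero L := algebraRat.charZero L
  haveI := hsr_finiteDimensional_Kj_E L h3 N
  exact hsr_gen_H_mu (hsh_hgen L h3 N) (hsh_j L) (hsh_adjoin_j L) N (hsr_ramData L N)
    (hsh_muK L h3) (hsh_hesse_K L h3) ω hω C h1 hω1 hω2 V2 hL hμ hC

/-- **`hT` of `mdl_regAt` for the Hesse cover, `x = μ`, cusps `c³ = 1`.** -/
theorem hsr_hT_mu (C : Finset O) (hC3 : ∀ c ∈ C, c ^ 3 = 1) :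
    ∀ c ∈ C, ∀ (V2 : Subring ↥(hs_K L h3)) [IsDiscreteValuationRing V2]
      [IsFractionRing V2 ↥(hs_K L h3)],
      (∀ a : L, algebraMap L ↥(hs_K L h3) a ∈ V2) → hsh_muK L h3 ∈ V2 →
      (hsh_muK L h3 - algebraMap O ↥(hs_K L h3) c)⁻¹ ∉ V2 →
      ∀ (P : Ideal (integralClosure V2 ↥(hs_E L h3 N))) [P.IsPrime], P ≠ ⊥ →
        P.ramificationIdx V2 ∣ N := by
  intro c hc V2 _ _ hL hμ hcinv P _ hP
  haveI : CharZero L := algebraRat.charZero L
  haveI := hsr_finiteDimensional_Kj_E L h3 N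
  exact hsr_gen_T_mu (hsh_hgen L h3 N) (hsh_j L) N (hsr_ramData L N)
    (hsh_muK L h3) (hsh_hesse_K L h3) c (hC3 c hc) V2 hL hμ hcinv P hP

theorem hsr_muK_ne_zero : hsh_muK L h3 ≠ 0 := fun h =>
  hs_mu_ne_zero L h3 (congrArg Subtype.val h)

/-- **`hH` of `mdl_regAt` for the Hesse cover, `x = μ⁻¹`, `C ⊇ {0, 1, ω, ω²}`.** -/
theorem hsr_hH_inv (ω : O) (hω : ω ^ 2 + ω + 1 = 0) (C : Finset O) (h0 : (0 : O) ∈ C)
    (h1 : (1 : O) ∈ C) (hω1 : ω ∈ C) (hω2 : ω ^ 2 ∈ C) :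
    ∀ (V2 : Subring ↥(hs_K L h3)) [IsDiscreteValuationRing V2]
      [IsFractionRing V2 ↥(hs_K L h3)],
      (∀ a : L, algebraMap L ↥(hs_K L h3) a ∈ V2) → (hsh_muK L h3)⁻¹ ∈ V2 →
      (∀ c ∈ C, ((hsh_muK L h3)⁻¹ - algebraMap O ↥(hs_K L h3) c)⁻¹ ∈ V2) →
      jt_UnramAt V2 ↥(hs_E L h3 N) := by
  intro V2 _ _ hL hν hC
  haveI : CharZero L := algebraRat.charZero L
  haveI := hsr_finiteDimensional_Kj_E L h3 N
  exact hsr_gen_H_inv (hsh_hgen L h3 N) (hsh_j L) (hsh_adjoin_j L) N (hsr_ramData L N)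
    (hsh_muK L h3) (hsr_muK_ne_zero L h3) (hsh_hesse_K L h3) ω hω C h0 h1 hω1 hω2 V2 hL hν hC

/-- **`hT` of `mdl_regAt` for the Hesse cover, `x = μ⁻¹`, cusps `c = 0` or `c³ = 1`.** -/
theorem hsr_hT_inv (C : Finset O) (hC3 : ∀ c ∈ C, c = 0 ∨ c ^ 3 = 1) :
    ∀ c ∈ C, ∀ (V2 : Subring ↥(hs_K L h3)) [IsDiscreteValuationRing V2]
      [IsFractionRing V2 ↥(hs_K L h3)],
      (∀ a : L, algebraMap L ↥(hs_K L h3) a ∈ V2) → (hsh_muK L h3)⁻¹ ∈ V2 →
      ((hsh_muK L h3)⁻¹ - algebraMap O ↥(hs_K L h3) c)⁻¹ ∉ V2 →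
      ∀ (P : Ideal (integralClosure V2 ↥(hs_E L h3 N))) [P.IsPrime], P ≠ ⊥ →
        P.ramificationIdx V2 ∣ N := by
  intro c hc V2 _ _ hL hν hcinv P _ hP
  haveI : CharZero L := algebraRat.charZero L
  haveI := hsr_finiteDimensional_Kj_E L h3 N
  exact hsr_gen_T_inv (hsh_hgen L h3 N) (hsh_j L) N (hsr_ramData L N)
    (hsh_muK L h3) (hsr_muK_ne_zero L h3) (hsh_hesse_K L h3) c (hC3 c hc) V2 hL hν hcinv P hP

end Concrete

section Cusps

variable {O : Type*} [CommRing O] [DecidableEq O] (ω : O)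

theorem hsr_omega_cube (hω : ω ^ 2 + ω + 1 = 0) : ω ^ 3 = 1 := by
  linear_combination (ω - 1) * hω

/-- the cusps of the `μ`-chart are cube roots of unity. -/
theorem hsr_C1_cube (hω : ω ^ 2 + ω + 1 = 0) : ∀ c ∈ ({1, ω, ω ^ 2} : Finset O), c ^ 3 = 1 := by
  have h := hsr_omega_cube ω hω
  intro c hc
  simp only [Finset.mem_insert, Finset.mem_singleton] at hc
  rcases hc with rfl | rfl | rfl
  · exact one_pow 3
  · exact h
  · rw [← pow_mul, mul_comm, pow_mul, h, one_pow]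

/-- the cusps of the `μ⁻¹`-chart are `0` and the cube roots of unity. -/
theorem hsr_C2_cube (hω : ω ^ 2 + ω + 1 = 0) :
    ∀ c ∈ ({0, 1, ω, ω ^ 2} : Finset O), c = 0 ∨ c ^ 3 = 1 := by
  intro c hc
  rw [Finset.mem_insert] at hc
  rcases hc with rfl | hc
  · exact Or.inl rfl
  · exact Or.inr (hsr_C1_cube ω hω c hc)

/-- the cusps of the `μ`-chart are pairwise distinct modulo the maximal ideal (`3` a unit). -/
theorem hsr_C1_units (hω : ω ^ 2 + ω + 1 = 0) (h3 : IsUnit (3 : O)) :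
    ∀ c ∈ ({1, ω, ω ^ 2} : Finset O), ∀ c' ∈ ({1, ω, ω ^ 2} : Finset O), c ≠ c' →
      IsUnit (c - c') := by
  have hc3 := hsr_omega_cube ω hω
  have hωu : IsUnit ω := IsUnit.of_mul_eq_one (ω ^ 2) (by rw [← hc3]; ring)
  have hprod : (1 - ω) * (1 - ω ^ 2) = 3 := by linear_combination (-(1 : O)) * hω + hc3
  have hu1 : IsUnit (1 - ω) := isUnit_of_mul_isUnit_left (hprod ▸ h3)
  have hu2 : IsUnit (1 - ω ^ 2) := isUnit_of_mul_isUnit_right (hprod ▸ h3)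
  have hu3 : IsUnit (ω - ω ^ 2) := by
    have : ω - ω ^ 2 = ω * (1 - ω) := by ring
    rw [this]; exact hωu.mul hu1
  have hneg : ∀ {a b : O}, IsUnit (a - b) → IsUnit (b - a) := fun {a b} h => by
    rw [← neg_sub]; exact h.neg
  intro c hc c' hc' hne
  simp only [Finset.mem_insert, Finset.mem_singleton] at hc hc'
  rcases hc with rfl | rfl | rfl <;> rcases hc' with rfl | rfl | rfl
  · exact absurd rfl hne
  · exact hu1
  · exact hu2
  · exact hneg hu1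
  · exact absurd rfl hne
  · exact hu3
  · exact hneg hu2
  · exact hneg hu3
  · exact absurd rfl hne

/-- the cusps of the `μ⁻¹`-chart are pairwise distinct modulo the maximal ideal. -/
theorem hsr_C2_units (hω : ω ^ 2 + ω + 1 = 0) (h3 : IsUnit (3 : O)) :
    ∀ c ∈ ({0, 1, ω, ω ^ 2} : Finset O), ∀ c' ∈ ({0, 1, ω, ω ^ 2} : Finset O), c ≠ c' →
      IsUnit (c - c') := by
  have hcube := hsr_C1_cube ω hω
  have hunit : ∀ c ∈ ({1, ω, ω ^ 2} : Finset O), IsUnit c := fun c hc =>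
    IsUnit.of_mul_eq_one (c ^ 2) (by rw [← hcube c hc]; ring)
  intro c hc c' hc' hne
  rw [Finset.mem_insert] at hc hc'
  rcases hc with rfl | hc <;> rcases hc' with rfl | hc'
  · exact absurd rfl hne
  · rw [zero_sub]; exact (hunit c' hc').neg
  · rw [sub_zero]; exact hunit c hc
  · exact hsr_C1_units ω hω h3 c hc c' hc' hne

end Cusps

end Fermat.Agent.JT3
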