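import Fermat.Agent.JT3.Inst.Ram
import Fermat.Agent.JT3.Inst.RegApply

/-!
# JT3 / Route R (S18): the ramification hypotheses `lg_RamHyp` of the Legendre cover (prefix `lgr_`)
-/

set_option autoImplicit false

open IntermediateField

namespace Fermat.Agent.JT3

open Fermat.Agent.S24

section

attribute [local instance] lgh_algKjK lgh_algKjF2 lgh_algKjE lgh_algF2E lgh_algKE

/-- `lg_RamHyp N x` for every anharmonic coordinate `x` of `L(λ)`. -/
theorem lgr_ramHyp {L : Type*} [Field L] [CharZero L] [Algebra ℚ L] [Algebra L Kbar]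
    [IsScalarTower ℚ L Kbar] (N : ℕ) [NeZero N] {x : lg_K L}
    (hrel : cv_legN x = algebraMap (lgh_Kj L) (lg_K L) (lgh_j L) * cv_legD x) :
    lg_RamHyp N x :=
  ⟨fun V2 _ _ hL hx hx0 hx1 => lgr_hH N hrel V2 hL hx hx0 hx1,
   fun V2 _ _ hL hx hx0 P _ hP => lgr_hT0 N hrel V2 hL hx hx0 P hP,
   fun V2 _ _ hL hx hx1 P _ hP => lgr_hT1 N hrel V2 hL hx hx1 P hP⟩

/-- **the hypothesis `hram` of `lg_S18_of_ram`**. -/
theorem lgr_hram (N : ℕ) [NeZero N] (L1 : Type) [Field L1] [NumberField L1]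
    [Algebra L1 (AlgebraicClosure ℚ)] :
    lg_RamHyp N (lgh_lamK L1) ∧ lg_RamHyp N (lgh_lamK L1)⁻¹ :=
  ⟨lgr_ramHyp N (lgh_legendre_K L1), lgr_ramHyp N (lgr_legendre_K_inv L1)⟩

end

end Fermat.Agent.JT3
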