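/-
JT3 / Route R (S18): S18 for `ℓ ≠ 3` (in particular `ℓ = 2`) from the three ramification cores
of the Hesse cover over number fields (`hs_S18_of_ram` + helper22's wrapper `hsrw_`).
-/
import Mathlib
import Fermat.Agent.JT3.Inst.S18Ram
import Fermat.Agent.JT3.Inst.HesseRamWrap

set_option autoImplicit false

noncomputable section

open ModularCurve IntermediateField AlgebraicCurve

namespace Fermat.Agent.JT3

section S18Cores

attribute [local instance] hsh_algKE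

/-- the three ramification cores of the Hesse cover over `L`. -/
structure hs_RamCores (L : Type*) [Field L] [CharZero L] (h3 : (3 : L) ≠ 0) (N : ℕ) [NeZero N] :
    Prop where
  cH : ∀ (V2 : Subring (hs_K L h3)) [IsDiscreteValuationRing V2] [IsFractionRing V2 (hs_K L h3)],
    (∀ a : L, algebraMap L (hs_K L h3) a ∈ V2) → hsh_muK L h3 ∈ V2 →
    ((hsh_muK L h3) ^ 3 - 1)⁻¹ ∈ V2 → jt_UnramAt V2 (hs_E L h3 N)
  cT : ∀ (V2 : Subring (hs_K L h3)) [IsDiscreteValuationRing V2] [IsFractionRing V2 (hs_K L h3)],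
    (∀ a : L, algebraMap L (hs_K L h3) a ∈ V2) → hsh_muK L h3 ∈ V2 →
    ((hsh_muK L h3) ^ 3 - 1)⁻¹ ∉ V2 →
    ∀ (P : Ideal (integralClosure V2 (hs_E L h3 N))) [P.IsPrime], P ≠ ⊥ →
      P.ramificationIdx V2 ∣ N
  cTinf : ∀ (V2 : Subring (hs_K L h3)) [IsDiscreteValuationRing V2]
    [IsFractionRing V2 (hs_K L h3)],
    (∀ a : L, algebraMap L (hs_K L h3) a ∈ V2) → hsh_muK L h3 ∉ V2 →
    ∀ (P : Ideal (integralClosure V2 (hs_E L h3 N))) [P.IsPrime], P ≠ ⊥ →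
      P.ramificationIdx V2 ∣ N

/-- **S18 for `ℓ ≠ 3` from the three ramification cores of the Hesse cover.** -/
theorem hs_S18_of_cores (N : ℕ) [NeZero N] {ℓ : ℕ} [Fact ℓ.Prime] (hℓN : ¬ ℓ ∣ N) (hℓ3 : ℓ ≠ 3)
    (A : ValuationSubring (AlgebraicClosure ℚ)) (hA : A.LiesOverPrime ℓ)
    (h : ReductionInputsModL A N) (m : ℕ) (hm : ¬ ℓ ∣ m)
    (hcores : ∀ (L1 : Type) [Field L1] [NumberField L1] [Algebra L1 (AlgebraicClosure ℚ)]
      (h3 : (3 : L1) ≠ 0), hs_RamCores L1 h3 N)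
    (z : JZero N) (hmz : m • z = 0) (hz : reductionModL A N z = 0) : z = 0 := by
  refine hs_S18_of_ram N hℓN hℓ3 A hA h m hm ?_ z hmz hz
  intro L1 _ _ _ h3 ω hω
  obtain ⟨cH, cT, cTinf⟩ := hcores L1 h3
  exact ⟨hsrw_ramHyp3 h3 N ω hω cH cT, hsrw_ramHyp4 h3 N ω hω cH cT cTinf⟩

end S18Cores

end Fermat.Agent.JT3
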